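/-
Cluster G (S36), seat SEED-ENDS-MID (helper24): **the ramification index `midDeg q`** of
`k(Z)(θ j̄) / k(Z)` at the supersingular places, and the place `igPv P` over a place `P`
(the fields `pv`, `pv_inj`, `z1m`, `o1m` of `ModEndsInput` at the middle vertices).

Abstract (radical extension `L = K₀(y)`, `y ^ d = t`, `gcd (d, ord_P t) = 1`):
* `igram_ram_eq`          : a place `Q` over `P` has `ord_Q (φ x) = d · ord_P x` for all `x`.

Modular (`k` algebraically closed of characteristic `q ∤ M₀`, `P` supersingular with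
`ord_P ssFun = 12`):
* `igram_ord_incl`        : `ord_Q (incl x) = midDeg q · ord_P x` for every `Q` over `P`;
* `igram_ord_ssFun_over`  : `ord_Q (incl u) = midDeg q · 12` for `u = ssFun`;
* `igram_over_inj`        : a place of `k(Z)(θ j̄)` lies over at most one place of `k(Z)`;
* `igram_ss_of_zero`      : a zero `Q` of `incl ssFun` lies over a supersingular place;
* `igPv`, `igPv_over`, `igPv_unique`, `igPv_inj`, `igPv_of_zero`, `igPv_ord`, `igPv_ord_ssFun`.
-/
import Mathlib
import Fermat.Agent.S36.Igusa.DegOf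
attribute [local instance 10000] SubalgebraClass.toAlgebra HahnSeries.powerSeriesAlgebra

set_option autoImplicit false
set_option linter.unusedSectionVars false
set_option linter.style.haveILetI false

noncomputable section

open AlgebraicCurve ModularCurve Fermat.Agent.BadRed Fermat.Agent.RR Fermat.Agent.RedTr

namespace Fermat.Agent.S36G

section Abstract

variable {K F L : Type*} [Field K] [Field F] [Field L] [Algebra K F] [Algebra K L]

/-- **the ramification index of a totally ramified radical extension**: `L = K₀(y)`,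
`y ^ d = t`, `gcd (d, ord_P t) = 1`: a place `Q` of `L` over `P` has `e(Q | P) = d`. -/
theorem igram_ram_eq (φ : F →ₐ[K] L) (y : L) (d : ℕ) (t : F) (hφ : φ.toRingHom.IsIntegral)
    (hd : 0 < d) (hy : y ≠ 0) (ht : φ t = y ^ d)
    (hgen : ∀ z : L, ∃ a : Fin d → F, z = ∑ i, φ (a i) * y ^ (i : ℕ))
    (P : Place K F) (hcop : IsCoprime (d : ℤ) (P.ord t)) (Q : Place K L)
    (hQ : ∀ x : F, 0 < P.ord x → 0 < Q.ord (φ x)) (x : F) :
    Q.ord (φ x) = (d : ℤ) * P.ord x := by
  classical
  obtain ⟨e, hepos, he⟩ := igram_exists_ram φ hφ P Q hQ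
  have hd' : (0 : ℤ) < d := by exact_mod_cast hd
  -- `d ∣ e`
  have h1 : (d : ℤ) * Q.ord y = e * P.ord t := by
    rw [← he t, ht, igram_ord_pow]
  have hde : (d : ℤ) ∣ e := hcop.dvd_of_dvd_mul_right ⟨Q.ord y, h1.symm⟩
  -- `e ∣ d`, from a uniformizer of `Q`
  obtain ⟨π, hπ⟩ := IsDiscreteValuationRing.exists_irreducible Q.toValuationSubring
  have hπ1 : Q.ord (π : L) = 1 := Q.ord_coe_irreducible hπ
  obtain ⟨a, ha⟩ := hgen (π : L)
  set s : Finset (Fin d) := Finset.univ.filter fun i => a i ≠ 0 with hs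
  have hsum : ∑ i, φ (a i) * y ^ (i : ℕ) = ∑ i ∈ s, φ (a i) * y ^ (i : ℕ) := by
    rw [hs, Finset.sum_filter]
    refine Finset.sum_congr rfl fun i _ => ?_
    by_cases h : a i = 0
    · simp [h]
    · simp [h]
  have hmem : ∀ i ∈ s, a i ≠ 0 := fun i hi => (Finset.mem_filter.mp hi).2
  have hne : s.Nonempty := by
    by_contra hcon
    rw [Finset.not_nonempty_iff_eq_empty] at hcon
    rw [ha, hsum, hcon, Finset.sum_empty, Q.ord_zero] at hπ1
    exact zero_ne_one hπ1
  obtain ⟨j, hj, -, hord, -⟩ := igram_ord_sum Q s (fun i => φ (a i) * y ^ (i : ℕ)) hne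
    (fun i hi => mul_ne_zero ((map_ne_zero φ.toRingHom).mpr (hmem i hi)) (pow_ne_zero _ hy))
    (fun i hi j hj h => igram_ord_term_inj φ y d t hd hy ht P hcop Q e hepos he a i j
      (hmem i hi) (hmem j hj) h)
  have h2 := igram_ord_term φ y d t hy ht P Q e he (hmem j hj) (j : ℕ)
  rw [← hord, ← hsum, ← ha, hπ1, mul_one] at h2
  have hed : e ∣ (d : ℤ) := ⟨_, h2⟩
  have hed' : e = d := Int.dvd_antisymm hepos.le hd'.le hed hde
  rw [he x, hed']

end Abstract

section Modular

variable (M₀ q : ℕ)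

/-- **`ord_Q (incl x) = midDeg q · ord_P x`** for a place `Q` of `k(Z)(θ j̄)` over a
supersingular place `P` of `k(Z)` with `ord_P ssFun = 12`. -/
theorem igram_ord_incl (hq : q.Prime) (hqM : ¬ q ∣ M₀) (k : Type) [Field k] [IsAlgClosed k]
    [CharP k q] (P : Place k ↥(modularFunctionFieldFullC k M₀)) (hSS : IsSSPlace k M₀ q P)
    (hno : ∀ u : ↥(modularFunctionFieldFullC k M₀), (u : LaurentSeries k) = ssFun k q →
      P.ord u = 12)
    (Q : Place k ↥(igField k M₀))
    (hQ : ∀ x : ↥(modularFunctionFieldFullC k M₀), 0 < P.ord x →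
      0 < Q.ord (IntermediateField.inclusion (fullC_le_igField k M₀) x))
    (x : ↥(modularFunctionFieldFullC k M₀)) :
    Q.ord (IntermediateField.inclusion (fullC_le_igField k M₀) x) =
      (midDeg q : ℤ) * P.ord x := by
  obtain ⟨y, t, -, ht, hy0, hty, hgen, hφ⟩ := igram_setup M₀ q hq k
  have hcop := igram_coprime_all M₀ q hq hqM k P hSS hno t ht
  exact igram_ram_eq (IntermediateField.inclusion (fullC_le_igField k M₀)) y (midDeg q) t hφ
    (igram_midDeg_pos hq) hy0 hty hgen P hcop Q hQ x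

/-- the order of `ssFun` at the place over a supersingular place. -/
theorem igram_ord_ssFun_over (hq : q.Prime) (hqM : ¬ q ∣ M₀) (k : Type) [Field k]
    [IsAlgClosed k] [CharP k q] (P : Place k ↥(modularFunctionFieldFullC k M₀))
    (hSS : IsSSPlace k M₀ q P)
    (hno : ∀ u : ↥(modularFunctionFieldFullC k M₀), (u : LaurentSeries k) = ssFun k q →
      P.ord u = 12)
    (Q : Place k ↥(igField k M₀))
    (hQ : ∀ x : ↥(modularFunctionFieldFullC k M₀), 0 < P.ord x →
      0 < Q.ord (IntermediateField.inclusion (fullC_le_igField k M₀) x))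
    (u : ↥(modularFunctionFieldFullC k M₀)) (hu : (u : LaurentSeries k) = ssFun k q) :
    Q.ord (IntermediateField.inclusion (fullC_le_igField k M₀) u) = (midDeg q : ℤ) * 12 := by
  rw [igram_ord_incl M₀ q hq hqM k P hSS hno Q hQ u, hno u hu]

/-- a place of `k(Z)(θ j̄)` lies over at most one place of `k(Z)`. -/
theorem igram_over_inj (k : Type) [Field k]
    (P P' : Place k ↥(modularFunctionFieldFullC k M₀)) (Q : Place k ↥(igField k M₀))
    (hQ : ∀ x : ↥(modularFunctionFieldFullC k M₀), 0 < P.ord x →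
      0 < Q.ord (IntermediateField.inclusion (fullC_le_igField k M₀) x))
    (hQ' : ∀ x : ↥(modularFunctionFieldFullC k M₀), 0 < P'.ord x →
      0 < Q.ord (IntermediateField.inclusion (fullC_le_igField k M₀) x))
    (hφ : (IntermediateField.inclusion (fullC_le_igField k M₀)).toRingHom.IsIntegral) :
    P = P' := by
  have h1 : Q.restrictAlong (IntermediateField.inclusion (fullC_le_igField k M₀)) hφ = P :=
    igram_place_eq_of_pos P _ fun x hx =>
      (Fermat.Agent.RRRel.ord_map_pos_iff _ hφ Q x).mp (hQ x hx)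
  have h2 : Q.restrictAlong (IntermediateField.inclusion (fullC_le_igField k M₀)) hφ = P' :=
    igram_place_eq_of_pos P' _ fun x hx =>
      (Fermat.Agent.RRRel.ord_map_pos_iff _ hφ Q x).mp (hQ' x hx)
  rw [← h1, ← h2]

/-- **the zeros of `ssFun` in `k(Z)(θ j̄)` lie over the supersingular places.** -/
theorem igram_ss_of_zero (hq : q.Prime) (k : Type) [Field k] [CharP k q]
    (Q : Place k ↥(igField k M₀)) (u : ↥(modularFunctionFieldFullC k M₀))
    (hu : (u : LaurentSeries k) = ssFun k q)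
    (hQu : 0 < Q.ord (IntermediateField.inclusion (fullC_le_igField k M₀) u)) :
    ∃ P : Place k ↥(modularFunctionFieldFullC k M₀), IsSSPlace k M₀ q P ∧
      ∀ x : ↥(modularFunctionFieldFullC k M₀), 0 < P.ord x →
        0 < Q.ord (IntermediateField.inclusion (fullC_le_igField k M₀) x) := by
  obtain ⟨y, t, -, -, -, -, -, hφ⟩ := igram_setup M₀ q hq k
  refine ⟨Q.restrictAlong (IntermediateField.inclusion (fullC_le_igField k M₀)) hφ,
    ⟨u, hu, (Fermat.Agent.RRRel.ord_map_pos_iff _ hφ Q u).mp hQu⟩, fun x hx => ?_⟩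
  exact (Fermat.Agent.RRRel.ord_map_pos_iff _ hφ Q x).mpr hx

/-! ### the place over `P` -/

/-- a place of `k(Z)(θ j̄)` over the place `P` of `k(Z)`. -/
def igPv (hq : q.Prime) (hqM : ¬ q ∣ M₀) (k : Type) [Field k] [IsAlgClosed k] [CharP k q]
    (hRR : IsRRField k ↥(igField k M₀)) (P : Place k ↥(modularFunctionFieldFullC k M₀)) :
    Place k ↥(igField k M₀) :=
  Classical.choose (igram_exists_place_over M₀ q hq hqM k hRR P)

variable {M₀ q}

theorem igPv_over (hq : q.Prime) (hqM : ¬ q ∣ M₀) (k : Type) [Field k] [IsAlgClosed k]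
    [CharP k q] (hRR : IsRRField k ↥(igField k M₀))
    (P : Place k ↥(modularFunctionFieldFullC k M₀))
    (x : ↥(modularFunctionFieldFullC k M₀)) (hx : 0 < P.ord x) :
    0 < (igPv M₀ q hq hqM k hRR P).ord
      (IntermediateField.inclusion (fullC_le_igField k M₀) x) :=
  Classical.choose_spec (igram_exists_place_over M₀ q hq hqM k hRR P) x hx

/-- `igPv P` is THE place over a supersingular place `P` with `ord_P ssFun = 12`. -/
theorem igPv_unique (hq : q.Prime) (hqM : ¬ q ∣ M₀) (k : Type) [Field k] [IsAlgClosed k]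
    [CharP k q] (hRR : IsRRField k ↥(igField k M₀))
    (P : Place k ↥(modularFunctionFieldFullC k M₀)) (hSS : IsSSPlace k M₀ q P)
    (hno : ∀ u : ↥(modularFunctionFieldFullC k M₀), (u : LaurentSeries k) = ssFun k q →
      P.ord u = 12)
    (Q : Place k ↥(igField k M₀))
    (hQ : ∀ x : ↥(modularFunctionFieldFullC k M₀), 0 < P.ord x →
      0 < Q.ord (IntermediateField.inclusion (fullC_le_igField k M₀) x)) :
    Q = igPv M₀ q hq hqM k hRR P :=
  igTotRam M₀ q hq hqM k P hSS hno Q _ hQ (igPv_over hq hqM k hRR P)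

theorem igPv_inj (hq : q.Prime) (hqM : ¬ q ∣ M₀) (k : Type) [Field k] [IsAlgClosed k]
    [CharP k q] (hRR : IsRRField k ↥(igField k M₀))
    (P P' : Place k ↥(modularFunctionFieldFullC k M₀))
    (h : igPv M₀ q hq hqM k hRR P = igPv M₀ q hq hqM k hRR P') : P = P' := by
  obtain ⟨y, t, -, -, -, -, -, hφ⟩ := igram_setup M₀ q hq k
  refine igram_over_inj M₀ k P P' (igPv M₀ q hq hqM k hRR P) (igPv_over hq hqM k hRR P) ?_ hφ
  rw [h]
  exact igPv_over hq hqM k hRR P'

/-- **`z1m`**: a zero of `incl ssFun` is `igPv P` for a supersingular place `P`. -/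
theorem igPv_of_zero (hq : q.Prime) (hqM : ¬ q ∣ M₀) (k : Type) [Field k] [IsAlgClosed k]
    [CharP k q] (hRR : IsRRField k ↥(igField k M₀))
    (hno : ∀ P : Place k ↥(modularFunctionFieldFullC k M₀), IsSSPlace k M₀ q P →
      ∀ u : ↥(modularFunctionFieldFullC k M₀), (u : LaurentSeries k) = ssFun k q →
        P.ord u = 12)
    (Q : Place k ↥(igField k M₀)) (u : ↥(modularFunctionFieldFullC k M₀))
    (hu : (u : LaurentSeries k) = ssFun k q)
    (hQu : 0 < Q.ord (IntermediateField.inclusion (fullC_le_igField k M₀) u)) :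
    ∃ P : Place k ↥(modularFunctionFieldFullC k M₀), IsSSPlace k M₀ q P ∧
      igPv M₀ q hq hqM k hRR P = Q := by
  obtain ⟨P, hP, hQ⟩ := igram_ss_of_zero M₀ q hq k Q u hu hQu
  exact ⟨P, hP, (igPv_unique hq hqM k hRR P hP (hno P hP) Q hQ).symm⟩

/-- `ord_{igPv P} (incl x) = midDeg q · ord_P x`. -/
theorem igPv_ord (hq : q.Prime) (hqM : ¬ q ∣ M₀) (k : Type) [Field k] [IsAlgClosed k]
    [CharP k q] (hRR : IsRRField k ↥(igField k M₀))
    (P : Place k ↥(modularFunctionFieldFullC k M₀)) (hSS : IsSSPlace k M₀ q P)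
    (hno : ∀ u : ↥(modularFunctionFieldFullC k M₀), (u : LaurentSeries k) = ssFun k q →
      P.ord u = 12)
    (x : ↥(modularFunctionFieldFullC k M₀)) :
    (igPv M₀ q hq hqM k hRR P).ord (IntermediateField.inclusion (fullC_le_igField k M₀) x) =
      (midDeg q : ℤ) * P.ord x :=
  igram_ord_incl M₀ q hq hqM k P hSS hno _ (igPv_over hq hqM k hRR P) x

/-- **`o1m`**: `ord_{igPv P} (incl ssFun) = 12 · midDeg q`. -/
theorem igPv_ord_ssFun (hq : q.Prime) (hqM : ¬ q ∣ M₀) (k : Type) [Field k] [IsAlgClosed k]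
    [CharP k q] (hRR : IsRRField k ↥(igField k M₀))
    (P : Place k ↥(modularFunctionFieldFullC k M₀)) (hSS : IsSSPlace k M₀ q P)
    (hno : ∀ u : ↥(modularFunctionFieldFullC k M₀), (u : LaurentSeries k) = ssFun k q →
      P.ord u = 12)
    (u : ↥(modularFunctionFieldFullC k M₀)) (hu : (u : LaurentSeries k) = ssFun k q) :
    (igPv M₀ q hq hqM k hRR P).ord (IntermediateField.inclusion (fullC_le_igField k M₀) u) =
      (midDeg q : ℤ) * 12 :=
  igram_ord_ssFun_over M₀ q hq hqM k P hSS hno _ (igPv_over hq hqM k hRR P) u hu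

end Modular

end Fermat.Agent.S36G
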