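/-
Cluster G (S36), seat IG (architect helper52): second batch of assembly statements.

* `IgPowIndep` : `1, θ j̄, …, (θ j̄)^(d-1)` (`d = midDeg q`) are linearly independent over `k(Z)`
  (seat IG-POW: from `IgDegree`; pure field theory).
-/
import Mathlib
import Fermat.Agent.S36.Igusa.Defs

set_option autoImplicit false

noncomputable section

namespace Fermat.Agent.S36G

open ModularCurve

/-- **(POW)** the powers `(θ j̄)^l`, `l < midDeg q`, are linearly independent over `k(Z)`. -/
def IgPowIndep (M₀ q : ℕ) : Prop :=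
  q.Prime → ¬ q ∣ M₀ → ∀ (k : Type) [Field k] [IsAlgClosed k] [CharP k q],
    ∀ c : Fin (midDeg q) → LaurentSeries k, (∀ l, c l ∈ modularFunctionFieldFullC k M₀) →
      ∑ l, c l * Fermat.Agent.IgusaDeg.theta k (jqModC k) ^ (l : ℕ) = 0 → ∀ l, c l = 0

end Fermat.Agent.S36G
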