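/-
Cluster G (S36), seat IG-POW (helper51; sub-architect helper52).

`igPowIndep_of_degree : IgDegree M₀ q → IgPowIndep M₀ q`: the powers `(θ j̄)^l`, `l < midDeg q`,
are linearly independent over `k(Z)`, because `[k(Z)(θ j̄) : k(Z)] = midDeg q`.
Pure field theory (`linearIndependent_pow` + `relfinrank`).
-/
import Mathlib
import Fermat.Agent.S36.Igusa.AsmDefs2

set_option autoImplicit false

noncomputable section

namespace Fermat.Agent.S36G

open ModularCurve

/-- abstract form: if `[E(θ) : E] = d` then `1, θ, …, θ^(d-1)` are linearly independent over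
`E` (for `d = 0` there is nothing to prove). -/
theorem igPow_indep_of_relfinrank {k L : Type*} [Field k] [Field L] [Algebra k L]
    (E : IntermediateField k L) (θ : L) (d : ℕ)
    (hdeg : IntermediateField.relfinrank E
      (IntermediateField.adjoin k ((E : Set L) ∪ {θ})) = d)
    (c : Fin d → L) (hc : ∀ l, c l ∈ E) (hsum : ∑ l, c l * θ ^ (l : ℕ) = 0) :
    ∀ l, c l = 0 := by
  rcases Nat.eq_zero_or_pos d with hd0 | hdpos
  · subst hd0
    intro l
    exact l.elim0
  have hle : E ≤ IntermediateField.adjoin k ((E : Set L) ∪ {θ}) := fun x hx =>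
    IntermediateField.subset_adjoin k _ (Or.inl hx)
  rw [IntermediateField.relfinrank_eq_finrank_of_le hle] at hdeg
  have hext : IntermediateField.extendScalars hle = IntermediateField.adjoin E {θ} := by
    apply IntermediateField.restrictScalars_injective k
    rw [IntermediateField.extendScalars_restrictScalars,
      IntermediateField.restrictScalars_adjoin]
  rw [hext] at hdeg
  -- `θ` is algebraic over `E`
  have hfin : Module.Finite E ↥(IntermediateField.adjoin E {θ}) :=
    Module.finite_of_finrank_pos (by rw [hdeg]; exact hdpos)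
  have hint : IsIntegral E θ := by
    have h1 : IsIntegral E (⟨θ, IntermediateField.mem_adjoin_simple_self E θ⟩ :
        ↥(IntermediateField.adjoin E {θ})) := IsIntegral.of_finite E _
    have h2 := h1.map (IntermediateField.val (IntermediateField.adjoin E {θ}))
    exact h2
  have hnat : (minpoly E θ).natDegree = d := by
    rw [← IntermediateField.adjoin.finrank hint]
    exact hdeg
  have hli := linearIndependent_pow (K := E) θ
  rw [Fintype.linearIndependent_iff] at hli
  intro l
  have key := hli (fun i => (⟨c (Fin.cast hnat i), hc _⟩ : E)) (by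
    have h3 : ∑ i : Fin (minpoly E θ).natDegree,
        (⟨c (Fin.cast hnat i), hc _⟩ : E) • θ ^ (i : ℕ) =
        ∑ l : Fin d, c l * θ ^ (l : ℕ) := by
      refine Fintype.sum_equiv (finCongr hnat) _ _ (fun i => ?_)
      rfl
    rw [h3]
    exact hsum) (Fin.cast hnat.symm l)
  have h4 := congrArg Subtype.val key
  simpa using h4

/-- **(IG-POW)** -/
theorem igPowIndep_of_degree (M₀ q : ℕ) (h : IgDegree M₀ q) : IgPowIndep M₀ q := by
  intro hq hqM k _ _ _ c hc hsum
  exact igPow_indep_of_relfinrank (modularFunctionFieldFullC k M₀)
    (Fermat.Agent.IgusaDeg.theta k (jqModC k)) (midDeg q) (h hq hqM k) c hc hsum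

end Fermat.Agent.S36G
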