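/-
Cluster G (S36), seat IG (architect helper52): the degree statements AT THE RESIDUE FIELDS of
the places of `ℚ̄` over `q` (the forms which the supersingular input `gen_hno` can prove).

* `IgDegreeRes`   : `[k(Z)(θ j̄) : k(Z)] = midDeg q` for `k = ResidueField A`, `A | q`
* `IgPowIndepRes` : the powers `(θ j̄)^l`, `l < midDeg q`, are independent over `k(Z)`, same `k`
-/
import Mathlib
import Fermat.Agent.S36.Igusa.Pow

set_option autoImplicit false

noncomputable section

namespace Fermat.Agent.S36G

open ModularCurve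

local notation "Qb" => AlgebraicClosure ℚ

/-- **(IG2) at the residue fields**: `[k(Z)(θ j̄) : k(Z)] = (q - 1) / |Mid|` for the residue
field `k` of every place `A` of `ℚ̄` over `q`. -/
def IgDegreeRes (M₀ q : ℕ) : Prop :=
  q.Prime → ¬ q ∣ M₀ → ∀ (A : ValuationSubring Qb), A.LiesOverPrime q →
    IntermediateField.relfinrank
      (modularFunctionFieldFullC (IsLocalRing.ResidueField A) M₀)
      (igField (IsLocalRing.ResidueField A) M₀) = midDeg q

/-- **(POW) at the residue fields**. -/
def IgPowIndepRes (M₀ q : ℕ) : Prop :=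
  q.Prime → ¬ q ∣ M₀ → ∀ (A : ValuationSubring Qb), A.LiesOverPrime q →
    ∀ c : Fin (midDeg q) → LaurentSeries (IsLocalRing.ResidueField A),
      (∀ l, c l ∈ modularFunctionFieldFullC (IsLocalRing.ResidueField A) M₀) →
      ∑ l, c l * Fermat.Agent.IgusaDeg.theta (IsLocalRing.ResidueField A)
        (jqModC (IsLocalRing.ResidueField A)) ^ (l : ℕ) = 0 → ∀ l, c l = 0

theorem igPowIndepRes_of_degreeRes (M₀ q : ℕ) (h : IgDegreeRes M₀ q) : IgPowIndepRes M₀ q := by
  intro hq hqM A hA c hc hsum
  exact igPow_indep_of_relfinrank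
    (modularFunctionFieldFullC (IsLocalRing.ResidueField A) M₀)
    (Fermat.Agent.IgusaDeg.theta (IsLocalRing.ResidueField A)
      (jqModC (IsLocalRing.ResidueField A))) (midDeg q) (h hq hqM A hA) c hc hsum

end Fermat.Agent.S36G
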