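/-
Cluster G (S36), seat IG-DEGF (helper33): the degree of `π₁^* : F_{M₀ q} → F_{M₀ q²}`,

  `[F_{M₀ q²} : F_{M₀ q}] = q`        (along `heckeAlphaBar`),

from `[F_B : F_A] ψ(A) = ψ(B)` (`EDescComm.finrankAlong_mul_dedekindPsi`) and
`ψ(N q) = ψ(N) q` for `q ∣ N` (`HeckeComm.dedekindPsi_mul_prime_eq`).
-/
import Fermat.Agent.S36.Igusa.AsmDefs
import Fermat.Agent.E.Desc.Comm.Degree
import Fermat.Agent.Lib.HeckeComm.Psi
attribute [local instance 10000] SubalgebraClass.toAlgebra HahnSeries.powerSeriesAlgebra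

set_option autoImplicit false
set_option linter.style.haveILetI false

noncomputable section

namespace Fermat.Agent.S36G

open ModularCurve AlgebraicCurve

local notation "Qb" => AlgebraicClosure ℚ

/-- `[F_{N q} : F_N] = q` for a prime `q ∣ N` (along `heckeAlphaBar`), in the `finrankAlong`
form. -/
theorem igdf_finrankAlong (N q : ℕ) [NeZero N] [NeZero q] (hq : q.Prime) (hqN : q ∣ N) :
    finrankAlong Qb (heckeAlphaBar Qb N q) = q := by
  have h1 := Fermat.Agent.EDescComm.finrankAlong_mul_dedekindPsi (A := N) (B := N * q)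
    (dvd_mul_right N q) (heckeAlphaBar Qb N q) (fun x => coe_heckeAlphaBar N q x)
  have h2 := Fermat.Agent.HeckeComm.dedekindPsi_mul_prime_eq hq (NeZero.ne N)
  rw [Fermat.Agent.HeckeComm.psiFactor, if_pos hqN] at h2
  have hpos : 0 < dedekindPsi N :=
    Fermat.Agent.EDescComm.dedekindPsi_pos_of_pos (Nat.pos_of_ne_zero (NeZero.ne N))
  rw [h2, mul_comm (dedekindPsi N) q] at h1
  exact Nat.eq_of_mul_eq_mul_right hpos h1

/-- `[F_{N q} : F_N] = q` for a prime `q ∣ N` (along `heckeAlphaBar`). -/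
theorem igdf_finrank (N q : ℕ) [NeZero N] [NeZero q] (hq : q.Prime) (hqN : q ∣ N) :
    letI := (heckeAlphaBar Qb N q).toRingHom.toAlgebra
    FiniteDimensional ↥(modularFunctionFieldBar N) ↥(modularFunctionFieldBar (N * q)) ∧
      Module.finrank ↥(modularFunctionFieldBar N) ↥(modularFunctionFieldBar (N * q)) = q := by
  letI := (heckeAlphaBar Qb N q).toRingHom.toAlgebra
  have h : Module.finrank ↥(modularFunctionFieldBar N) ↥(modularFunctionFieldBar (N * q)) = q :=
    igdf_finrankAlong N q hq hqN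
  refine ⟨?_, h⟩
  exact Module.finite_of_finrank_pos (by rw [h]; exact hq.pos)

/-- **(DEG)** `[F_{M₀ q²} : F_{M₀ q}] = q` along `π₁^* = heckeAlphaBar`. -/
theorem igDegF (M₀ q : ℕ) [NeZero M₀] [NeZero q] : IgDegF M₀ q := by
  intro hq _
  exact igdf_finrank (M₀ * q) q hq (dvd_mul_left q M₀)

end Fermat.Agent.S36G
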