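/-
Cluster G (S36), seat IG-DIST (helper10; sub-architect helper52): the middle valuations are
pairwise distinct up to squares, `IgMidDistinct`.

`(⇒)`  for a non-square `a` the function `g = ((β² j - α j) / (z - 1)) ^ d - α y`
       (`d = (q - 1) / 2`, `y` a lift of `φ = (θ j̄) ^ d ∈ k(Z)`) has residue `0` at `v_z` and
       `- 2 φ ≠ 0` at `v_{z ^ a}`   (`dist_ne_of_not_isSquare`);
`(⇐)`  from the COUNT (`IgMidAtMostTwo`: among three middle valuations two coincide) and `(⇒)`;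
       `q = 2` from the uniqueness of the middle expansion.
-/
import Mathlib
import Fermat.Agent.S36.Igusa.Defs
import Fermat.Agent.Lib.BadRed.Mod.ValInf
import Fermat.Agent.Lib.Kronecker.KroneckerAux
attribute [local instance 10000] SubalgebraClass.toAlgebra HahnSeries.powerSeriesAlgebra

set_option autoImplicit false
set_option linter.unusedVariables false
set_option linter.unusedSectionVars false
set_option linter.style.haveILetI false
set_option synthInstance.maxHeartbeats 400000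

noncomputable section

namespace Fermat.Agent.S36G

open ModularCurve AlgebraicCurve Fermat.Agent.GaussInt Fermat.Agent.Deuring
  Fermat.Agent.Kronecker Fermat.Agent.BadRed

local notation "Qb" => AlgebraicClosure ℚ

/-! ### generic facts on `expOv`, `expRes` -/

section Generic

variable {F : Type*} [Field F] [Algebra Qb F] (ε : F →ₐ[Qb] LaurentSeries Qb)
  (A : ValuationSubring Qb)

theorem dist_expRes_eq_gaussRes {f : F} (hf : f ∈ expOv ε A) :
    expRes ε A f = gaussRes A (⊤ : IntermediateField Qb (LaurentSeries Qb)) ⟨ε f, hf⟩ := rfl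

theorem dist_expRes_mul {f g : F} (hf : f ∈ expOv ε A) (hg : g ∈ expOv ε A) :
    expRes ε A (f * g) = expRes ε A f * expRes ε A g := by
  rw [dist_expRes_eq_gaussRes ε A hf, dist_expRes_eq_gaussRes ε A hg,
    dist_expRes_eq_gaussRes ε A (mul_mem hf hg), ← map_mul]
  congr 1
  exact Subtype.ext (map_mul ε f g)

theorem dist_expRes_sub {f g : F} (hf : f ∈ expOv ε A) (hg : g ∈ expOv ε A) :
    expRes ε A (f - g) = expRes ε A f - expRes ε A g := by
  rw [dist_expRes_eq_gaussRes ε A hf, dist_expRes_eq_gaussRes ε A hg,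
    dist_expRes_eq_gaussRes ε A (sub_mem hf hg), ← map_sub]
  congr 1
  exact Subtype.ext (map_sub ε f g)

theorem dist_expRes_one : expRes ε A (1 : F) = 1 := by
  rw [dist_expRes_eq_gaussRes ε A (one_mem _)]
  have : (⟨ε 1, (one_mem (expOv ε A) : (1 : F) ∈ expOv ε A)⟩ :
      gaussSub A (⊤ : IntermediateField Qb (LaurentSeries Qb))) = 1 := Subtype.ext (map_one ε)
  rw [this, map_one]

theorem dist_expRes_pow {f : F} (hf : f ∈ expOv ε A) (n : ℕ) :
    expRes ε A (f ^ n) = expRes ε A f ^ n := by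
  induction n with
  | zero => rw [pow_zero, pow_zero, dist_expRes_one]
  | succ n ih => rw [pow_succ, pow_succ, dist_expRes_mul ε A (pow_mem hf n) hf, ih]

theorem dist_algebraMap_mem {c : Qb} (hc : c ∈ A) : algebraMap Qb F c ∈ expOv ε A := by
  rw [mem_expOv_iff, AlgHom.commutes]
  exact algebraMap_mem_gaussSub hc

theorem dist_expRes_algebraMap {c : Qb} (hc : c ∈ A) :
    expRes ε A (algebraMap Qb F c) =
      algebraMap (IsLocalRing.ResidueField A) (LaurentSeries (IsLocalRing.ResidueField A))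
        (IsLocalRing.residue A ⟨c, hc⟩) := by
  unfold expRes
  rw [AlgHom.commutes]
  exact gaussResFun_algebraMap hc

theorem dist_expRes_zero : expRes ε A (0 : F) = 0 := by
  rw [dist_expRes_eq_gaussRes ε A (zero_mem _)]
  have : (⟨ε 0, (zero_mem (expOv ε A) : (0 : F) ∈ expOv ε A)⟩ :
      gaussSub A (⊤ : IntermediateField Qb (LaurentSeries Qb))) = 0 := Subtype.ext (map_zero ε)
  rw [this, map_zero]

theorem dist_inv_mem {f : F} (hf : f ∈ expOv ε A) (hres : expRes ε A f ≠ 0) :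
    f⁻¹ ∈ expOv ε A := by
  rw [mem_expOv_iff, map_inv₀]
  exact inv_mem_gaussSub hf hres

/-- **separation**: a function with residue `0` for `ε` and nonzero residue for `ε'` shows
that the two Gauss rings differ. -/
theorem dist_ne_of_sep (ε' : F →ₐ[Qb] LaurentSeries Qb) {g : F}
    (hg : g ∈ expOv ε A) (h0 : expRes ε A g = 0)
    (hg' : g ∈ expOv ε' A) (h1 : expRes ε' A g ≠ 0) : expOv ε A ≠ expOv ε' A := by
  intro heq
  have hg0 : g ≠ 0 := by
    rintro rfl
    exact h1 (dist_expRes_zero ε' A)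
  have hinv' : g⁻¹ ∈ expOv ε' A := dist_inv_mem ε' A hg' h1
  have hinv : g⁻¹ ∈ expOv ε A := by rw [heq]; exact hinv'
  have h := dist_expRes_mul ε A hg hinv
  rw [mul_inv_cancel₀ hg0, dist_expRes_one, h0, zero_mul] at h
  exact one_ne_zero h

end Generic

/-! ### roots of unity and constants -/

section Roots

variable (A : ValuationSubring Qb) {q : ℕ}

theorem dist_root_mem (hq : q.Prime) (z : Qbˣ) (hz : z ^ q = 1) : (z : Qb) ∈ A :=
  mem_valuationSubring_of_pow_eq_one A hq.pos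
    (by rw [← Units.val_pow_eq_pow_val, hz, Units.val_one])

theorem dist_residue_root (hq : q.Prime) (hA : A.LiesOverPrime q) (z : Qbˣ) (hz : z ^ q = 1) :
    IsLocalRing.residue A ⟨(z : Qb), dist_root_mem A hq z hz⟩ = 1 := by
  haveI := charP_residueField_of_liesOverPrime A q hq hA
  haveI : Fact q.Prime := ⟨hq⟩
  have hxq : (IsLocalRing.residue A ⟨(z : Qb), dist_root_mem A hq z hz⟩) ^ q = 1 := by
    rw [← map_pow]
    have : (⟨(z : Qb), dist_root_mem A hq z hz⟩ : A) ^ q = 1 := by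
      apply Subtype.ext
      show (z : Qb) ^ q = 1
      rw [← Units.val_pow_eq_pow_val, hz, Units.val_one]
    rw [this, map_one]
  have h1 : (IsLocalRing.residue A ⟨(z : Qb), dist_root_mem A hq z hz⟩ - 1) ^ q = 0 := by
    rw [sub_pow_char, one_pow, hxq, sub_self]
  exact sub_eq_zero.mp ((pow_eq_zero_iff hq.ne_zero).mp h1)

/-- the constant `(z ^ a - 1) / (z - 1) = 1 + z + ⋯ + z ^ (a - 1)`. -/
def distGeom (z : Qbˣ) (a : ℕ) : Qb := ∑ i ∈ Finset.range a, (z : Qb) ^ i

theorem distGeom_mul (z : Qbˣ) (a : ℕ) : distGeom z a * ((z : Qb) - 1) = (z : Qb) ^ a - 1 :=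
  geom_sum_mul _ _

theorem distGeom_mem (hq : q.Prime) (z : Qbˣ) (hz : z ^ q = 1) (a : ℕ) : distGeom z a ∈ A :=
  sum_mem fun i _ => pow_mem (dist_root_mem A hq z hz) i

theorem dist_residue_distGeom (hq : q.Prime) (hA : A.LiesOverPrime q) (z : Qbˣ) (hz : z ^ q = 1)
    (a : ℕ) :
    IsLocalRing.residue A ⟨distGeom z a, distGeom_mem A hq z hz a⟩ =
      (a : IsLocalRing.ResidueField A) := by
  have h : (⟨distGeom z a, distGeom_mem A hq z hz a⟩ : A) =
      ∑ i ∈ Finset.range a, (⟨(z : Qb), dist_root_mem A hq z hz⟩ : A) ^ i := by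
    apply Subtype.ext
    rw [AddSubmonoidClass.coe_finsetSum]
    rfl
  rw [h, map_sum]
  simp only [map_pow, dist_residue_root A hq hA z hz, one_pow, Finset.sum_const,
    Finset.card_range, nsmul_eq_mul, mul_one]

theorem dist_cast_pow_eq_neg_one (hq : q.Prime) (k : Type*) [Field k] [CharP k q] (a : ℕ)
    (hns : ¬ IsSquare (a : ZMod q)) : (a : k) ^ (q / 2) = -1 := by
  haveI : Fact q.Prime := ⟨hq⟩
  have ha0 : (a : ZMod q) ≠ 0 := fun h => hns (h ▸ ⟨0, by simp⟩)
  have h' : (a : ZMod q) ^ (q / 2) = -1 := by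
    rcases ZMod.pow_div_two_eq_neg_one_or_one q ha0 with h | h
    · exact absurd ((ZMod.euler_criterion q ha0).mpr h) hns
    · exact h
  have := congrArg (ZMod.castHom (dvd_refl q) k) h'
  simpa using this

theorem dist_ne_two_of_not_isSquare (a : ℕ) (hns : ¬ IsSquare (a : ZMod q)) : q ≠ 2 := by
  rintro rfl
  apply hns
  generalize (a : ZMod 2) = x
  fin_cases x
  · exact ⟨0, rfl⟩
  · exact ⟨1, rfl⟩

theorem dist_midDeg_eq_of_ne_two (hq : q.Prime) (hq2 : q ≠ 2) : midDeg q = q / 2 := by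
  unfold midDeg midCard
  rw [if_neg hq2]
  rcases hq.eq_two_or_odd with h | h
  · exact absurd h hq2
  · omega

end Roots

/-! ### the separating function -/

section Modular

variable (M₀ q : ℕ) [NeZero M₀] [NeZero q]

/-- `j`, as an element of `F = F_{M₀ q²}`. -/
def distJ : ↥(modularFunctionFieldBar (M₀ * q * q)) :=
  heckeAlphaBar Qb (M₀ * q) q (Fermat.Agent.S24.jBar (M₀ * q))

/-- `j(q^{q²})`, as an element of `F = F_{M₀ q²}`. -/
def distJ2 : ↥(modularFunctionFieldBar (M₀ * q * q)) :=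
  heckeBetaBar Qb (M₀ * q) q (heckeBetaBar Qb M₀ q (Fermat.Agent.S24.jBar M₀))

/-- the generator `(j(q^{q²}) - j) / (w - 1)`. -/
def distGen (w : Qb) : ↥(modularFunctionFieldBar (M₀ * q * q)) :=
  (distJ2 M₀ q - distJ M₀ q) * algebraMap Qb _ (w - 1)⁻¹

variable {M₀ q}

theorem dist_algebraMap_eq_C (c : Qb) :
    algebraMap Qb (LaurentSeries Qb) c = HahnSeries.C c := by
  have h1 : algebraMap Qb (PowerSeries Qb) c = PowerSeries.C c := by simp
  rw [HahnSeries.algebraMap_apply', h1, HahnSeries.ofPowerSeries_C]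

theorem dist_eps_distGen {z : Qbˣ}
    {ε : ↥(modularFunctionFieldBar (M₀ * q * q)) →ₐ[Qb] LaurentSeries Qb}
    (hε : IsMidExp M₀ q z ε) (w : Qb) :
    ε (distGen M₀ q w) =
      (scaleL z (jqModC Qb) - jqModC Qb) * HahnSeries.C ((w - 1)⁻¹) := by
  unfold distGen distJ distJ2
  rw [map_mul, map_sub, hε.beta2, hε.alpha, AlgHom.commutes,
    Fermat.Agent.S24.coe_jBar_eq_jqModC, Fermat.Agent.S24.coe_jBar_eq_jqModC,
    dist_algebraMap_eq_C]

theorem distGen_rel (z : Qbˣ) (a : ℕ) (hz1 : (z : Qb) - 1 ≠ 0)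
    (hza1 : ((z ^ a : Qbˣ) : Qb) - 1 ≠ 0) :
    distGen M₀ q (z : Qb) =
      distGen M₀ q ((z ^ a : Qbˣ) : Qb) * algebraMap Qb _ (distGeom z a) := by
  unfold distGen
  rw [mul_assoc (distJ2 M₀ q - distJ M₀ q), ← map_mul]
  congr 2
  have h := distGeom_mul z a
  rw [← Units.val_pow_eq_pow_val] at h
  rw [← h, mul_inv, mul_comm (distGeom z a)⁻¹, mul_assoc, inv_mul_cancel₀, mul_one]
  intro h0
  rw [h0, zero_mul] at h
  exact hza1 h.symm

/-- **`(⇒)`**: for a non-square `a` the valuations `v_z` and `v_{z ^ a}` are distinct. -/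
theorem dist_ne_of_not_isSquare (hTheta : IgThetaRes M₀ q) (hKum : IgKummer M₀ q)
    (hOver : IgMidOverInf M₀ q) (hq : q.Prime) (A : ValuationSubring Qb)
    (hA : A.LiesOverPrime q) (z : Qbˣ) (a : ℕ)
    (ε ε' : ↥(modularFunctionFieldBar (M₀ * q * q)) →ₐ[Qb] LaurentSeries Qb)
    (hz : IsPrimitiveRoot z q) (hε : IsMidExp M₀ q z ε) (hε' : IsMidExp M₀ q (z ^ a) ε')
    (hns : ¬ IsSquare (a : ZMod q)) : expOv ε A ≠ expOv ε' A := by
  have hq2 : q ≠ 2 := dist_ne_two_of_not_isSquare a hns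
  haveI hchar : CharP (IsLocalRing.ResidueField A) q :=
    charP_residueField_of_liesOverPrime A q hq hA
  have hqa : ¬ q ∣ a := fun h =>
    hns (by rw [(ZMod.natCast_eq_zero_iff a q).mpr h]; exact ⟨0, by simp⟩)
  have hza : IsPrimitiveRoot (z ^ a) q :=
    hz.pow_of_coprime a ((Nat.Prime.coprime_iff_not_dvd hq).mpr hqa).symm
  have hzq : z ^ q = 1 := hz.pow_eq_one
  have hz1 : (z : Qb) - 1 ≠ 0 := by
    intro h
    apply hz.ne_one hq.one_lt
    apply Units.ext
    rw [Units.val_one]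
    exact sub_eq_zero.mp h
  have hza1 : ((z ^ a : Qbˣ) : Qb) - 1 ≠ 0 := by
    intro h
    apply hza.ne_one hq.one_lt
    apply Units.ext
    rw [Units.val_one]
    exact sub_eq_zero.mp h
  -- the residues of the generator
  obtain ⟨hm, hr⟩ := hTheta hq A hA z ε hz hε (distGen M₀ q (z : Qb)) (dist_eps_distGen hε _)
  obtain ⟨hm', hr'⟩ := hTheta hq A hA (z ^ a) ε' hza hε' (distGen M₀ q ((z ^ a : Qbˣ) : Qb))
    (dist_eps_distGen hε' _)
  have hc : distGeom z a ∈ A := distGeom_mem A hq z hzq a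
  have hrel := distGen_rel (M₀ := M₀) (q := q) z a hz1 hza1
  have hmem' : distGen M₀ q (z : Qb) ∈ expOv ε' A := by
    rw [hrel]
    exact mul_mem hm' (dist_algebraMap_mem ε' A hc)
  have hres' : expRes ε' A (distGen M₀ q (z : Qb)) =
      Fermat.Agent.IgusaDeg.theta (IsLocalRing.ResidueField A)
          (jqModC (IsLocalRing.ResidueField A)) *
        algebraMap (IsLocalRing.ResidueField A) (LaurentSeries (IsLocalRing.ResidueField A))
          (a : IsLocalRing.ResidueField A) := by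
    rw [hrel, dist_expRes_mul ε' A hm' (dist_algebraMap_mem ε' A hc), hr',
      dist_expRes_algebraMap ε' A hc, dist_residue_distGeom A hq hA z hzq a]
  -- the Kummer element and its lift
  have hd : midDeg q = q / 2 := dist_midDeg_eq_of_ne_two hq hq2
  have hφmem := hKum hq (IsLocalRing.ResidueField A)
  obtain ⟨y, hy, hyφ⟩ := exists_gaussResFun_eq_bad (N := M₀) (ℓ := q) A (M₀ * q) rfl _ hφmem
  obtain ⟨hαm, hαr⟩ := hOver A z ε hε ⟨y, mem_of_mem_gaussSub hy⟩ hy
  obtain ⟨hαm', hαr'⟩ := hOver A (z ^ a) ε' hε' ⟨y, mem_of_mem_gaussSub hy⟩ hy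
  have hφ0 : Fermat.Agent.IgusaDeg.theta (IsLocalRing.ResidueField A)
      (jqModC (IsLocalRing.ResidueField A)) ^ midDeg q ≠ 0 :=
    pow_ne_zero _ Fermat.Agent.IgusaDeg.theta_jqModC_ne_zero
  refine dist_ne_of_sep ε A ε'
    (g := distGen M₀ q (z : Qb) ^ midDeg q -
      heckeAlphaBar Qb (M₀ * q) q ⟨y, mem_of_mem_gaussSub hy⟩)
    (sub_mem (pow_mem hm _) hαm) ?_ (sub_mem (pow_mem hmem' _) hαm') ?_
  · rw [dist_expRes_sub ε A (pow_mem hm _) hαm, dist_expRes_pow ε A hm, hr, hαr]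
    show _ - gaussResFun A (modularFunctionFieldBar (M₀ * q)) y = 0
    rw [hyφ, sub_self]
  · rw [dist_expRes_sub ε' A (pow_mem hmem' _) hαm', dist_expRes_pow ε' A hmem', hres', hαr']
    show _ - gaussResFun A (modularFunctionFieldBar (M₀ * q)) y ≠ 0
    rw [hyφ, mul_pow,
      ← map_pow (algebraMap (IsLocalRing.ResidueField A)
        (LaurentSeries (IsLocalRing.ResidueField A))), hd,
      dist_cast_pow_eq_neg_one hq (IsLocalRing.ResidueField A) a hns, map_neg, map_one,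
      mul_neg, mul_one, ← hd]
    intro h
    have h2 : (2 : LaurentSeries (IsLocalRing.ResidueField A)) *
        Fermat.Agent.IgusaDeg.theta (IsLocalRing.ResidueField A)
          (jqModC (IsLocalRing.ResidueField A)) ^ midDeg q = 0 := by
      linear_combination -h
    rcases mul_eq_zero.mp h2 with h3 | h3
    · have h4 : ((2 : ℕ) : IsLocalRing.ResidueField A) = 0 := by
        have h5 : algebraMap (IsLocalRing.ResidueField A)
            (LaurentSeries (IsLocalRing.ResidueField A)) ((2 : ℕ) : IsLocalRing.ResidueField A)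
            = 0 := by
          rw [map_natCast]
          exact_mod_cast h3
        exact (map_eq_zero _).mp h5
      have h6 := (CharP.cast_eq_zero_iff (IsLocalRing.ResidueField A) q 2).mp h4
      exact hq2 ((Nat.prime_dvd_prime_iff_eq hq Nat.prime_two).mp h6)
    · exact hφ0 h3

/-! ### the count and the final statement -/

variable (M₀ q) in
/-- **COUNT** (from the fundamental inequality for the extensions of the Gauss valuation of
`F₁` to `F`: `1 + 3 (q - 1) / 2 > q = [F : F₁]`): among three middle valuations two coincide. -/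
def IgMidAtMostTwo : Prop :=
  q.Prime → ¬ q ∣ M₀ → ∀ (A : ValuationSubring Qb), A.LiesOverPrime q →
    ∀ (z₁ z₂ z₃ : Qbˣ)
      (ε₁ ε₂ ε₃ : ↥(modularFunctionFieldBar (M₀ * q * q)) →ₐ[Qb] LaurentSeries Qb),
      IsPrimitiveRoot z₁ q → IsPrimitiveRoot z₂ q → IsPrimitiveRoot z₃ q →
      IsMidExp M₀ q z₁ ε₁ → IsMidExp M₀ q z₂ ε₂ → IsMidExp M₀ q z₃ ε₃ →
      expOv ε₁ A = expOv ε₂ A ∨ expOv ε₁ A = expOv ε₃ A ∨ expOv ε₂ A = expOv ε₃ A

theorem dist_pow_eq_of_cast_eq {z : Qbˣ} (hz : IsPrimitiveRoot z q) {m n : ℕ}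
    (h : (m : ZMod q) = (n : ZMod q)) : z ^ m = z ^ n := by
  rw [pow_eq_pow_iff_modEq, ← hz.eq_orderOf]
  exact (ZMod.natCast_eq_natCast_iff m n q).mp h

/-- **`(⇐)`, `q = 2`** (more generally `a ≡ 1`): the same root of unity. -/
theorem dist_eq_of_cast_eq_one (hUniq : IgMidExpUnique M₀ q) (A : ValuationSubring Qb)
    (z : Qbˣ) (a : ℕ)
    (ε ε' : ↥(modularFunctionFieldBar (M₀ * q * q)) →ₐ[Qb] LaurentSeries Qb)
    (hz : IsPrimitiveRoot z q) (hε : IsMidExp M₀ q z ε) (hε' : IsMidExp M₀ q (z ^ a) ε')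
    (ha : (a : ZMod q) = 1) : expOv ε A = expOv ε' A := by
  have h1 : z ^ a = z := by
    have := dist_pow_eq_of_cast_eq hz (m := a) (n := 1) (by rw [ha, Nat.cast_one])
    rwa [pow_one] at this
  rw [h1] at hε'
  rw [hUniq z ε ε' hε hε']

/-- **`(⇐)`**: for a square `a` the valuations `v_z` and `v_{z ^ a}` coincide. -/
theorem dist_eq_of_isSquare (hEx : IgMidExpExists M₀ q) (hUniq : IgMidExpUnique M₀ q)
    (hTheta : IgThetaRes M₀ q) (hKum : IgKummer M₀ q) (hOver : IgMidOverInf M₀ q)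
    (hCard : IgMidAtMostTwo M₀ q) (hq : q.Prime) (hqM : ¬ q ∣ M₀) (A : ValuationSubring Qb)
    (hA : A.LiesOverPrime q) (z : Qbˣ) (a : ℕ)
    (ε ε' : ↥(modularFunctionFieldBar (M₀ * q * q)) →ₐ[Qb] LaurentSeries Qb)
    (hz : IsPrimitiveRoot z q) (hqa : ¬ q ∣ a) (hε : IsMidExp M₀ q z ε)
    (hε' : IsMidExp M₀ q (z ^ a) ε') (hsq : IsSquare (a : ZMod q)) :
    expOv ε A = expOv ε' A := by
  haveI : Fact q.Prime := ⟨hq⟩
  have ha0 : (a : ZMod q) ≠ 0 := fun h => hqa ((ZMod.natCast_eq_zero_iff a q).mp h)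
  have hza : IsPrimitiveRoot (z ^ a) q :=
    hz.pow_of_coprime a ((Nat.Prime.coprime_iff_not_dvd hq).mpr hqa).symm
  by_cases hq2 : q = 2
  · -- `q = 2`: `a` is odd
    apply dist_eq_of_cast_eq_one hUniq A z a ε ε' hz hε hε'
    subst hq2
    revert ha0
    generalize (a : ZMod 2) = x
    intro hx
    fin_cases x
    · exact absurd rfl hx
    · rfl
  · -- `q` odd: a non-square `n`
    obtain ⟨x, hx⟩ := FiniteField.exists_nonsquare (F := ZMod q)
      (by rw [ZMod.ringChar_zmod_n]; exact hq2)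
    have hxn : ((x.val : ℕ) : ZMod q) = x := ZMod.natCast_zmod_val x
    have hn : ¬ IsSquare ((x.val : ℕ) : ZMod q) := by rw [hxn]; exact hx
    have hqn : ¬ q ∣ x.val := fun h =>
      hn (by rw [(ZMod.natCast_eq_zero_iff _ q).mpr h]; exact ⟨0, by simp⟩)
    have hzn : IsPrimitiveRoot (z ^ x.val) q :=
      hz.pow_of_coprime _ ((Nat.Prime.coprime_iff_not_dvd hq).mpr hqn).symm
    obtain ⟨ε₂, hε₂⟩ := hEx (z ^ x.val) hzn
    -- `v_z ≠ v_{z ^ n}`
    have h1 := dist_ne_of_not_isSquare hTheta hKum hOver hq A hA z x.val ε ε₂ hz hε hε₂ hn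
    -- `v_{z ^ a} ≠ v_{z ^ n}`: `z ^ n = (z ^ a) ^ b`, `b = n / a` a non-square
    have hbx : (((x * (a : ZMod q)⁻¹).val : ℕ) : ZMod q) = x * (a : ZMod q)⁻¹ :=
      ZMod.natCast_zmod_val _
    have hbn : ¬ IsSquare (((x * (a : ZMod q)⁻¹).val : ℕ) : ZMod q) := by
      rw [hbx]
      rintro ⟨s, hs⟩
      obtain ⟨t, ht⟩ := hsq
      apply hx
      refine ⟨s * t, ?_⟩
      have : x = x * (a : ZMod q)⁻¹ * (a : ZMod q) := by
        rw [mul_assoc, inv_mul_cancel₀ ha0, mul_one]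
      rw [this, hs, ht]
      ring
    have hpow : (z ^ a) ^ (x * (a : ZMod q)⁻¹).val = z ^ x.val := by
      rw [← pow_mul]
      apply dist_pow_eq_of_cast_eq hz
      rw [Nat.cast_mul, hbx, hxn, mul_comm, mul_assoc, inv_mul_cancel₀ ha0, mul_one]
    have hε₃ : IsMidExp M₀ q ((z ^ a) ^ (x * (a : ZMod q)⁻¹).val) ε₂ := by
      rw [hpow]; exact hε₂
    have h2 := dist_ne_of_not_isSquare hTheta hKum hOver hq A hA (z ^ a)
      (x * (a : ZMod q)⁻¹).val ε' ε₂ hza hε' hε₃ hbn
    rcases hCard hq hqM A hA z (z ^ a) (z ^ x.val) ε ε' ε₂ hz hza hzn hε hε' hε₂ with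
      h | h | h
    · exact h
    · exact absurd h h1
    · exact absurd h h2

/-- **(IG6) `IgMidDistinct`**: `v_z = v_{z ^ a}` iff `a` is a square modulo `q`. -/
theorem igMidDistinct_of (hEx : IgMidExpExists M₀ q) (hUniq : IgMidExpUnique M₀ q)
    (hTheta : IgThetaRes M₀ q) (hKum : IgKummer M₀ q) (hOver : IgMidOverInf M₀ q)
    (hCard : IgMidAtMostTwo M₀ q) : IgMidDistinct M₀ q := by
  intro hq hqM A hA z a ε ε' hz hqa hε hε'
  constructor
  · intro h
    by_contra hns
    exact dist_ne_of_not_isSquare hTheta hKum hOver hq A hA z a ε ε' hz hε hε' hns h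
  · exact dist_eq_of_isSquare hEx hUniq hTheta hKum hOver hCard hq hqM A hA z a ε ε' hz hqa
      hε hε'

end Modular

end Fermat.Agent.S36G
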