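/-
Cluster G (S36, Carayol at `q² ∥ M`), seat IG-THETA (helper91; sub-architect helper52).

The explicit presentations at the middle vertices `v_z` (`z` a primitive `q`-th root of unity):

* `igThetaRes    : IgThetaRes M₀ q`   -- `(j(zq) - j(q)) / (z - 1)` is integral with residue `θ j̄`;
* `igMidOverInf  : IgMidOverInf M₀ q` -- `v_z` lies over the Gauss valuation of `F₁`, same residues;
* `igMidNeInf    : IgMidNeInf M₀ q`   -- `j(q^{q²}) - j(q)` is a `v_∞`-unit in the maximal ideal
                                          of `v_z`.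

Tools: the `q`-bracket `[n]_z = (z^n - 1)/(z - 1)` (`qBracket`) and the series
`bracketSer z y = Σ [n]_z a_n q^n`, with `C (z - 1) * bracketSer z y = y(zq) - y(q)`,
`bracketSer 1 y = θ y`.
-/
import Mathlib
import Fermat.Agent.S36.Igusa.Defs
import Fermat.Agent.Lib.BadRed.Mod.ValInf
import Fermat.Agent.Lib.Kronecker.KroneckerAux

set_option autoImplicit false

noncomputable section

namespace Fermat.Agent.S36G

open ModularCurve AlgebraicCurve Fermat.Agent.GaussInt Fermat.Agent.Deuring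
  Fermat.Agent.Kronecker Fermat.Agent.BadRed HahnSeries

local notation "Qb" => AlgebraicClosure ℚ

/-! ### The `q`-bracket -/

section Bracket

variable {R : Type*} [CommRing R]

/-- `[n]_z = (z ^ n - 1) / (z - 1)` for a unit `z` and `n : ℤ`. -/
def qBracket (z : Rˣ) (n : ℤ) : R :=
  if 0 ≤ n then ∑ i ∈ Finset.range n.toNat, (z : R) ^ i
  else -((z ^ n : Rˣ) : R) * ∑ i ∈ Finset.range (-n).toNat, (z : R) ^ i

theorem qBracket_mul (z : Rˣ) (n : ℤ) :
    qBracket z n * ((z : R) - 1) = ((z ^ n : Rˣ) : R) - 1 := by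
  unfold qBracket
  split_ifs with h
  · rw [geom_sum_mul]
    lift n to ℕ using h
    rw [Int.toNat_natCast, zpow_natCast, Units.val_pow_eq_pow_val]
  · rw [mul_assoc, geom_sum_mul]
    have hm : (((-n).toNat : ℕ) : ℤ) = -n := Int.toNat_of_nonneg (by omega)
    have h1 : (z : R) ^ (-n).toNat = ((z ^ (-n) : Rˣ) : R) := by
      rw [← Units.val_pow_eq_pow_val, ← zpow_natCast, hm]
    have h2 : ((z ^ n : Rˣ) : R) * ((z ^ (-n) : Rˣ) : R) = 1 := by
      rw [← Units.val_mul, ← zpow_add, add_neg_cancel, zpow_zero, Units.val_one]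
    rw [h1]
    linear_combination (-1 : R) * h2

theorem map_qBracket {S : Type*} [CommRing S] (f : R →+* S) (z : Rˣ) (n : ℤ) :
    f (qBracket z n) = qBracket (Units.map (f : R →* S) z) n := by
  unfold qBracket
  have hz : ∀ m : ℤ, f ((z ^ m : Rˣ) : R) = (((Units.map (f : R →* S) z) ^ m : Sˣ) : S) := by
    intro m
    rw [← map_zpow]
    rfl
  split_ifs with h
  · rw [map_sum]
    refine Finset.sum_congr rfl fun i _ => ?_
    rw [map_pow]
    rfl
  · rw [map_mul, map_neg, hz, map_sum]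
    congr 1
    refine Finset.sum_congr rfl fun i _ => ?_
    rw [map_pow]
    rfl

theorem qBracket_one (n : ℤ) : qBracket (1 : Rˣ) n = (n : R) := by
  unfold qBracket
  split_ifs with h
  · lift n to ℕ using h
    simp
  · have hm : (((-n).toNat : ℕ) : ℤ) = -n := Int.toNat_of_nonneg (by omega)
    have h3 : (((-n).toNat : ℕ) : R) = -(n : R) := by
      rw [← Int.cast_natCast, hm, Int.cast_neg]
    simp only [one_zpow, Units.val_one, one_pow, Finset.sum_const, Finset.card_range,
      nsmul_eq_mul, mul_one]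
    rw [h3]
    ring

/-- `Σ [n]_z a_n q^n`. -/
def bracketSer (z : Rˣ) (y : LaurentSeries R) : LaurentSeries R where
  coeff n := qBracket z n * y.coeff n
  isPWO_support' := y.isPWO_support.mono fun n hn => by
    rw [HahnSeries.mem_support]
    intro h
    exact hn (by simp only [h, mul_zero])

@[simp] theorem bracketSer_coeff (z : Rˣ) (y : LaurentSeries R) (n : ℤ) :
    (bracketSer z y).coeff n = qBracket z n * y.coeff n := rfl

theorem C_mul_bracketSer (z : Rˣ) (y : LaurentSeries R) :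
    HahnSeries.C ((z : R) - 1) * bracketSer z y = scaleL z y - y := by
  ext n
  rw [HahnSeries.C_mul_eq_smul, HahnSeries.coeff_smul, HahnSeries.coeff_sub, scaleL_coeff,
    bracketSer_coeff, smul_eq_mul, ← mul_assoc, mul_comm ((z : R) - 1), qBracket_mul]
  ring

theorem coeffMap_bracketSer {S : Type*} [CommRing S] (f : R →+* S) (z : Rˣ)
    (y : LaurentSeries R) :
    coeffMap f (bracketSer z y) = bracketSer (Units.map (f : R →* S) z) (coeffMap f y) := by
  ext n
  rw [coeffMap_coeff, bracketSer_coeff, bracketSer_coeff, coeffMap_coeff, map_mul, map_qBracket]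

theorem bracketSer_one (y : LaurentSeries R) :
    bracketSer (1 : Rˣ) y = Fermat.Agent.IgusaDeg.theta R y := by
  ext n
  rw [bracketSer_coeff, qBracket_one, Fermat.Agent.IgusaDeg.theta_coeff]

end Bracket

/-! ### Roots of unity at a place over `q` -/

section Place

variable (A : ValuationSubring Qb)

/-- a root of unity of `ℚ̄` as a unit of the valuation ring `A` -/
def igRootUnit {q : ℕ} (hq : 0 < q) (z : Qbˣ) (hz : z ^ q = 1) : (↥A)ˣ where
  val := ⟨(z : Qb), mem_valuationSubring_of_pow_eq_one A hq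
    (by rw [← Units.val_pow_eq_pow_val, hz, Units.val_one])⟩
  inv := ⟨((z⁻¹ : Qbˣ) : Qb), mem_valuationSubring_of_pow_eq_one A hq
    (by rw [← Units.val_pow_eq_pow_val, inv_pow, hz, inv_one, Units.val_one])⟩
  val_inv := Subtype.ext (by simp)
  inv_val := Subtype.ext (by simp)

theorem igRootUnit_map {q : ℕ} (hq : 0 < q) (z : Qbˣ) (hz : z ^ q = 1) :
    Units.map (A.subtype : ↥A →* Qb) (igRootUnit A hq z hz) = z :=
  Units.ext rfl

theorem igRootUnit_pow {q : ℕ} (hq : 0 < q) (z : Qbˣ) (hz : z ^ q = 1) :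
    igRootUnit A hq z hz ^ q = 1 := by
  apply Units.ext
  apply Subtype.ext
  rw [Units.val_pow_eq_pow_val, Units.val_one]
  show (z : Qb) ^ q = 1
  rw [← Units.val_pow_eq_pow_val, hz, Units.val_one]

theorem igRootUnit_res {q : ℕ} (hq : q.Prime) (hA : A.LiesOverPrime q) (z : Qbˣ)
    (hz : z ^ q = 1) :
    Units.map (IsLocalRing.residue ↥A : ↥A →* IsLocalRing.ResidueField ↥A)
      (igRootUnit A hq.pos z hz) = 1 := by
  have : Fact q.Prime := ⟨hq⟩
  have : CharP (IsLocalRing.ResidueField ↥A) q := charP_residueField_of_liesOverPrime A q hq hA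
  apply units_eq_one_of_pow_char_eq_one q
  rw [← map_pow, igRootUnit_pow, map_one]

/-- the integral series `Σ [n]_z c_n q^n`, `j = Σ c_n q^n` -/
def igThetaSer {q : ℕ} (hq : 0 < q) (z : Qbˣ) (hz : z ^ q = 1) : LaurentSeries ↥A :=
  bracketSer (igRootUnit A hq z hz) (jqModC ↥A)

theorem emb_igThetaSer {q : ℕ} (hq : 0 < q) (z : Qbˣ) (hz : z ^ q = 1) :
    emb A (igThetaSer A hq z hz) = bracketSer z (jqModC Qb) := by
  unfold igThetaSer emb
  rw [coeffMap_bracketSer, coeffMap_jqModC]
  congr 1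

theorem red_igThetaSer {q : ℕ} (hq : q.Prime) (hA : A.LiesOverPrime q) (z : Qbˣ)
    (hz : z ^ q = 1) :
    red A (igThetaSer A hq.pos z hz) =
      Fermat.Agent.IgusaDeg.theta (IsLocalRing.ResidueField ↥A)
        (jqModC (IsLocalRing.ResidueField ↥A)) := by
  unfold igThetaSer red
  rw [coeffMap_bracketSer, coeffMap_jqModC]
  have h := igRootUnit_res A hq hA z hz
  rw [show Units.map ((IsLocalRing.residue ↥A : ↥A →+* IsLocalRing.ResidueField ↥A) :
      ↥A →* IsLocalRing.ResidueField ↥A) (igRootUnit A hq.pos z hz) = 1 from h, bracketSer_one]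

theorem bracketSer_eq_div {z : Qbˣ} (hz1 : (z : Qb) ≠ 1) (y : LaurentSeries Qb) :
    (scaleL z y - y) * HahnSeries.C (((z : Qb) - 1)⁻¹) = bracketSer z y := by
  rw [← C_mul_bracketSer, mul_comm, ← mul_assoc, ← map_mul,
    inv_mul_cancel₀ (sub_ne_zero.mpr hz1), map_one, one_mul]

end Place

/-! ### (IG-THETA) -/

theorem igThetaRes (M₀ q : ℕ) [NeZero M₀] [NeZero q] : IgThetaRes M₀ q := by
  intro hq A hA z ε hz _ f hf
  have hz1 : (z : Qb) ≠ 1 := fun h => hz.ne_one hq.one_lt (Units.ext h)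
  have hpres : ε f = emb A (igThetaSer A hq.pos z hz.pow_eq_one) := by
    rw [hf, bracketSer_eq_div hz1, emb_igThetaSer]
  refine ⟨?_, ?_⟩
  · rw [mem_expOv_iff, hpres]
    exact emb_mem_gaussSub IntermediateField.mem_top
  · unfold expRes
    rw [hpres, gaussResFun_emb IntermediateField.mem_top, red_igThetaSer A hq hA]

/-! ### (IG5) -/

theorem igMidOverInf (M₀ q : ℕ) [NeZero M₀] [NeZero q] : IgMidOverInf M₀ q := by
  intro A z ε hε y hy
  have h1 : ε (heckeAlphaBar Qb (M₀ * q) q y) = (y : LaurentSeries Qb) := hε.alpha y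
  refine ⟨?_, ?_⟩
  · rw [mem_expOv_iff, h1]
    exact gaussSub_mono_field le_top hy
  · unfold expRes
    rw [h1]
    exact gaussResFun_eq_of_le le_top hy

/-! ### (IG6') -/

section NeInf

/-- the series `j(q^{q²}) - j(q)` over any ring -/
def igDiffSer (R : Type*) [CommRing R] (q : ℕ) [NeZero q] : LaurentSeries R :=
  qExpand R q (qExpand R q (jqModC R)) - jqModC R

theorem coeffMap_igDiffSer {R S : Type*} [CommRing R] [CommRing S] (f : R →+* S) (q : ℕ)
    [NeZero q] : coeffMap f (igDiffSer R q) = igDiffSer S q := by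
  unfold igDiffSer
  rw [map_sub, coeffMap_qExpand, coeffMap_qExpand, coeffMap_jqModC]

theorem igDiffSer_ne_zero (R : Type*) [CommRing R] [Nontrivial R] {q : ℕ} [NeZero q]
    (hq : 2 ≤ q) : igDiffSer R q ≠ 0 := by
  intro h
  have h1 := congrArg (fun x : LaurentSeries R => x.coeff ((q : ℤ) * ((q : ℤ) * (-1)))) h
  simp only [igDiffSer, HahnSeries.coeff_sub, qExpand_coeff_mul, HahnSeries.coeff_zero] at h1
  have hlt : (q : ℤ) * ((q : ℤ) * (-1)) < -1 := by
    have h2 : (2 : ℤ) ≤ (q : ℤ) := by exact_mod_cast hq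
    nlinarith
  rw [coeff_jqModC_neg_one, coeff_jqModC_of_lt R hlt, sub_zero] at h1
  exact one_ne_zero h1

variable (M₀ q : ℕ) [NeZero M₀] [NeZero q]

/-- `j(q^{q²}) - j(q)` as an element of `F_{M₀ q q}` -/
def igDiffJ : ↥(modularFunctionFieldBar (M₀ * q * q)) :=
  heckeBetaBar Qb (M₀ * q) q (heckeBetaBar Qb M₀ q (Fermat.Agent.S24.jBar M₀)) -
    heckeAlphaBar Qb (M₀ * q) q (Fermat.Agent.S24.jBar (M₀ * q))

theorem coe_igDiffJ :
    ((igDiffJ M₀ q : ↥(modularFunctionFieldBar (M₀ * q * q))) : LaurentSeries Qb) =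
      igDiffSer Qb q := by
  unfold igDiffJ igDiffSer
  rw [AddSubgroupClass.coe_sub, coe_heckeBetaBar, coe_heckeBetaBar, coe_heckeAlphaBar,
    Fermat.Agent.S24.coe_jBar_eq_jqModC, Fermat.Agent.S24.coe_jBar_eq_jqModC]

theorem igMidExp_igDiffJ {z : Qbˣ}
    {ε : ↥(modularFunctionFieldBar (M₀ * q * q)) →ₐ[Qb] LaurentSeries Qb}
    (hε : IsMidExp M₀ q z ε) :
    ε (igDiffJ M₀ q) = scaleL z (jqModC Qb) - jqModC Qb := by
  unfold igDiffJ
  rw [map_sub, hε.beta2, hε.alpha, Fermat.Agent.S24.coe_jBar_eq_jqModC,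
    Fermat.Agent.S24.coe_jBar_eq_jqModC]

end NeInf

theorem igMidNeInf (M₀ q : ℕ) [NeZero M₀] [NeZero q] : IgMidNeInf M₀ q := by
  intro hq _ A hA z ε hz hε
  have hzq : z ^ q = 1 := hz.pow_eq_one
  -- the standard expansion
  have hemb : ((igDiffJ M₀ q : ↥(modularFunctionFieldBar (M₀ * q * q))) : LaurentSeries Qb) =
      emb A (igDiffSer ↥A q) := by
    rw [coe_igDiffJ]
    unfold emb
    rw [coeffMap_igDiffSer]
  have hred : red A (igDiffSer ↥A q) ≠ 0 := by
    unfold red
    rw [coeffMap_igDiffSer]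
    exact igDiffSer_ne_zero _ hq.two_le
  have hmemF : emb A (igDiffSer ↥A q) ∈ modularFunctionFieldBar (M₀ * q * q) := by
    rw [← hemb]
    exact (igDiffJ M₀ q).2
  have h1 : ((igDiffJ M₀ q : ↥(modularFunctionFieldBar (M₀ * q * q))) : LaurentSeries Qb) ∈
      gaussSub A (modularFunctionFieldBar (M₀ * q * q)) := by
    rw [hemb]
    exact emb_mem_gaussSub hmemF
  have h1res : gaussResFun A (modularFunctionFieldBar (M₀ * q * q))
      ((igDiffJ M₀ q : ↥(modularFunctionFieldBar (M₀ * q * q))) : LaurentSeries Qb) ≠ 0 := by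
    rw [hemb, gaussResFun_emb hmemF]
    exact hred
  have h2 := inv_mem_gaussSub h1 h1res
  have hf0 : igDiffJ M₀ q ≠ 0 := by
    intro h0
    apply h1res
    rw [h0]
    exact map_zero (gaussRes A (modularFunctionFieldBar (M₀ * q * q)))
  -- the middle expansion
  have hpres : ε (igDiffJ M₀ q) =
      emb A (HahnSeries.C (((igRootUnit A hq.pos z hzq : (↥A)ˣ) : ↥A) - 1) *
        igThetaSer A hq.pos z hzq) := by
    rw [igMidExp_igDiffJ M₀ q hε, ← C_mul_bracketSer, map_mul, emb_igThetaSer]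
    congr 1
    unfold emb
    rw [HahnSeries.C_apply, HahnSeries.C_apply, coeffMap_single]
    rfl
  have hmem : ε (igDiffJ M₀ q) ∈
      gaussSub A (⊤ : IntermediateField Qb (LaurentSeries Qb)) := by
    rw [hpres]
    exact emb_mem_gaussSub IntermediateField.mem_top
  have hr0 : gaussResFun A (⊤ : IntermediateField Qb (LaurentSeries Qb))
      (ε (igDiffJ M₀ q)) = 0 := by
    rw [hpres, gaussResFun_emb IntermediateField.mem_top, map_mul]
    have hC : red A (HahnSeries.C (((igRootUnit A hq.pos z hzq : (↥A)ˣ) : ↥A) - 1)) = 0 := by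
      unfold red
      rw [HahnSeries.C_apply, coeffMap_single, map_sub, map_one]
      have h := igRootUnit_res A hq hA z hzq
      have h' : IsLocalRing.residue ↥A ((igRootUnit A hq.pos z hzq : (↥A)ˣ) : ↥A) = 1 := by
        have := congrArg Units.val h
        simpa using this
      rw [h', sub_self, HahnSeries.single_eq_zero]
    rw [hC, zero_mul]
  have hεf0 : ε (igDiffJ M₀ q) ≠ 0 := (map_ne_zero ε.toRingHom).mpr hf0
  refine ⟨igDiffJ M₀ q, ?_, ?_, ?_, ?_⟩
  · exact h1
  · show (((igDiffJ M₀ q)⁻¹ : ↥(modularFunctionFieldBar (M₀ * q * q))) : LaurentSeries Qb) ∈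
      gaussSub A (modularFunctionFieldBar (M₀ * q * q))
    exact h2
  · exact hmem
  · intro hinv
    rw [mem_expOv_iff, map_inv₀] at hinv
    have hmul := (gaussRes A (⊤ : IntermediateField Qb (LaurentSeries Qb))).map_mul
      ⟨ε (igDiffJ M₀ q), hmem⟩ ⟨(ε (igDiffJ M₀ q))⁻¹, hinv⟩
    have hone : (⟨ε (igDiffJ M₀ q), hmem⟩ * ⟨(ε (igDiffJ M₀ q))⁻¹, hinv⟩ :
        gaussSub A (⊤ : IntermediateField Qb (LaurentSeries Qb))) = 1 :=
      Subtype.ext (mul_inv_cancel₀ hεf0)
    rw [hone, map_one, gaussRes_apply, hr0, zero_mul] at hmul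
    exact one_ne_zero hmul

end Fermat.Agent.S36G
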