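/-
Cluster G (S36), seat IG, ASSEMBLY part B (helper52): THE COUNT.

`F / π₁^* F₁` has degree `q`; over the Gauss valuation `O_v` of `F₁` lie `v_∞` (residue degree
`≥ 1`) and the middle valuations `v_z`, `v_{z^a}` (`a` a non-square; residue degrees
`≥ midDeg q`, because `1, θ j̄, …` are independent over `k(Z)`).  `1 + 2 midDeg q = q`, so the
system is SATURATED (helper90's `SatExt`):

* `igResUpper_of`      : the residues of `v_z` lie in `k(Z)(θ j̄)`   (`IgResUpper`),
* `igMidAtMostTwo_of`  : among three middle valuations two coincide (`IgMidAtMostTwo`).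
-/
import Mathlib
import Fermat.Agent.S36.Igusa.AsmSetup
import Fermat.Agent.S36.Igusa.AsmDefs2
import Fermat.Agent.S36.Igusa.AsmDefs3
import Fermat.Agent.S36.Igusa.Dist
import Fermat.Agent.S36.Igusa.Theta
import Fermat.Agent.S36.Igusa.Kummer
import Fermat.Agent.S36.Igusa.DegF
import Fermat.Agent.S36.Igusa.Exp
import Fermat.Agent.Lib.BadRed.Igusa.CountAbs
import Fermat.Agent.Lib.BadRed.ModFacts
import Fermat.Agent.Lib.BadRed.Mod.ValInf

set_option autoImplicit false
set_option synthInstance.maxHeartbeats 400000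
set_option linter.style.haveILetI false
set_option linter.unusedSectionVars false
set_option linter.unusedVariables false

noncomputable section

attribute [local instance 10000] SubalgebraClass.toAlgebra HahnSeries.powerSeriesAlgebra

namespace Fermat.Agent.S36G

open ModularCurve AlgebraicCurve Fermat.Agent.GaussInt Fermat.Agent.Deuring
  Fermat.Agent.Kronecker Fermat.Agent.BadRed

local notation "Qb" => AlgebraicClosure ℚ

/-! ### generic: the maximal ideal of `expVal` is the kernel of `expRes` -/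

section Generic

variable {F : Type*} [Field F] [Algebra Qb F] {ε : F →ₐ[Qb] LaurentSeries Qb}
  {A : ValuationSubring Qb}

theorem expRes_eq_zero_of_mem_nonunits (hV : ∀ f : F, f ∈ expOv ε A ∨ f⁻¹ ∈ expOv ε A) {f : F}
    (hf : f ∈ (expVal hV).nonunits) : expRes ε A f = 0 := by
  by_contra hne
  have hmem : f ∈ expOv ε A := (expVal hV).nonunits_le hf
  rw [ValuationSubring.mem_nonunits_iff_or] at hf
  rcases hf with h0 | hinv
  · exact hne (h0 ▸ expRes_zero ε A)
  · exact hinv (inv_mem_expOv ε A hmem hne)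

theorem mem_nonunits_of_expRes_eq_zero (hV : ∀ f : F, f ∈ expOv ε A ∨ f⁻¹ ∈ expOv ε A) {f : F}
    (hf : f ∈ expOv ε A) (h0 : expRes ε A f = 0) : f ∈ (expVal hV).nonunits := by
  rw [ValuationSubring.mem_nonunits_iff_or]
  by_cases hf0 : f = 0
  · exact Or.inl hf0
  · right
    intro hinv
    have := expRes_mul ε A hf hinv
    rw [mul_inv_cancel₀ hf0, expRes_one, h0, zero_mul] at this
    exact one_ne_zero this

theorem expRes_sub {f g : F} (hf : f ∈ expOv ε A) (hg : g ∈ expOv ε A) :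
    expRes ε A (f - g) = expRes ε A f - expRes ε A g :=
  map_sub (expResHom ε A) ⟨f, hf⟩ ⟨g, hg⟩

theorem expRes_pow {f : F} (hf : f ∈ expOv ε A) (n : ℕ) :
    expRes ε A (f ^ n) = expRes ε A f ^ n :=
  map_pow (expResHom ε A) ⟨f, hf⟩ n

theorem expRes_sum {ι : Type*} (s : Finset ι) (f : ι → F) (hf : ∀ i, f i ∈ expOv ε A) :
    (∑ i ∈ s, f i) ∈ expOv ε A ∧
      expRes ε A (∑ i ∈ s, f i) = ∑ i ∈ s, expRes ε A (f i) := by
  classical
  induction s using Finset.induction_on with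
  | empty =>
    simp only [Finset.sum_empty]
    exact ⟨(expOv ε A).zero_mem, expRes_zero ε A⟩
  | insert i s hi ih =>
    rw [Finset.sum_insert hi, Finset.sum_insert hi]
    exact ⟨(expOv ε A).add_mem (hf i) ih.1, by rw [expRes_add ε A (hf i) ih.1, ih.2]⟩

end Generic

/-! ### the modular count -/

section Modular

variable (M₀ q : ℕ) [NeZero M₀] [NeZero q]

/-- **(L2)** (seat IG-LIES): `v_z` lies over the Gauss valuation of `F₁`. -/
def IgLiesMid : Prop :=
  ∀ (hq : q.Prime) (A : ValuationSubring Qb) (hA : A.LiesOverPrime q) (z : Qbˣ)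
    (ε : ↥(modularFunctionFieldBar (M₀ * q * q)) →ₐ[Qb] LaurentSeries Qb),
    IsMidExp M₀ q z ε → ∀ hV : (∀ f, f ∈ expOv ε A ∨ f⁻¹ ∈ expOv ε A),
      @LiesOverV _ _ _ _ (algebraAlong (heckeAlphaBar Qb (M₀ * q) q))
        (gaussOv (M₀ * q) hq A hA) (expVal hV)

variable {M₀ q}
variable (hq : q.Prime) (A : ValuationSubring Qb) (hA : A.LiesOverPrime q)

/-- the residues of the Gauss ring of `F₁ = F_{M₀ q}` lie in `k(Z)`. -/
theorem ig_res_mem_fullC (hqM : ¬ q ∣ M₀) {y : ↥(modularFunctionFieldBar (M₀ * q))}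
    (hy : y ∈ gaussOv (M₀ * q) hq A hA) :
    gaussResFun A (modularFunctionFieldBar (M₀ * q)) (y : LaurentSeries Qb) ∈
      modularFunctionFieldFullC (IsLocalRing.ResidueField A) M₀ :=
  gaussResFun_mem_fullC_mul hq hqM A hA (modFactsAt M₀ q hq hqM A hA) _ hy

/-- an element of the Gauss ring of `F₁` with residue `0` lies in the maximal ideal. -/
theorem ig_mem_nonunits_of_res {y : ↥(modularFunctionFieldBar (M₀ * q))}
    (hy : y ∈ gaussOv (M₀ * q) hq A hA)
    (h0 : gaussResFun A (modularFunctionFieldBar (M₀ * q)) (y : LaurentSeries Qb) = 0) :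
    y ∈ (gaussOv (M₀ * q) hq A hA).nonunits := by
  have h1 : ¬ IsUnit (⟨y, hy⟩ : gaussOv (M₀ * q) hq A hA) :=
    (gaussValRes_eq_zero_iff (gaussHyp_modular (K := Qb) (A := A) (M₀ * q) hq hA) ⟨y, hy⟩).mp h0
  exact (not_isUnit_iff_mem_nonunits _ ⟨y, hy⟩).mp h1

/-- **residual independence of the powers of the generator** at `v_z`. -/
theorem ig_resIndep_pow (hqM : ¬ q ∣ M₀) (hPow : IgPowIndepRes M₀ q) {z : Qbˣ}
    {ε : ↥(modularFunctionFieldBar (M₀ * q * q)) →ₐ[Qb] LaurentSeries Qb}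
    (hz : IsPrimitiveRoot z q) (hε : IsMidExp M₀ q z ε)
    (hV : ∀ f, f ∈ expOv ε A ∨ f⁻¹ ∈ expOv ε A) :
    @ResIndep _ _ _ _ (algebraAlong (heckeAlphaBar Qb (M₀ * q) q))
      (gaussOv (M₀ * q) hq A hA) (expVal hV) (Fin (midDeg q)) _
      (fun l => distGen M₀ q (z : Qb) ^ (l : ℕ)) := by
  letI := algebraAlong (heckeAlphaBar Qb (M₀ * q) q)
  haveI := isAlgClosed_residue A
  haveI : CharP (IsLocalRing.ResidueField A) q := charP_residueField_of_liesOverPrime A q hq hA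
  obtain ⟨hm, hr⟩ := igThetaRes M₀ q hq A hA z ε hz hε (distGen M₀ q (z : Qb))
    (dist_eps_distGen hε _)
  refine ⟨fun l => (expOv ε A).pow_mem hm _, ?_⟩
  intro a ha hS
  have hS' : (∑ l, heckeAlphaBar Qb (M₀ * q) q (a l) * distGen M₀ q (z : Qb) ^ (l : ℕ)) ∈
      (expVal hV).nonunits := hS
  have hterm : ∀ l, heckeAlphaBar Qb (M₀ * q) q (a l) * distGen M₀ q (z : Qb) ^ (l : ℕ) ∈
        expOv ε A := fun l =>
    (expOv ε A).mul_mem (igMidOverInf M₀ q A z ε hε (a l) (ha l)).1 ((expOv ε A).pow_mem hm _)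
  have h0 := expRes_eq_zero_of_mem_nonunits hV hS'
  rw [(expRes_sum Finset.univ _ hterm).2] at h0
  have h1 : ∀ l, expRes ε A (heckeAlphaBar Qb (M₀ * q) q (a l) *
        distGen M₀ q (z : Qb) ^ (l : ℕ)) =
      gaussResFun A (modularFunctionFieldBar (M₀ * q)) ((a l : ↥(modularFunctionFieldBar (M₀ * q))) :
        LaurentSeries Qb) *
        Fermat.Agent.IgusaDeg.theta (IsLocalRing.ResidueField A)
          (jqModC (IsLocalRing.ResidueField A)) ^ (l : ℕ) := by
    intro l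
    rw [expRes_mul ε A (igMidOverInf M₀ q A z ε hε (a l) (ha l)).1 ((expOv ε A).pow_mem hm _),
      expRes_pow hm, hr]
    congr 1
    exact (igMidOverInf M₀ q A z ε hε (a l) (ha l)).2
  simp only [h1] at h0
  intro l
  have h2 := hPow hq hqM A hA
    (fun l => gaussResFun A (modularFunctionFieldBar (M₀ * q))
      ((a l : ↥(modularFunctionFieldBar (M₀ * q))) : LaurentSeries Qb))
    (fun l => ig_res_mem_fullC hq A hA hqM (ha l)) h0 l
  exact ig_mem_nonunits_of_res hq A hA (ha l) h2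

/-- from a residual expansion in the powers of the generator to `k(Z)(θ j̄)`. -/
theorem ig_res_mem_of_span (hqM : ¬ q ∣ M₀) {z : Qbˣ}
    {ε : ↥(modularFunctionFieldBar (M₀ * q * q)) →ₐ[Qb] LaurentSeries Qb}
    (hz : IsPrimitiveRoot z q) (hε : IsMidExp M₀ q z ε)
    (hV : ∀ f, f ∈ expOv ε A ∨ f⁻¹ ∈ expOv ε A) {d : ℕ}
    (g : Fin d → ↥(modularFunctionFieldBar (M₀ * q)))
    (hg : ∀ l, g l ∈ gaussOv (M₀ * q) hq A hA)
    {f : ↥(modularFunctionFieldBar (M₀ * q * q))} (hf : f ∈ expOv ε A)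
    (h : f - ∑ l, heckeAlphaBar Qb (M₀ * q) q (g l) * distGen M₀ q (z : Qb) ^ (l : ℕ) ∈
      (expVal hV).nonunits) :
    expRes ε A f ∈ igField (IsLocalRing.ResidueField A) M₀ := by
  obtain ⟨hm, hr⟩ := igThetaRes M₀ q hq A hA z ε hz hε (distGen M₀ q (z : Qb))
    (dist_eps_distGen hε _)
  have hterm : ∀ l, heckeAlphaBar Qb (M₀ * q) q (g l) * distGen M₀ q (z : Qb) ^ (l : ℕ) ∈
        expOv ε A := fun l =>
    (expOv ε A).mul_mem (igMidOverInf M₀ q A z ε hε (g l) (hg l)).1 ((expOv ε A).pow_mem hm _)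
  have hsum := expRes_sum (ε := ε) (A := A) Finset.univ _ hterm
  have h0 := expRes_eq_zero_of_mem_nonunits hV h
  rw [expRes_sub hf hsum.1, sub_eq_zero] at h0
  rw [h0, hsum.2]
  refine sum_mem fun l _ => ?_
  rw [expRes_mul ε A (igMidOverInf M₀ q A z ε hε (g l) (hg l)).1 ((expOv ε A).pow_mem hm _),
    expRes_pow hm, hr, (igMidOverInf M₀ q A z ε hε (g l) (hg l)).2]
  exact mul_mem (fullC_le_igField _ M₀ (ig_res_mem_fullC hq A hA hqM (hg l)))
    (pow_mem (theta_mem_igField _ M₀) _)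

/-- `v_z ≠ v_∞`. -/
theorem ig_gaussOv_ne_expVal (hqM : ¬ q ∣ M₀) {z : Qbˣ}
    {ε : ↥(modularFunctionFieldBar (M₀ * q * q)) →ₐ[Qb] LaurentSeries Qb}
    (hz : IsPrimitiveRoot z q) (hε : IsMidExp M₀ q z ε)
    (hV : ∀ f, f ∈ expOv ε A ∨ f⁻¹ ∈ expOv ε A) :
    gaussOv (M₀ * q * q) hq A hA ≠ expVal hV := by
  obtain ⟨f, hf1, hf2, hf3, hf4⟩ := igMidNeInf M₀ q hq hqM A hA z ε hz hε
  intro h
  apply hf4
  have h2 : f⁻¹ ∈ expVal hV := h ▸ hf2
  exact h2

include hq hA in
/-- `v_z ≠ v_{z^a}` for a non-square `a`, as valuation subrings. -/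
theorem ig_expVal_ne_expVal {z : Qbˣ} {a : ℕ}
    {ε ε' : ↥(modularFunctionFieldBar (M₀ * q * q)) →ₐ[Qb] LaurentSeries Qb}
    (hz : IsPrimitiveRoot z q) (hns : ¬ IsSquare (a : ZMod q))
    (hε : IsMidExp M₀ q z ε) (hε' : IsMidExp M₀ q (z ^ a) ε')
    (hV : ∀ f, f ∈ expOv ε A ∨ f⁻¹ ∈ expOv ε A)
    (hV' : ∀ f, f ∈ expOv ε' A ∨ f⁻¹ ∈ expOv ε' A) :
    expVal hV ≠ expVal hV' := by
  intro h
  apply dist_ne_of_not_isSquare (igThetaRes M₀ q) (igKummer M₀ q) (igMidOverInf M₀ q) hq A hA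
    z a ε ε' hz hε hε' hns
  have h2 : (expVal hV).toSubring = (expVal hV').toSubring := by rw [h]
  exact h2

/-- **the saturated system for `q` odd**: `v_∞`, `v_z`, `v_{z^a}`. -/
theorem ig_satExt_odd (hqM : ¬ q ∣ M₀) (hPow : IgPowIndepRes M₀ q) (hLies : IgLiesMid M₀ q)
    (hq2 : q ≠ 2) {z : Qbˣ} {a : ℕ}
    {ε ε' : ↥(modularFunctionFieldBar (M₀ * q * q)) →ₐ[Qb] LaurentSeries Qb}
    (hz : IsPrimitiveRoot z q) (hza : IsPrimitiveRoot (z ^ a) q)
    (hns : ¬ IsSquare (a : ZMod q))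
    (hε : IsMidExp M₀ q z ε) (hε' : IsMidExp M₀ q (z ^ a) ε')
    (hV : ∀ f, f ∈ expOv ε A ∨ f⁻¹ ∈ expOv ε A)
    (hV' : ∀ f, f ∈ expOv ε' A ∨ f⁻¹ ∈ expOv ε' A) :
    letI := algebraAlong (heckeAlphaBar Qb (M₀ * q) q)
    SatExt (gaussOv (M₀ * q) hq A hA)
      (rng3 (gaussOv (M₀ * q * q) hq A hA) (expVal hV) (expVal hV'))
      (cnt3 1 (midDeg q) (midDeg q))
      (fam3 (fun _ : Fin 1 => (1 : ↥(modularFunctionFieldBar (M₀ * q * q))))
        (fun l : Fin (midDeg q) => distGen M₀ q (z : Qb) ^ (l : ℕ))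
        (fun l : Fin (midDeg q) => distGen M₀ q ((z ^ a : Qbˣ) : Qb) ^ (l : ℕ))) := by
  letI := algebraAlong (heckeAlphaBar Qb (M₀ * q) q)
  have h1 : LiesOverV (gaussOv (M₀ * q) hq A hA) (gaussOv (M₀ * q * q) hq A hA) :=
    liesOverV_gaussOv (N := M₀ * q) (ℓ := q) hq A hA
  have h2 : LiesOverV (gaussOv (M₀ * q) hq A hA) (expVal hV) := hLies hq A hA z ε hε hV
  have h3 : LiesOverV (gaussOv (M₀ * q) hq A hA) (expVal hV') :=
    hLies hq A hA (z ^ a) ε' hε' hV'
  have h12 := ig_gaussOv_ne_expVal hq A hA hqM hz hε hV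
  have h13 := ig_gaussOv_ne_expVal hq A hA hqM hza hε' hV'
  have h23 := ig_expVal_ne_expVal hq A hA hz hns hε hε' hV hV'
  obtain ⟨c, hc, hcu⟩ := exists_constants (N := M₀ * q) hq A hA
  refine
    { finite := (igDegF M₀ q hq hqM).1
      liesOver := fun i => by
        fin_cases i
        · exact h1
        · exact h2
        · exact h3
      inj := fun i j hij => by
        fin_cases i <;> fin_cases j <;>
          first
            | rfl
            | exact absurd hij h12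
            | exact absurd hij h13
            | exact absurd hij h23
            | exact absurd hij.symm h12
            | exact absurd hij.symm h13
            | exact absurd hij.symm h23
      infinite := ⟨c, hc, hcu⟩
      indep := fun i => by
        fin_cases i
        · exact resIndep_one h1
        · exact ig_resIndep_pow hq A hA hqM hPow hz hε hV
        · exact ig_resIndep_pow hq A hA hqM hPow hza hε' hV'
      sum_eq := ?_ }
  rw [(igDegF M₀ q hq hqM).2, Fin.sum_univ_three]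
  show 1 + midDeg q + midDeg q = q
  rw [dist_midDeg_eq_of_ne_two hq hq2]
  rcases hq.eq_two_or_odd with h | h
  · exact absurd h hq2
  · omega

/-- **the saturated system for `q = 2`**: `v_∞`, `v_z`. -/
theorem ig_satExt_two (hqM : ¬ q ∣ M₀) (hLies : IgLiesMid M₀ q)
    (hq2 : q = 2) {z : Qbˣ}
    {ε : ↥(modularFunctionFieldBar (M₀ * q * q)) →ₐ[Qb] LaurentSeries Qb}
    (hz : IsPrimitiveRoot z q) (hε : IsMidExp M₀ q z ε)
    (hV : ∀ f, f ∈ expOv ε A ∨ f⁻¹ ∈ expOv ε A) :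
    letI := algebraAlong (heckeAlphaBar Qb (M₀ * q) q)
    SatExt (gaussOv (M₀ * q) hq A hA)
      (fun i : Fin 2 => if i = 0 then gaussOv (M₀ * q * q) hq A hA else expVal hV)
      (fun _ => 1)
      (fun _ _ => (1 : ↥(modularFunctionFieldBar (M₀ * q * q)))) := by
  letI := algebraAlong (heckeAlphaBar Qb (M₀ * q) q)
  have h1 : LiesOverV (gaussOv (M₀ * q) hq A hA) (gaussOv (M₀ * q * q) hq A hA) :=
    liesOverV_gaussOv (N := M₀ * q) (ℓ := q) hq A hA
  have h2 : LiesOverV (gaussOv (M₀ * q) hq A hA) (expVal hV) := hLies hq A hA z ε hε hV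
  have h12 := ig_gaussOv_ne_expVal hq A hA hqM hz hε hV
  obtain ⟨c, hc, hcu⟩ := exists_constants (N := M₀ * q) hq A hA
  refine
    { finite := (igDegF M₀ q hq hqM).1
      liesOver := fun i => by
        fin_cases i
        · exact h1
        · exact h2
      inj := fun i j hij => by
        fin_cases i <;> fin_cases j <;>
          first
            | rfl
            | exact absurd hij h12
            | exact absurd hij.symm h12
      infinite := ⟨c, hc, hcu⟩
      indep := fun i => by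
        fin_cases i
        · exact resIndep_one h1
        · exact resIndep_one h2
      sum_eq := ?_ }
  rw [(igDegF M₀ q hq hqM).2, Fin.sum_univ_two, hq2]

omit [NeZero M₀] [NeZero q] in
include hq in
/-- a non-square modulo an odd prime. -/
theorem ig_exists_nonsquare (hq2 : q ≠ 2) :
    ∃ a : ℕ, ¬ q ∣ a ∧ ¬ IsSquare (a : ZMod q) := by
  haveI : Fact q.Prime := ⟨hq⟩
  have hchar : ringChar (ZMod q) ≠ 2 := by
    rw [ZMod.ringChar_zmod_n]
    exact hq2
  obtain ⟨x, hx⟩ := FiniteField.exists_nonsquare hchar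
  have hxv : ((x.val : ℕ) : ZMod q) = x := ZMod.natCast_zmod_val x
  refine ⟨x.val, ?_, by rwa [hxv]⟩
  intro h
  apply hx
  rw [← hxv, (ZMod.natCast_eq_zero_iff x.val q).mpr h]
  exact ⟨0, by simp⟩

/-- **(U)** the residues of the middle valuations lie in `k(Z)(θ j̄)`. -/
theorem igResUpper_of (hVal : IgValRing M₀ q) (hExp : IgMidExpExists M₀ q)
    (hPow : IgPowIndepRes M₀ q) (hLies : IgLiesMid M₀ q) : IgResUpper M₀ q := by
  intro hq hqM A hA z ε hz hε f hf
  letI := algebraAlong (heckeAlphaBar Qb (M₀ * q) q)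
  have hV := hVal hq hqM A hA z ε hz hε
  by_cases hq2 : q = 2
  · have T := ig_satExt_two hq A hA hqM hLies hq2 hz hε hV
    obtain ⟨g, hg, hgy⟩ := T.residue_span 1 (y := f) hf
    refine ig_res_mem_of_span hq A hA hqM hz hε hV g hg hf ?_
    have e : (∑ l, heckeAlphaBar Qb (M₀ * q) q (g l) * distGen M₀ q (z : Qb) ^ (l : ℕ)) =
        ∑ l, algebraMap ↥(modularFunctionFieldBar (M₀ * q))
          ↥(modularFunctionFieldBar (M₀ * q * q)) (g l) * 1 := by
      refine Finset.sum_congr rfl fun l _ => ?_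
      rw [Fin.val_eq_zero l, pow_zero]
      rfl
    rw [e]
    exact hgy
  · obtain ⟨a, hqa, hns⟩ := ig_exists_nonsquare hq hq2
    have hza : IsPrimitiveRoot (z ^ a) q :=
      hz.pow_of_coprime a ((Nat.Prime.coprime_iff_not_dvd hq).mpr hqa).symm
    obtain ⟨ε', hε'⟩ := hExp (z ^ a) hza
    have hV' := hVal hq hqM A hA (z ^ a) ε' hza hε'
    have T := ig_satExt_odd hq A hA hqM hPow hLies hq2 hz hza hns hε hε' hV hV'
    obtain ⟨g, hg, hgy⟩ := T.residue_span 1 (y := f) hf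
    exact ig_res_mem_of_span hq A hA hqM hz hε hV g hg hf hgy

/-- **COUNT**: among three middle valuations two coincide. -/
theorem igMidAtMostTwo_of (hVal : IgValRing M₀ q) (hExp : IgMidExpExists M₀ q)
    (hPow : IgPowIndepRes M₀ q) (hLies : IgLiesMid M₀ q) : IgMidAtMostTwo M₀ q := by
  intro hq hqM A hA z₁ z₂ z₃ ε₁ ε₂ ε₃ hz₁ hz₂ hz₃ hε₁ hε₂ hε₃
  letI := algebraAlong (heckeAlphaBar Qb (M₀ * q) q)
  by_cases hq2 : q = 2
  · left
    have h1 : IsPrimitiveRoot (z₁ : Qb) 2 := by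
      rw [← hq2]
      exact IsPrimitiveRoot.coe_units_iff.mpr hz₁
    have h2 : IsPrimitiveRoot (z₂ : Qb) 2 := by
      rw [← hq2]
      exact IsPrimitiveRoot.coe_units_iff.mpr hz₂
    have h12 : z₁ = z₂ := by
      apply Units.ext
      rw [h1.eq_neg_one_of_two_right, h2.eq_neg_one_of_two_right]
    rw [h12] at hε₁
    rw [igMidExpUnique M₀ q hq z₂ ε₁ ε₂ hε₁ hε₂]
  · obtain ⟨a, hqa, hns⟩ := ig_exists_nonsquare hq hq2
    have hza : IsPrimitiveRoot (z₁ ^ a) q :=
      hz₁.pow_of_coprime a ((Nat.Prime.coprime_iff_not_dvd hq).mpr hqa).symm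
    obtain ⟨ε', hε'⟩ := hExp (z₁ ^ a) hza
    have hV₁ := hVal hq hqM A hA z₁ ε₁ hz₁ hε₁
    have hV₂ := hVal hq hqM A hA z₂ ε₂ hz₂ hε₂
    have hV₃ := hVal hq hqM A hA z₃ ε₃ hz₃ hε₃
    have hV' := hVal hq hqM A hA (z₁ ^ a) ε' hza hε'
    have T := ig_satExt_odd hq A hA hqM hPow hLies hq2 hz₁ hza hns hε₁ hε' hV₁ hV'
    obtain ⟨i, hi⟩ := T.exists_eq (O' := expVal hV₂) (hLies hq A hA z₂ ε₂ hε₂ hV₂)
    obtain ⟨j, hj⟩ := T.exists_eq (O' := expVal hV₃) (hLies hq A hA z₃ ε₃ hε₃ hV₃)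
    have key : ∀ {ε ε'' : ↥(modularFunctionFieldBar (M₀ * q * q)) →ₐ[Qb] LaurentSeries Qb}
        (h : ∀ f, f ∈ expOv ε A ∨ f⁻¹ ∈ expOv ε A)
        (h' : ∀ f, f ∈ expOv ε'' A ∨ f⁻¹ ∈ expOv ε'' A),
        expVal h = expVal h' → expOv ε A = expOv ε'' A := by
      intro ε ε'' h h' e
      have e2 : (expVal h).toSubring = (expVal h').toSubring := by rw [e]
      exact e2
    fin_cases i
    · exact absurd hi.symm (ig_gaussOv_ne_expVal hq A hA hqM hz₂ hε₂ hV₂)
    · left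
      exact (key hV₂ hV₁ hi).symm
    · fin_cases j
      · exact absurd hj.symm (ig_gaussOv_ne_expVal hq A hA hqM hz₃ hε₃ hV₃)
      · right; left
        exact (key hV₃ hV₁ hj).symm
      · right; right
        exact key hV₂ hV₃ (hi.trans hj.symm)

end Modular

end Fermat.Agent.S36G
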