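/-
Cluster G (S36), seat IG-EXP, EXISTENCE part (helper9; analytic bricks: helper88, `S36/Ig/EpsGen`;
uniqueness: helper34, `S36/Igusa/Exp`).

For `q` prime, `q ∤ M₀` and a primitive `q`-th root of unity `z = e(b/q)`: with
`G = [[1,0],[M₀ q t,1]] ∈ Γ₀(q M₀)`, `q w + M₀ t b = 1`, the expansion of `f ∘ G` at `∞` is the
middle expansion `ε_z`:  `ε_z ∘ π₁^* = id`, `ε_z (y(q^{q²})) = y(z q)`.

Main result: `igMidExpExists (hq : q.Prime) (hqM : ¬ q ∣ M₀) : IgMidExpExists M₀ q`.
(Without `q ∤ M₀` the statement is false: `j(q^{q²})` would be in `α F₁ ∩ β² F₀`.)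
-/
import Mathlib
import Fermat.Agent.S36.Igusa.Defs
import Fermat.Agent.S36.Igusa.Exp
import Fermat.Agent.S36.Ig.EpsGen
import Fermat.Agent.Lib.Kronecker.ConjExp

set_option autoImplicit false

noncomputable section

namespace Fermat.Agent.S36G

open ModularCurve UpperHalfPlane Fermat.Agent.S24 Fermat.Agent.S24.GensExp
  Fermat.Agent.Kronecker Fermat.Agent.S36Ig
open scoped MatrixGroups

/-- a primitive `q`-th root of unity of `ℚ̄` is `e(b/q)`, `b` prime to `q`. -/
theorem igEx_exists_exp (q : ℕ) [NeZero q] (z : Qbˣ) (hz : IsPrimitiveRoot z q) :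
    ∃ b : ℕ, Nat.Coprime b q ∧
      iota (z : Qb) = Complex.exp (2 * Real.pi * Complex.I * (((b : ℤ) : ℂ)) / (q : ℂ)) := by
  have hz' : IsPrimitiveRoot (z : Qb) q := IsPrimitiveRoot.coe_units_iff.mpr hz
  have hz'' : IsPrimitiveRoot (iota (z : Qb)) q := hz'.map_of_injective iota.injective
  obtain ⟨i, -, hcop, hexp⟩ := (Complex.isPrimitiveRoot_iff _ q (NeZero.ne q)).mp hz''
  refine ⟨i, hcop, ?_⟩
  rw [← hexp]
  congr 1
  push_cast
  ring

theorem igEx_expLL_add (N : ℕ) [NeZero N] (a b : LL N) :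
    EmbFHom.expLL N (a + b) = EmbFHom.expLL N a + EmbFHom.expLL N b :=
  (EmbFHom.expLL N).toRingHom.map_add' a b

theorem igEx_embHom_add (N M : ℕ) [NeZero N] [NeZero M] (hNM : N ∣ M)
    (a b : ↥(modularFunctionFieldBar N)) :
    EmbFHom.embHom N M hNM (a + b) = EmbFHom.embHom N M hNM a + EmbFHom.embHom N M hNM b :=
  (EmbFHom.embHom N M hNM).toRingHom.map_add' a b

/-- the expansions of `g • y`, `y` in the field generated by the `j_D`, are series in `q = u^N`
as soon as this holds for the generators. -/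
theorem igEx_expLL_smul_mem_range (N : ℕ) [NeZero N] (g : SL(2, ℤ))
    (h : ∀ (D : ℕ) (_ : NeZero D), D ∣ N →
      ∃ a : LaurentSeries Qb, HasExp N (g • jd D) (qExpand Qb N a))
    {y : LL N} (hy : y ∈ EmbFHom.genField N N dvd_rfl) :
    EmbFHom.expLL N (g • y) ∈ (qExpandAlgHomC Qb N).fieldRange := by
  unfold EmbFHom.genField at hy
  induction hy using IntermediateField.adjoin_induction with
  | mem x hx =>
    obtain ⟨D, hDne, hD, rfl⟩ := hx
    obtain ⟨a, ha⟩ := h D hDne hD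
    rw [expLL_smul_jdLL N D _ g ha]
    exact AlgHom.mem_fieldRange.mpr ⟨a, rfl⟩
  | algebraMap c =>
    rw [Algebra.algebraMap_eq_smul_one, smul_comm, smul_one, ← Algebra.algebraMap_eq_smul_one,
      AlgHom.commutes]
    exact IntermediateField.algebraMap_mem _ c
  | add x y _ _ hx hy =>
    rw [smul_add, igEx_expLL_add]
    exact add_mem hx hy
  | inv x _ hx =>
    rw [smul_inv'', map_inv₀ (EmbFHom.expLL N)]
    exact inv_mem hx
  | mul x y _ _ hx hy =>
    rw [smul_mul', map_mul (EmbFHom.expLL N)]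
    exact mul_mem hx hy

/-- **division by `q ↦ u^N`**: if the expansions of the translates `g • j_D` of the generators
are series in `u^N`, then `f ↦ (expansion of g • f)(u^{1/N})` is an algebra homomorphism. -/
theorem igEx_exists_eps (N : ℕ) [NeZero N] (g : SL(2, ℤ))
    (h : ∀ (D : ℕ) (_ : NeZero D), D ∣ N →
      ∃ a : LaurentSeries Qb, HasExp N (g • jd D) (qExpand Qb N a)) :
    ∃ ε : ↥(modularFunctionFieldBar N) →ₐ[Qb] LaurentSeries Qb,
      ∀ x, qExpand Qb N (ε x) = EmbFHom.expLL N (g • EmbFHom.embHom N N dvd_rfl x) := by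
  have hmem : ∀ x : ↥(modularFunctionFieldBar N),
      EmbFHom.expLL N (g • EmbFHom.embHom N N dvd_rfl x) ∈ (qExpandAlgHomC Qb N).range := by
    intro x
    obtain ⟨a, ha⟩ := AlgHom.mem_fieldRange.mp
      (igEx_expLL_smul_mem_range N g h (EmbFHom.embHom_mem N N dvd_rfl x))
    exact ⟨a, ha⟩
  let ε' : ↥(modularFunctionFieldBar N) →ₐ[Qb] LaurentSeries Qb :=
    { toFun := fun x => EmbFHom.expLL N (g • EmbFHom.embHom N N dvd_rfl x)
      map_one' := by
        rw [map_one (EmbFHom.embHom N N dvd_rfl), smul_one, map_one (EmbFHom.expLL N)]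
      map_mul' := fun x y => by
        rw [map_mul (EmbFHom.embHom N N dvd_rfl), smul_mul', map_mul (EmbFHom.expLL N)]
      map_zero' := by
        rw [map_zero (EmbFHom.embHom N N dvd_rfl), smul_zero, map_zero (EmbFHom.expLL N)]
      map_add' := fun x y => by
        rw [igEx_embHom_add, smul_add, igEx_expLL_add]
      commutes' := fun c => by
        rw [AlgHom.commutes, Algebra.algebraMap_eq_smul_one, smul_comm, smul_one,
          ← Algebra.algebraMap_eq_smul_one, AlgHom.commutes] }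
  have hinj : Function.Injective (qExpandAlgHomC Qb N) := qExpand_injective N
  let e := AlgEquiv.ofInjective (qExpandAlgHomC Qb N) hinj
  refine ⟨(e.symm : _ →ₐ[Qb] _).comp (ε'.codRestrict _ hmem), fun x => ?_⟩
  have h1 : e (e.symm (ε'.codRestrict _ hmem x)) = ε'.codRestrict _ hmem x :=
    e.apply_symm_apply _
  have h2 := congrArg (fun y : ↥(qExpandAlgHomC Qb N).range => (y : LaurentSeries Qb)) h1
  exact h2

/-- **(IG-EXP), existence**: for `q` prime, `q ∤ M₀`, the middle expansions exist. -/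
theorem igMidExpExists (M₀ q : ℕ) [NeZero M₀] [NeZero q] (hq : q.Prime) (hqM : ¬ q ∣ M₀) :
    IgMidExpExists M₀ q := by
  intro z hz
  obtain ⟨b, hb, hzb⟩ := igEx_exists_exp q z hz
  have hzq : z ^ q = 1 := hz.pow_eq_one
  -- Bezout
  obtain ⟨w, t, hwt⟩ : ∃ w t : ℤ, (q : ℤ) * w + (M₀ : ℤ) * t * ((b : ℕ) : ℤ) = 1 := by
    have hc1 : Nat.Coprime q M₀ := (Nat.Prime.coprime_iff_not_dvd hq).mpr hqM
    have hc : Nat.Coprime q (M₀ * b) := Nat.Coprime.mul_right hc1 hb.symm
    have h1 : IsCoprime (q : ℤ) ((M₀ * b : ℕ) : ℤ) := Nat.isCoprime_iff_coprime.mpr hc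
    obtain ⟨u, v, huv⟩ := h1
    refine ⟨u, v, ?_⟩
    push_cast at huv
    linear_combination huv
  set g : SL(2, ℤ) := (epsLow ((M₀ : ℤ) * q * t))⁻¹ with hg
  have hfix : ∀ (d : ℕ) (_ : NeZero d), d ∣ M₀ * q → g • jd d = jd d :=
    fun d _ hd => eps_low_smul_jd M₀ q d hd t
  have hmid : ∀ (d' : ℕ) (_ : NeZero d'), d' ∣ M₀ →
      HasExp (M₀ * q * q) (g • jd (q * q * d'))
        (qExpand Qb (M₀ * q * q) (scaleL z (qExpand Qb d' (jqModC Qb)))) :=
    fun d' _ hd' => eps_hasExp_low_smul_jd M₀ q d' hd' t b w hwt z hzq hzb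
  -- the expansions of the generators are series in `q`
  have hgen : ∀ (D : ℕ) (_ : NeZero D), D ∣ M₀ * q * q →
      ∃ a : LaurentSeries Qb, HasExp (M₀ * q * q) (g • jd D) (qExpand Qb (M₀ * q * q) a) := by
    intro D hDne hD
    rcases igx_dvd_cases hq hD with h1 | ⟨d', hd', hDeq⟩
    · refine ⟨qExpand Qb D (jqModC Qb), ?_⟩
      rw [hfix D hDne h1, qExpand_qExpand]
      exact hasExp_jd (M₀ * q * q) D hD
    · have hD2 : D = q * q * d' := by rw [hDeq]; ring
      subst hD2
      have hd'ne : NeZero d' := ⟨by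
        rintro rfl
        exact hDne.out (by simp)⟩
      exact ⟨scaleL z (qExpand Qb d' (jqModC Qb)), hmid d' hd'ne hd'⟩
  obtain ⟨ε, hε⟩ := igEx_exists_eps (M₀ * q * q) g hgen
  refine ⟨ε, ⟨fun y => ?_, fun y => ?_⟩⟩
  · -- `ε ∘ π₁^* = id`
    apply qExpand_injective (M₀ * q * q)
    rw [hε]
    have hdvd : M₀ * q ∣ M₀ * q * q := Dvd.intro _ rfl
    have h1 : EmbFHom.embHom (M₀ * q * q) (M₀ * q * q) dvd_rfl (heckeAlphaBar Qb (M₀ * q) q y) =
        EmbFHom.embHom (M₀ * q) (M₀ * q * q) hdvd y := by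
      apply EmbFHom.expLL_injective (M₀ * q * q)
      rw [EmbFHom.expLL_embHom, EmbFHom.expLL_embHom, coe_heckeAlphaBar]
    rw [h1, EmbFHom.smul_eq_of_mem_genField (M₀ * q) (M₀ * q * q) hdvd g hfix
      (EmbFHom.embHom_mem (M₀ * q) (M₀ * q * q) hdvd y), EmbFHom.expLL_embHom]
  · -- `ε (y(q^{q²})) = y(z q)`
    apply qExpand_injective (M₀ * q * q)
    rw [hε]
    let Φ₁ : ↥(modularFunctionFieldBar M₀) →+* LaurentSeries Qb :=
      (EmbFHom.expLL (M₀ * q * q)).toRingHom.comp
        ((MulSemiringAction.toRingHom SL(2, ℤ) (LL (M₀ * q * q)) g).comp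
          ((EmbFHom.embHom (M₀ * q * q) (M₀ * q * q) dvd_rfl).toRingHom.comp
            ((heckeBetaBar Qb (M₀ * q) q).toRingHom.comp (heckeBetaBar Qb M₀ q).toRingHom)))
    let Φ₂ : ↥(modularFunctionFieldBar M₀) →+* LaurentSeries Qb :=
      (qExpand Qb (M₀ * q * q)).comp
        ((scaleL z).comp (modularFunctionFieldBar M₀).val.toRingHom)
    have key : Φ₁ = Φ₂ := by
      apply ringHom_ext_FBar
      · intro c
        show EmbFHom.expLL (M₀ * q * q) (g • EmbFHom.embHom (M₀ * q * q) (M₀ * q * q) dvd_rfl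
            (heckeBetaBar Qb (M₀ * q) q (heckeBetaBar Qb M₀ q (algebraMap Qb _ c)))) =
          qExpand Qb (M₀ * q * q) (scaleL z (algebraMap Qb (LaurentSeries Qb) c))
        rw [AlgHom.commutes, AlgHom.commutes, AlgHom.commutes, Algebra.algebraMap_eq_smul_one,
          smul_comm, smul_one, ← Algebra.algebraMap_eq_smul_one, AlgHom.commutes,
          scaleL_algebraMap, qExpand_algebraMap]
      · intro d hdne hd
        show EmbFHom.expLL (M₀ * q * q) (g • EmbFHom.embHom (M₀ * q * q) (M₀ * q * q) dvd_rfl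
            (heckeBetaBar Qb (M₀ * q) q (heckeBetaBar Qb M₀ q (jdBar M₀ d hd)))) =
          qExpand Qb (M₀ * q * q) (scaleL z ((jdBar M₀ d hd : ↥(modularFunctionFieldBar M₀)) :
            LaurentSeries Qb))
        have hD : q * q * d ∣ M₀ * q * q := by
          rw [show M₀ * q * q = q * q * M₀ by ring]
          exact Nat.mul_dvd_mul_left _ hd
        have h1 : EmbFHom.embHom (M₀ * q * q) (M₀ * q * q) dvd_rfl
            (heckeBetaBar Qb (M₀ * q) q (heckeBetaBar Qb M₀ q (jdBar M₀ d hd))) =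
            EmbFHom.jdLL (M₀ * q * q) (q * q * d) hD := by
          apply EmbFHom.expLL_injective (M₀ * q * q)
          rw [EmbFHom.expLL_embHom, EmbFHom.expLL_jdLL, coe_heckeBetaBar, coe_heckeBetaBar,
            coe_jdBar, qExpand_qExpand, qExpand_qExpand, qExpand_qExpand]
          exact qExpand_congr (by ring) _
        rw [h1, coe_jdBar]
        exact expLL_smul_jdLL _ _ _ _ (hmid d hdne hd)
    exact RingHom.congr_fun key y

end Fermat.Agent.S36G
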