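/-
Cluster G (S36), seat IG-RAM (helper24), ABSTRACT part: a radical extension `L = K₀(y)`,
`y ^ d = t ∈ K₀`, at a place `P` of `K₀` with `gcd (d, ord_P t) = 1`.

* `igram_place_eq_of_pos`   : two places with `𝔪_P ⊆ 𝔪_{P'}` coincide;
* `igram_exists_ram`        : a place `Q` of `L` positive on `φ 𝔪_P` has `ord_Q ∘ φ = e · ord_P`;
* `igram_sum_ne_zero`       : `1, y, …, y^(d-1)` are linearly independent over `K₀` (if a place of
                              `L` over `P` exists);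
* `igram_place_unique`      : **total ramification**: `L` has at most ONE place over `P`.
Nothing modular.
-/
import Mathlib
import Fermat.Prelude.Def_AlgebraicCurve_Correspondence
import Fermat.Agent.S24.Residue
import Fermat.Agent.Lib.RedTr.Basic

set_option autoImplicit false
set_option linter.style.haveILetI false

noncomputable section

namespace Fermat.Agent.S36G

open AlgebraicCurve Fermat.Agent.S24Res

section OneField

variable {K F : Type*} [Field K] [Field F] [Algebra K F]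

theorem igram_ord_pow (P : Place K F) (x : F) (n : ℕ) : P.ord (x ^ n) = n * P.ord x := by
  have h := P.ord_zpow x (n : ℤ)
  rwa [zpow_natCast] at h

/-- **two places with `𝔪_P ⊆ 𝔪_{P'}` coincide.** -/
theorem igram_place_eq_of_pos (P P' : Place K F)
    (h : ∀ x : F, 0 < P.ord x → 0 < P'.ord x) : P' = P := by
  obtain ⟨π, hπ⟩ := IsDiscreteValuationRing.exists_irreducible P.toValuationSubring
  have hπ1 : P.ord (π : F) = 1 := P.ord_coe_irreducible hπ
  have hπ0 : (π : F) ≠ 0 := by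
    intro h0
    rw [h0, Place.ord_zero] at hπ1
    omega
  have hN : 0 < P'.ord (π : F) := h _ (by omega)
  apply Place.ext
  ext x
  rw [mem_iff_ord_nonneg, mem_iff_ord_nonneg]
  constructor
  · intro hx
    by_contra hneg
    have h1 := h x⁻¹ (by rw [P.ord_inv]; omega)
    rw [P'.ord_inv] at h1
    omega
  · intro hx
    by_contra hneg
    have hx0 : x ≠ 0 := by
      rintro rfl
      rw [Place.ord_zero] at hneg
      omega
    set N : ℕ := (P'.ord (π : F)).toNat with hNdef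
    have hNeq : (N : ℤ) = P'.ord (π : F) := Int.toNat_of_nonneg hN.le
    have hz0 : x ^ (N + 1) ≠ 0 := pow_ne_zero _ hx0
    have h1 : P.ord (x ^ (N + 1) * (π : F)) = ((N + 1 : ℕ) : ℤ) * P.ord x + 1 := by
      rw [P.ord_mul hz0 hπ0, igram_ord_pow, hπ1]
    have h2 : P'.ord (x ^ (N + 1) * (π : F)) = ((N + 1 : ℕ) : ℤ) * P'.ord x + N := by
      rw [P'.ord_mul hz0 hπ0, igram_ord_pow, hNeq]
    have h3 : 0 < P.ord (x ^ (N + 1) * (π : F)) := by
      rw [h1]
      have : 0 ≤ ((N + 1 : ℕ) : ℤ) * P.ord x := mul_nonneg (by positivity) hx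
      omega
    have h4 := h _ h3
    rw [h2] at h4
    have h5 : ((N + 1 : ℕ) : ℤ) * P'.ord x ≤ ((N + 1 : ℕ) : ℤ) * (-1) :=
      mul_le_mul_of_nonneg_left (by omega) (by positivity)
    push_cast at h4 h5
    omega

/-- strict ultrametric for finite sums with pairwise distinct orders. -/
theorem igram_ord_sum {ι : Type*} [DecidableEq ι] (Q : Place K F) (s : Finset ι) (T : ι → F)
    (hs : s.Nonempty) (h0 : ∀ i ∈ s, T i ≠ 0)
    (hinj : ∀ i ∈ s, ∀ j ∈ s, Q.ord (T i) = Q.ord (T j) → i = j) :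
    ∃ j ∈ s, (∑ i ∈ s, T i) ≠ 0 ∧ Q.ord (∑ i ∈ s, T i) = Q.ord (T j) ∧
      ∀ i ∈ s, Q.ord (T j) ≤ Q.ord (T i) := by
  obtain ⟨j, hj, hmin⟩ := Finset.exists_min_image s (fun i => Q.ord (T i)) hs
  have hval : ∀ i ∈ s, Q.adicValuation (T i) = WithZero.exp (-Q.ord (T i)) := fun i hi =>
    Q.adicValuation_eq_exp_neg_ord (h0 i hi)
  have hlt : ∀ i ∈ s \ {j}, Q.adicValuation (T i) < Q.adicValuation (T j) := by
    intro i hi
    rw [Finset.mem_sdiff, Finset.mem_singleton] at hi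
    rw [hval i hi.1, hval j hj, WithZero.exp_lt_exp]
    have h1 := hmin i hi.1
    have h2 : Q.ord (T i) ≠ Q.ord (T j) := fun h => hi.2 (hinj i hi.1 j hj h)
    have h3 : Q.ord (T j) < Q.ord (T i) := lt_of_le_of_ne h1 (Ne.symm h2)
    omega
  have hsum := Valuation.map_sum_eq_of_lt Q.adicValuation hj hlt
  have hne : (∑ i ∈ s, T i) ≠ 0 := by
    intro h
    rw [h, map_zero] at hsum
    exact Q.adicValuation_ne_zero (h0 j hj) hsum.symm
  refine ⟨j, hj, hne, ?_, hmin⟩
  unfold Place.ord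
  rw [hsum]

end OneField

section TwoFields

variable {K F L : Type*} [Field K] [Field F] [Field L] [Algebra K F] [Algebra K L]

/-- a place `Q` of `L` which is positive on `φ 𝔪_P` lies over `P`:
`ord_Q (φ x) = e · ord_P x` with `e > 0`. -/
theorem igram_exists_ram (φ : F →ₐ[K] L) (hφ : φ.toRingHom.IsIntegral) (P : Place K F)
    (Q : Place K L) (hQ : ∀ x : F, 0 < P.ord x → 0 < Q.ord (φ x)) :
    ∃ e : ℤ, 0 < e ∧ ∀ x : F, Q.ord (φ x) = e * P.ord x := by
  have hepos : (0 : ℤ) < (Q.ramificationIndexAlong φ : ℤ) := by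
    exact_mod_cast Fermat.Agent.RedTr.ramificationIndexAlong_pos φ hφ Q
  have hres : Q.restrictAlong φ hφ = P := by
    refine igram_place_eq_of_pos P _ fun x hx => ?_
    have h1 := hQ x hx
    rw [Place.ord_restrictAlong φ hφ] at h1
    exact (mul_pos_iff_of_pos_left hepos).mp h1
  refine ⟨Q.ramificationIndexAlong φ, hepos, fun x => ?_⟩
  rw [Place.ord_restrictAlong φ hφ, hres]

variable (φ : F →ₐ[K] L) (y : L) (d : ℕ) (t : F)

/-- the order of a term `φ a · y ^ i`, multiplied by `d`. -/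
theorem igram_ord_term (hy : y ≠ 0) (ht : φ t = y ^ d) (P : Place K F) (Q : Place K L) (e : ℤ)
    (he : ∀ x : F, Q.ord (φ x) = e * P.ord x) {a : F} (ha : a ≠ 0) (i : ℕ) :
    (d : ℤ) * Q.ord (φ a * y ^ i) = e * ((d : ℤ) * P.ord a + i * P.ord t) := by
  have hφa : φ a ≠ 0 := (map_ne_zero φ.toRingHom).mpr ha
  have h1 : (d : ℤ) * Q.ord y = e * P.ord t := by
    rw [← he t, ht, igram_ord_pow]
  rw [Q.ord_mul hφa (pow_ne_zero _ hy), igram_ord_pow, he a]
  linear_combination (i : ℤ) * h1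

/-- the orders of the terms `φ (a i) · y ^ i`, `i < d`, are pairwise distinct. -/
theorem igram_ord_term_inj (hd : 0 < d) (hy : y ≠ 0) (ht : φ t = y ^ d) (P : Place K F)
    (hcop : IsCoprime (d : ℤ) (P.ord t)) (Q : Place K L) (e : ℤ) (hepos : 0 < e)
    (he : ∀ x : F, Q.ord (φ x) = e * P.ord x) (a : Fin d → F) (i j : Fin d)
    (hi : a i ≠ 0) (hj : a j ≠ 0)
    (h : Q.ord (φ (a i) * y ^ (i : ℕ)) = Q.ord (φ (a j) * y ^ (j : ℕ))) : i = j := by
  have h1 := igram_ord_term φ y d t hy ht P Q e he hi (i : ℕ)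
  have h2 := igram_ord_term φ y d t hy ht P Q e he hj (j : ℕ)
  rw [h] at h1
  have h3 : e * ((d : ℤ) * P.ord (a i) + (i : ℕ) * P.ord t) =
      e * ((d : ℤ) * P.ord (a j) + (j : ℕ) * P.ord t) := by rw [← h1, ← h2]
  have h4 := mul_left_cancel₀ hepos.ne' h3
  have h5 : (d : ℤ) ∣ (((i : ℕ) : ℤ) - ((j : ℕ) : ℤ)) * P.ord t :=
    ⟨P.ord (a j) - P.ord (a i), by linear_combination h4⟩
  have h6 : (d : ℤ) ∣ ((i : ℕ) : ℤ) - ((j : ℕ) : ℤ) := hcop.dvd_of_dvd_mul_right h5
  have hi' := i.2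
  have hj' := j.2
  apply Fin.ext
  obtain ⟨c, hc⟩ := h6
  have hd' : (0 : ℤ) < d := by exact_mod_cast hd
  have hc0 : c = 0 := by
    have hlt : ((i : ℕ) : ℤ) - ((j : ℕ) : ℤ) < d := by omega
    have hgt : -(d : ℤ) < ((i : ℕ) : ℤ) - ((j : ℕ) : ℤ) := by omega
    rw [hc] at hlt hgt
    have h1 : c < 1 := by
      by_contra hcon
      have : (d : ℤ) * 1 ≤ d * c := mul_le_mul_of_nonneg_left (by omega) hd'.le
      omega
    have h2 : -1 < c := by
      by_contra hcon
      have : (d : ℤ) * c ≤ d * (-1) := mul_le_mul_of_nonneg_left (by omega) hd'.le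
      omega
    omega
  rw [hc0, mul_zero] at hc
  omega

/-- **linear independence of `1, y, …, y^(d-1)` over `K₀`** (given a place of `L` over `P`):
a combination with some nonzero coefficient is nonzero. -/
theorem igram_sum_ne_zero (hφ : φ.toRingHom.IsIntegral) (hd : 0 < d) (hy : y ≠ 0)
    (ht : φ t = y ^ d) (P : Place K F) (hcop : IsCoprime (d : ℤ) (P.ord t)) (Q : Place K L)
    (hQ : ∀ x : F, 0 < P.ord x → 0 < Q.ord (φ x)) (a : Fin d → F) (ha : a ≠ 0) :
    ∑ i, φ (a i) * y ^ (i : ℕ) ≠ 0 := by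
  classical
  obtain ⟨e, hepos, he⟩ := igram_exists_ram φ hφ P Q hQ
  set s : Finset (Fin d) := Finset.univ.filter fun i => a i ≠ 0 with hs
  have hsum : ∑ i, φ (a i) * y ^ (i : ℕ) = ∑ i ∈ s, φ (a i) * y ^ (i : ℕ) := by
    rw [hs, Finset.sum_filter]
    refine Finset.sum_congr rfl fun i _ => ?_
    by_cases h : a i = 0
    · simp [h]
    · simp [h]
  have hne : s.Nonempty := by
    by_contra hcon
    rw [Finset.not_nonempty_iff_eq_empty] at hcon
    apply ha
    funext i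
    by_contra hi
    have : i ∈ s := by rw [hs, Finset.mem_filter]; exact ⟨Finset.mem_univ _, hi⟩
    rw [hcon] at this
    exact absurd this (Finset.notMem_empty _)
  have hmem : ∀ i ∈ s, a i ≠ 0 := fun i hi => (Finset.mem_filter.mp hi).2
  obtain ⟨j, -, hne0, -, -⟩ := igram_ord_sum Q s (fun i => φ (a i) * y ^ (i : ℕ)) hne
    (fun i hi => mul_ne_zero ((map_ne_zero φ.toRingHom).mpr (hmem i hi)) (pow_ne_zero _ hy))
    (fun i hi j hj h => igram_ord_term_inj φ y d t hd hy ht P hcop Q e hepos he a i j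
      (hmem i hi) (hmem j hj) h)
  rw [hsum]
  exact hne0

/-- one inclusion of the valuation rings of two places over `P`. -/
theorem igram_mem_of_mem (hφ : φ.toRingHom.IsIntegral) (hd : 0 < d) (hy : y ≠ 0)
    (ht : φ t = y ^ d)
    (hgen : ∀ z : L, ∃ a : Fin d → F, z = ∑ i, φ (a i) * y ^ (i : ℕ))
    (P : Place K F) (hcop : IsCoprime (d : ℤ) (P.ord t)) (Q Q' : Place K L)
    (hQ : ∀ x : F, 0 < P.ord x → 0 < Q.ord (φ x))
    (hQ' : ∀ x : F, 0 < P.ord x → 0 < Q'.ord (φ x)) (z : L)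
    (hz : z ∈ Q.toValuationSubring) : z ∈ Q'.toValuationSubring := by
  classical
  obtain ⟨e, hepos, he⟩ := igram_exists_ram φ hφ P Q hQ
  obtain ⟨e', hepos', he'⟩ := igram_exists_ram φ hφ P Q' hQ'
  obtain ⟨a, rfl⟩ := hgen z
  set s : Finset (Fin d) := Finset.univ.filter fun i => a i ≠ 0 with hs
  have hsum : ∑ i, φ (a i) * y ^ (i : ℕ) = ∑ i ∈ s, φ (a i) * y ^ (i : ℕ) := by
    rw [hs, Finset.sum_filter]
    refine Finset.sum_congr rfl fun i _ => ?_
    by_cases h : a i = 0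
    · simp [h]
    · simp [h]
  rw [hsum] at hz ⊢
  have hmem : ∀ i ∈ s, a i ≠ 0 := fun i hi => (Finset.mem_filter.mp hi).2
  by_cases hne : s.Nonempty
  · obtain ⟨j, hj, -, hord, hmin⟩ := igram_ord_sum Q s (fun i => φ (a i) * y ^ (i : ℕ)) hne
      (fun i hi => mul_ne_zero ((map_ne_zero φ.toRingHom).mpr (hmem i hi)) (pow_ne_zero _ hy))
      (fun i hi j hj h => igram_ord_term_inj φ y d t hd hy ht P hcop Q e hepos he a i j
        (hmem i hi) (hmem j hj) h)
    rw [mem_iff_ord_nonneg, hord] at hz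
    refine sum_mem fun i hi => ?_
    rw [mem_iff_ord_nonneg]
    have h1 : 0 ≤ Q.ord (φ (a i) * y ^ (i : ℕ)) := le_trans hz (hmin i hi)
    have h2 := igram_ord_term φ y d t hy ht P Q e he (hmem i hi) (i : ℕ)
    have h3 := igram_ord_term φ y d t hy ht P Q' e' he' (hmem i hi) (i : ℕ)
    have hd' : (0 : ℤ) < d := by exact_mod_cast hd
    have h4 : 0 ≤ e * ((d : ℤ) * P.ord (a i) + (i : ℕ) * P.ord t) := by
      rw [← h2]
      exact mul_nonneg hd'.le h1
    have h5 : 0 ≤ (d : ℤ) * P.ord (a i) + (i : ℕ) * P.ord t :=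
      nonneg_of_mul_nonneg_right h4 hepos
    have h6 : 0 ≤ (d : ℤ) * Q'.ord (φ (a i) * y ^ (i : ℕ)) := by
      rw [h3]
      exact mul_nonneg hepos'.le h5
    exact nonneg_of_mul_nonneg_right h6 hd'
  · rw [Finset.not_nonempty_iff_eq_empty] at hne
    rw [hne, Finset.sum_empty]
    exact zero_mem _

/-- **total ramification**: `L = K₀(y)`, `y ^ d = t`, `gcd (d, ord_P t) = 1`: at most one place
of `L` lies over `P`. -/
theorem igram_place_unique (hφ : φ.toRingHom.IsIntegral) (hd : 0 < d) (hy : y ≠ 0)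
    (ht : φ t = y ^ d)
    (hgen : ∀ z : L, ∃ a : Fin d → F, z = ∑ i, φ (a i) * y ^ (i : ℕ))
    (P : Place K F) (hcop : IsCoprime (d : ℤ) (P.ord t)) (Q Q' : Place K L)
    (hQ : ∀ x : F, 0 < P.ord x → 0 < Q.ord (φ x))
    (hQ' : ∀ x : F, 0 < P.ord x → 0 < Q'.ord (φ x)) : Q = Q' := by
  apply Place.ext
  ext z
  exact ⟨igram_mem_of_mem φ y d t hφ hd hy ht hgen P hcop Q Q' hQ hQ' z,
    igram_mem_of_mem φ y d t hφ hd hy ht hgen P hcop Q' Q hQ' hQ z⟩

end TwoFields

end Fermat.Agent.S36G
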