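/-
Cluster G (S36), seat IG-RAM (helper24), part 3 (abstract, Mathlib only): the radical extension
`L = F(y)`, `y ^ d ∈ F`, inside a field `E`.

* `igram_gen`            : every element of `adjoin k (F ∪ {y})` is `∑_{i < d} a_i y^i`, `a_i ∈ F`;
* `igram_isIntegral`     : a homomorphism `φ : F → L` with `L = ∑ φ(F) y^i`, `y^d ∈ φ(F)`, is
                           integral;
* `igram_relfinrank_le`  : `[F(y) : F] ≤ d`;
* `igram_le_relfinrank`  : `d ≤ [F(y) : F]` if `1, y, …, y^(d-1)` are linearly independent over `F`.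
-/
import Mathlib

set_option autoImplicit false
set_option linter.style.haveILetI false

noncomputable section

namespace Fermat.Agent.S36G

open Polynomial

section Gen

variable {k E : Type*} [Field k] [Field E] [Algebra k E]

/-- `y` is integral over `F` if `y ^ d ∈ F`, `d > 0`. -/
theorem igram_isIntegral_of_pow_mem (F : IntermediateField k E) (y : E) (d : ℕ) (hd : 0 < d)
    (hyd : y ^ d ∈ F) : IsIntegral F y := by
  refine ⟨X ^ d - C (⟨y ^ d, hyd⟩ : F), monic_X_pow_sub_C _ hd.ne', ?_⟩
  rw [← aeval_def]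
  simp only [map_sub, map_pow, aeval_X, aeval_C]
  exact sub_self _

/-- `adjoin k (F ∪ {y}) = F(y)`. -/
theorem igram_adjoin_eq (F : IntermediateField k E) (y : E) :
    IntermediateField.adjoin k ((F : Set E) ∪ {y}) =
      (IntermediateField.adjoin F {y}).restrictScalars k :=
  (IntermediateField.restrictScalars_adjoin k F {y}).symm

/-- every element of `F(y)`, `y ^ d ∈ F`, is `∑_{i < d} a_i y ^ i`. -/
theorem igram_gen (F : IntermediateField k E) (y : E) (d : ℕ) (hd : 0 < d) (hyd : y ^ d ∈ F)
    {z : E} (hz : z ∈ IntermediateField.adjoin k ((F : Set E) ∪ {y})) :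
    ∃ a : Fin d → F, z = ∑ i, (a i : E) * y ^ (i : ℕ) := by
  rw [igram_adjoin_eq, IntermediateField.mem_restrictScalars] at hz
  have hint : IsIntegral F y := igram_isIntegral_of_pow_mem F y d hd hyd
  have h2 : z ∈ Algebra.adjoin F {y} := by
    rw [← IntermediateField.adjoin_simple_toSubalgebra_of_isAlgebraic hint.isAlgebraic]
    exact hz
  rw [Algebra.adjoin_singleton_eq_range_aeval] at h2
  obtain ⟨p, rfl⟩ := h2
  set g : F[X] := X ^ d - C (⟨y ^ d, hyd⟩ : F) with hg
  have hgm : g.Monic := monic_X_pow_sub_C _ hd.ne'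
  have hg0 : aeval y g = 0 := by
    rw [hg]
    simp only [map_sub, map_pow, aeval_X, aeval_C]
    exact sub_self _
  have h3 : aeval y p = aeval y (p %ₘ g) := by
    conv_lhs => rw [← Polynomial.modByMonic_add_div p g]
    rw [map_add, map_mul, hg0, zero_mul, add_zero]
  have hgd : g.natDegree = d := natDegree_X_pow_sub_C
  have hdeg : (p %ₘ g).natDegree < d := by
    have h := Polynomial.natDegree_modByMonic_lt p hgm (by
      intro h1
      have := congrArg Polynomial.natDegree h1
      rw [hgd, natDegree_one] at this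
      omega)
    rwa [hgd] at h
  refine ⟨fun i => (p %ₘ g).coeff i, ?_⟩
  show aeval y p = _
  rw [h3, Polynomial.aeval_eq_sum_range' hdeg, Fin.sum_univ_eq_sum_range
    (fun i => (((p %ₘ g).coeff i : F) : E) * y ^ i) d]
  refine Finset.sum_congr rfl fun i _ => ?_
  rw [Algebra.smul_def]
  rfl

/-- `[F(y) : F] = deg minpoly`. -/
theorem igram_relfinrank_eq (F : IntermediateField k E) (y : E) (hint : IsIntegral F y) :
    IntermediateField.relfinrank F (IntermediateField.adjoin k ((F : Set E) ∪ {y})) =
      (minpoly F y).natDegree := by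
  have hle : F ≤ IntermediateField.adjoin k ((F : Set E) ∪ {y}) := fun x hx =>
    IntermediateField.subset_adjoin k _ (Or.inl hx)
  rw [IntermediateField.relfinrank_eq_finrank_of_le hle]
  have h1 : IntermediateField.extendScalars hle = IntermediateField.adjoin F {y} := by
    apply IntermediateField.restrictScalars_injective k
    rw [IntermediateField.extendScalars_restrictScalars, igram_adjoin_eq]
  rw [h1]
  exact IntermediateField.adjoin.finrank hint

/-- `[F(y) : F] ≤ d` if `y ^ d ∈ F`. -/
theorem igram_relfinrank_le (F : IntermediateField k E) (y : E) (d : ℕ) (hd : 0 < d)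
    (hyd : y ^ d ∈ F) :
    IntermediateField.relfinrank F (IntermediateField.adjoin k ((F : Set E) ∪ {y})) ≤ d := by
  have hint : IsIntegral F y := igram_isIntegral_of_pow_mem F y d hd hyd
  rw [igram_relfinrank_eq F y hint]
  set g : F[X] := X ^ d - C (⟨y ^ d, hyd⟩ : F) with hg
  have hgm : g.Monic := monic_X_pow_sub_C _ hd.ne'
  have hg0 : aeval y g = 0 := by
    rw [hg]
    simp only [map_sub, map_pow, aeval_X, aeval_C]
    exact sub_self _
  have hgd : g.natDegree = d := natDegree_X_pow_sub_C
  have h := Polynomial.natDegree_le_of_dvd (minpoly.dvd F y hg0) hgm.ne_zero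
  rwa [hgd] at h

/-- `d ≤ [F(y) : F]` if `1, y, …, y ^ (d - 1)` are linearly independent over `F`. -/
theorem igram_le_relfinrank (F : IntermediateField k E) (y : E) (d : ℕ)
    (hint : IsIntegral F y)
    (hind : ∀ a : Fin d → F, (∃ i, a i ≠ 0) → ∑ i, (a i : E) * y ^ (i : ℕ) ≠ 0) :
    d ≤ IntermediateField.relfinrank F (IntermediateField.adjoin k ((F : Set E) ∪ {y})) := by
  rw [igram_relfinrank_eq F y hint]
  by_contra hlt
  rw [not_le] at hlt
  set p := minpoly F y with hp
  have hpm : p.Monic := minpoly.monic hint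
  have hp0 : aeval y p = 0 := minpoly.aeval F y
  apply hind (fun i => p.coeff i) ⟨⟨p.natDegree, hlt⟩, by
    show p.coeff p.natDegree ≠ 0
    rw [Polynomial.coeff_natDegree, hpm.leadingCoeff]
    exact one_ne_zero⟩
  rw [← hp0, Polynomial.aeval_eq_sum_range' hlt, Fin.sum_univ_eq_sum_range
    (fun i => ((p.coeff i : F) : E) * y ^ i) d]
  refine Finset.sum_congr rfl fun i _ => ?_
  rw [Algebra.smul_def]
  rfl

end Gen

section Hom

variable {K F L : Type*} [Field K] [Field F] [Field L] [Algebra K F] [Algebra K L]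

/-- a homomorphism `φ : F → L` with `L = ∑ φ(F) y ^ i`, `y ^ d ∈ φ(F)`, is integral. -/
theorem igram_isIntegral (φ : F →ₐ[K] L) (y : L) (d : ℕ) (t : F) (hd : 0 < d)
    (ht : φ t = y ^ d)
    (hgen : ∀ z : L, ∃ a : Fin d → F, z = ∑ i, φ (a i) * y ^ (i : ℕ)) :
    φ.toRingHom.IsIntegral := by
  have hy : φ.toRingHom.IsIntegralElem y := by
    refine ⟨X ^ d - C t, monic_X_pow_sub_C _ hd.ne', ?_⟩
    rw [eval₂_sub, eval₂_pow, eval₂_X, eval₂_C]
    show y ^ d - φ t = 0
    rw [ht, sub_self]
  intro z
  obtain ⟨a, rfl⟩ := hgen z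
  letI : Algebra F L := φ.toRingHom.toAlgebra
  show IsIntegral F (∑ i, φ (a i) * y ^ (i : ℕ))
  refine IsIntegral.sum _ fun i _ => ?_
  refine IsIntegral.mul ?_ (IsIntegral.pow ?_ _)
  · exact isIntegral_algebraMap (R := F) (A := L) (x := a i)
  · exact hy

end Hom

end Fermat.Agent.S36G
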