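/-
Cluster G (S36), seat IG-RAM (helper24), part 2: the EXACT multiplicities of the roots `0` and
`1728` of the supersingular polynomial, from the squarefreeness of the Hasse invariant.

`ssFun = Δ̄ ^ (1 - q) = u₀ P(j̄)` (`BadRed.ssPoly`); the library has the bounds `m_0 ≤ 4`,
`m_1728 ≤ 6`.  Here: if `0` is a root then `m_0 = 4`, if `1728` is a root then `m_1728 = 6`
(`A ^ 12 = ssHom P`, `A` squarefree, `ssLin 0 = 1728 Q³`, `ssLin 1728 = 1728 R²`).

* `igram_ssPoly`            : the supersingular polynomial with exact multiplicities at `0, 1728`;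
* `igram_ssFun_mul_delta`   : `ssFun · Δ ^ (q - 1) = 1`.
-/
import Fermat.Agent.Lib.BadRed.Mod.SSPoly
import Fermat.Agent.S28.FormalUnit

set_option autoImplicit false
set_option linter.unusedSectionVars false
set_option linter.style.haveILetI false

noncomputable section

open Fermat.Agent.S16SwD MvPolynomial ModularCurve
open Fermat.Agent.SwD (zmap evK miller e2Z e4Z e6Z deltaZ)
open Fermat.Agent.BadRed Fermat.Agent.S28

namespace Fermat.Agent.S36G

section Mult

variable {κ : Type*} [Field κ]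

/-- `X i ∤ G` if `G` does not vanish at a point with `x i = 0`. -/
lemma igram_not_X_dvd (i : Fin 2) (x : Fin 2 → κ) (hx : x i = 0)
    {G : MvPolynomial (Fin 2) κ} (hG : MvPolynomial.eval x G ≠ 0) :
    ¬ (X i : MvPolynomial (Fin 2) κ) ∣ G := by
  rintro ⟨H, rfl⟩
  apply hG
  rw [map_mul, MvPolynomial.eval_X, hx, zero_mul]

/-- the exact power of `X i` in `c X i ^ b G`, `G` not vanishing at a point with `x i = 0`. -/
lemma igram_le_of_X_pow_dvd (i : Fin 2) (x : Fin 2 → κ) (hx : x i = 0) {c : κ} (hc : c ≠ 0)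
    {G : MvPolynomial (Fin 2) κ} (hG : MvPolynomial.eval x G ≠ 0) {a b : ℕ}
    (h : (X i : MvPolynomial (Fin 2) κ) ^ a ∣ (C c * X i ^ b) * G) : a ≤ b := by
  by_contra hlt
  rw [not_le] at hlt
  have h1 : (X i : MvPolynomial (Fin 2) κ) ^ (b + 1) ∣ X i ^ b * (C c * G) := by
    refine (pow_dvd_pow _ hlt).trans ?_
    have e : (X i : MvPolynomial (Fin 2) κ) ^ b * (C c * G) = (C c * X i ^ b) * G := by ring
    rw [e]
    exact h
  rw [pow_succ] at h1
  have h2 : (X i : MvPolynomial (Fin 2) κ) ∣ C c * G :=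
    (mul_dvd_mul_iff_left (pow_ne_zero b (MvPolynomial.X_ne_zero i))).mp h1
  exact igram_not_X_dvd i x hx (G := C c * G)
    (by rw [map_mul, MvPolynomial.eval_C]; exact mul_ne_zero hc hG) h2

end Mult

section Hasse

variable (k : Type) [Field k] (q : ℕ) [hq : Fact q.Prime] [CharP k q]

/-- **the supersingular polynomial with the exact multiplicities at `0` and `1728`.** -/
theorem igram_ssPoly (h5 : 5 ≤ q) :
    ∃ (P : Polynomial k) (u₀ : k), u₀ ≠ 0 ∧ P ≠ 0 ∧
      ssFun k q = HahnSeries.C u₀ * Polynomial.aeval (jqModC k) P ∧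
      (P.IsRoot 0 → P.rootMultiplicity 0 = 4) ∧
      (P.IsRoot 1728 → P.rootMultiplicity 1728 = 6) := by
  have h1728 : (1728 : k) ≠ 0 := Fermat.Agent.SwD.ne_zero_1728 q h5
  have hq1 : 1 ≤ q := hq.out.one_le
  obtain ⟨A, hA, hA1⟩ := exists_hasse k q h5
  have hA0 : A ≠ 0 := by
    rintro rfl
    rw [map_zero] at hA1
    exact zero_ne_one hA1
  have hA12 : IsWeightedHomogeneous wt (A ^ 12) (12 * (q - 1)) := by
    have := hA.pow 12
    rwa [smul_eq_mul] at this
  obtain ⟨P, hPdeg, hAP⟩ := exists_ssHom_eq h1728 (q - 1) (A ^ 12) hA12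
  have hkey : ssD k ^ (q - 1) * Polynomial.aeval (jqModC k) P = 1 := by
    rw [← ofPS_evK_ssHom k hPdeg, ← hAP, map_pow, hA1, one_pow, map_one]
  have hP0 : P ≠ 0 := by
    rintro rfl
    rw [map_zero, mul_zero] at hkey
    exact zero_ne_one hkey
  have hsq : ∀ π : MvPolynomial (Fin 2) k, Prime π → ¬ π ^ 2 ∣ A := fun π hπ =>
    (ssRam k q h5).not_sq_dvd q hA hA1 hπ
  have hexact : ∀ (c : k) (i : Fin 2) (e : ℕ) (x : Fin 2 → k), 0 < e →
      ssLin c = C 1728 * X i ^ e → x i = 0 →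
      (∀ (m : ℕ) (P₁ : Polynomial k), P₁.natDegree ≤ m → ¬ P₁.IsRoot c →
        MvPolynomial.eval x (ssHom m P₁) ≠ 0) →
      P.IsRoot c → e * P.rootMultiplicity c = 12 := by
    intro c i e x he hlin hx hev hroot
    have hmpos : 0 < P.rootMultiplicity c := (Polynomial.rootMultiplicity_pos hP0).mpr hroot
    obtain ⟨P₁, hP₁, hnd⟩ := Polynomial.exists_eq_pow_rootMultiplicity_mul_and_not_dvd P hP0 c
    generalize P.rootMultiplicity c = m at hmpos hP₁ ⊢
    have hP₁0 : P₁ ≠ 0 := by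
      rintro rfl
      rw [mul_zero] at hP₁
      exact hP0 hP₁
    have hdeg : P.natDegree = m + P₁.natDegree := by
      rw [hP₁, Polynomial.natDegree_mul (pow_ne_zero _ (Polynomial.X_sub_C_ne_zero c)) hP₁0,
        Polynomial.natDegree_pow, Polynomial.natDegree_X_sub_C, mul_one]
    have hP₁m : P₁.natDegree ≤ (q - 1) - m := by omega
    have hme : q - 1 = ((q - 1) - m) + m := by omega
    have hfac : A ^ 12 = (C 1728 * X i ^ e) ^ m * ssHom ((q - 1) - m) P₁ := by
      have h1 : ssHom (q - 1) P = ssHom (((q - 1) - m) + m) ((Polynomial.X - Polynomial.C c) ^ m * P₁) := by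
        rw [← hme, ← hP₁]
      rw [hAP, h1, ssHom_lin_pow_mul m hP₁m, hlin]
    have hG : MvPolynomial.eval x (ssHom ((q - 1) - m) P₁) ≠ 0 :=
      hev _ _ hP₁m (fun h => hnd (Polynomial.dvd_iff_isRoot.mpr h))
    have hXA : (X i : MvPolynomial (Fin 2) k) ∣ A := by
      have h1 : (X i : MvPolynomial (Fin 2) k) ∣ A ^ 12 := by
        rw [hfac]
        refine Dvd.dvd.mul_right ?_ _
        refine dvd_pow ?_ hmpos.ne'
        exact Dvd.dvd.mul_left (dvd_pow_self _ he.ne') _
      exact (MvPolynomial.X_prime).dvd_of_dvd_pow h1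
    have hfac' : A ^ 12 = (C ((1728 : k) ^ m) * X i ^ (e * m)) * ssHom ((q - 1) - m) P₁ := by
      rw [hfac, mul_pow, ← pow_mul, map_pow]
    have h12 : (X i : MvPolynomial (Fin 2) k) ^ 12 ∣
        (C ((1728 : k) ^ m) * X i ^ (e * m)) * ssHom ((q - 1) - m) P₁ := by
      rw [← hfac']
      exact pow_dvd_pow_of_dvd hXA 12
    have hge : 12 ≤ e * m := igram_le_of_X_pow_dvd i x hx (pow_ne_zero _ h1728) hG h12
    have hle : e * m ≤ 12 := by
      have h2 : (X i : MvPolynomial (Fin 2) k) ^ (e * m) ∣ A ^ 12 := by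
        rw [hfac']
        exact Dvd.dvd.mul_right (Dvd.dvd.mul_left (dvd_refl _) _) _
      exact le_of_prime_pow_dvd_pow hA0 MvPolynomial.X_prime (hsq _ MvPolynomial.X_prime) h2
    omega
  refine ⟨P, 1728 ^ (q - 1), pow_ne_zero _ h1728, hP0, ?_, ?_, ?_⟩
  · have h := ssFun_mul_ssD_pow k q hq1
    calc ssFun k q = ssFun k q * (ssD k ^ (q - 1) * Polynomial.aeval (jqModC k) P) := by
          rw [hkey, mul_one]
      _ = (ssFun k q * ssD k ^ (q - 1)) * Polynomial.aeval (jqModC k) P := by ring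
      _ = _ := by rw [h]
  · intro hroot
    have h := hexact 0 0 3 ![0, 1] (by norm_num) ssLin_zero rfl (fun m P₁ _ hnr => by
      rw [eval_ssHom_zero_one]
      refine mul_ne_zero ?_ (pow_ne_zero _ (neg_ne_zero.mpr one_ne_zero))
      rw [Polynomial.coeff_zero_eq_eval_zero]
      exact hnr) hroot
    omega
  · intro hroot
    have h := hexact 1728 1 2 ![1, 0] (by norm_num) ssLin_1728 rfl (fun m P₁ hm hnr => by
      rw [eval_ssHom_one_zero hm]
      exact hnr) hroot
    omega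

end Hasse

section Delta

variable (k : Type*) [Field k]

/-- `1728 Δ = 1728 · Δ`. -/
theorem igram_ssD_eq : ssD k = HahnSeries.C (1728 : k) * wp10_DeltaF k := by
  rw [ssD_eq, wp10_DeltaF_eq, mul_assoc]

/-- **`Δ̄ ^ (1 - q) · Δ̄ ^ (q - 1) = 1`** (`1728 ≠ 0`). -/
theorem igram_ssFun_mul_delta (h1728 : (1728 : k) ≠ 0) (q : ℕ) (hq : 1 ≤ q) :
    ssFun k q * wp10_DeltaF k ^ (q - 1) = 1 := by
  have h := ssFun_mul_ssD_pow k q hq
  rw [igram_ssD_eq, mul_pow, ← map_pow] at h
  have hc : HahnSeries.C (Γ := ℤ) ((1728 : k) ^ (q - 1)) ≠ 0 := by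
    rw [ne_eq, map_eq_zero_iff _ HahnSeries.C_injective]
    exact pow_ne_zero _ h1728
  apply mul_left_cancel₀ hc
  linear_combination h

end Delta

end Fermat.Agent.S36G
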