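/-
Cluster G (S36), seat IG-RAM (helper24): **total ramification of `k(Z)(θ j̄) / k(Z)` at the
supersingular places** and the degree.

`y = θ j̄`, `d = midDeg q`, `t = y ^ d ∈ k(Z)` (`igKummer`).  For `q ≥ 5`:
`t ^ 12 · ssFun = (j̄⁴ (j̄ - 1728)³) ^ (q - 1)` (`theta_identity`, `ssFun · Δ̄ ^ (q - 1) = 1`), and
`ssFun = u₀ S(j̄)` with the EXACT multiplicities `4`, `6` at `0`, `1728` (`igram_ssPoly`).  At a
place `P` with `ord_P ssFun = 12`:  `ord_P t = -1`, `q - 2`, `(q - 3) / 2` for
`j̄(P) ≠ 0, 1728` / `= 0` / `= 1728`; in all cases `gcd (d, ord_P t) = 1`.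

* `igram_series_identity` : the identity of `q`-series;
* `igram_coprime`         : `IsCoprime d (ord_P t)` at a place with `ord_P ssFun = 12`;
* `igTotRam`              : **`IgTotRam M₀ q`** (unconditional);
* `igRam_relfinrank_le`   : `[k(Z)(θ j̄) : k(Z)] ≤ midDeg q`;
* `igRam_le_relfinrank`   : `midDeg q ≤ [k(Z)(θ j̄) : k(Z)]` if `k(Z)(θ j̄)` has a place over a
                            supersingular place `P` with `ord_P ssFun = 12`;
* `igRam_relfinrank_eq`   : the equality, same hypothesis;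
* `igDegree_small`        : `IgDegree M₀ q` for `q < 5` (unconditional).
-/
import Mathlib
import Fermat.Agent.S36.Igusa.Defs
import Fermat.Agent.S36.Igusa.Kummer
import Fermat.Agent.S36.Igusa.RamAbs
import Fermat.Agent.S36.Igusa.RamMult
import Fermat.Agent.S36.Igusa.RamGen
import Fermat.Agent.Lib.RR.OfModularCFinal
import Fermat.Agent.Lib.RR.Basic
import Fermat.Agent.Lib.RR.Hurwitz.Norm
import Fermat.Agent.Lib.GoodRed.Small.PolyOrd
import Fermat.Agent.Lib.GoodRed.Modular
import Fermat.Agent.Lib.IgusaDeg.ThetaId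

set_option autoImplicit false
set_option linter.unusedSectionVars false
set_option linter.style.haveILetI false

noncomputable section

open AlgebraicCurve ModularCurve Fermat.Agent.BadRed Fermat.Agent.RR Fermat.Agent.S28

namespace Fermat.Agent.S36G

attribute [local instance 10000] SubalgebraClass.toAlgebra HahnSeries.powerSeriesAlgebra

theorem igram_midDeg_pos {q : ℕ} (hq : q.Prime) : 0 < midDeg q := by
  unfold midDeg midCard
  have h2 := hq.two_le
  split_ifs with h
  · subst h; decide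
  · have h3 : 3 ≤ q := by omega
    have : 2 ≤ q - 1 := by omega
    exact Nat.div_pos this (by norm_num)

theorem igram_midDeg_large {q : ℕ} (h5 : 5 ≤ q) : midDeg q = (q - 1) / 2 := by
  unfold midDeg midCard
  rw [if_neg (by omega)]

theorem igram_midDeg_small {q : ℕ} (hq : q.Prime) (h5 : ¬ 5 ≤ q) : midDeg q = 1 := by
  have h2 := hq.two_le
  have h23 : q = 2 ∨ q = 3 := by
    have h4 : q ≠ 4 := by
      rintro rfl
      exact absurd hq (by decide)
    omega
  rcases h23 with rfl | rfl
  · decide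
  · decide

section Series

variable (k : Type) [Field k] (q : ℕ) [hq : Fact q.Prime] [CharP k q]

/-- `(θ j̄) ^ (6 (q - 1)) · Δ̄ ^ (1 - q) = (j̄⁴ (j̄ - 1728)³) ^ (q - 1)`. -/
theorem igram_series_identity (h5 : 5 ≤ q) :
    (Fermat.Agent.IgusaDeg.theta k (jqModC k) ^ ((q - 1) / 2)) ^ 12 * ssFun k q =
      (jqModC k ^ 4 * (jqModC k - HahnSeries.C (1728 : k)) ^ 3) ^ (q - 1) := by
  have h1728 : (1728 : k) ≠ 0 := Fermat.Agent.SwD.ne_zero_1728 q h5
  have hq1 : 1 ≤ q := hq.out.one_le
  have hodd : Odd q := hq.out.odd_of_ne_two (by omega)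
  have hqd : (q - 1) / 2 * 12 = 6 * (q - 1) := by
    obtain ⟨m, hm⟩ := hodd
    omega
  have h6 : (Fermat.Agent.IgusaDeg.theta k (jqModC k) ^ ((q - 1) / 2)) ^ 12 =
      (Fermat.Agent.IgusaDeg.theta k (jqModC k) ^ 6) ^ (q - 1) := by
    rw [← pow_mul, ← pow_mul, hqd]
  have hΔ := igram_ssFun_mul_delta k h1728 q hq1
  rw [h6, Fermat.Agent.IgusaDeg.theta_identity]
  calc (wp10_DeltaF k * jqModC k ^ 4 * (jqModC k - HahnSeries.C 1728) ^ 3) ^ (q - 1) * ssFun k q
      = (ssFun k q * wp10_DeltaF k ^ (q - 1)) *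
          (jqModC k ^ 4 * (jqModC k - HahnSeries.C 1728) ^ 3) ^ (q - 1) := by
        rw [mul_assoc (wp10_DeltaF k), mul_pow]
        ring
    _ = _ := by rw [hΔ, one_mul]

end Series

section Place

variable (k : Type) [Field k] [IsAlgClosed k] (M₀ : ℕ) [NeZero M₀] (q : ℕ) [hq : Fact q.Prime]
  [CharP k q]

set_option maxHeartbeats 1600000 in
/-- **the order of `t = (θ j̄) ^ d` at a supersingular place with `ord_P ssFun = 12` is prime
to `d = (q - 1) / 2`.** -/
theorem igram_coprime (h5 : 5 ≤ q) (P : Place k ↥(modularFunctionFieldFullC k M₀))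
    (t u : ↥(modularFunctionFieldFullC k M₀))
    (ht : (t : LaurentSeries k) = Fermat.Agent.IgusaDeg.theta k (jqModC k) ^ ((q - 1) / 2))
    (hu : (u : LaurentSeries k) = ssFun k q) (hno : P.ord u = 12) :
    IsCoprime (((q - 1) / 2 : ℕ) : ℤ) (P.ord t) := by
  classical
  have h1728 : (1728 : k) ≠ 0 := Fermat.Agent.SwD.ne_zero_1728 q h5
  have hodd : Odd q := hq.out.odd_of_ne_two (by omega)
  have hI0 := igram_series_identity k q h5
  obtain ⟨d, hd⟩ : ∃ d, (q - 1) / 2 = d := ⟨_, rfl⟩
  have hqd : q - 1 = 2 * d := by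
    obtain ⟨m, hm⟩ := hodd
    omega
  rw [hd] at ht hI0 ⊢
  set J : ↥(modularFunctionFieldFullC k M₀) := Fermat.Agent.RRMod.jC k M₀ with hJ
  have hJc : (J : LaurentSeries k) = jqModC k := rfl
  have hJtr : Transcendental k J :=
    Fermat.Agent.GoodRed.transcendental_of_coe _ _
      (by rw [hJc]; exact Fermat.Agent.GoodRed.transcendental_jqModC k)
  have hRR := Fermat.Agent.RRMod.isRRField_fullC' k M₀
  obtain ⟨S, u₀, hu₀, hS0, hss, hm0, hm1⟩ := igram_ssPoly k q h5
  have hu' : u = algebraMap k ↥(modularFunctionFieldFullC k M₀) u₀ * Polynomial.aeval J S := by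
    apply Subtype.ext
    rw [hu, hss, MulMemClass.coe_mul, ← IntermediateField.aeval_coe, hJc,
      ← algebraMap_mul_laurent]
    rfl
  have hc0 : algebraMap k ↥(modularFunctionFieldFullC k M₀) u₀ ≠ 0 := by
    rwa [ne_eq, map_eq_zero_iff _ (algebraMap k ↥(modularFunctionFieldFullC k M₀)).injective]
  have hu0 : u ≠ 0 := by
    intro h0
    rw [h0, P.ord_zero] at hno
    omega
  have haS : Polynomial.aeval J S ≠ 0 := by
    intro h0
    rw [hu', h0, mul_zero] at hu0
    exact hu0 rfl
  have hordS : P.ord (Polynomial.aeval J S) = 12 := by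
    rw [hu', P.ord_mul hc0 haS, Fermat.Agent.GoodRedSmall.ord_const, zero_add] at hno
    exact hno
  have hj : 0 ≤ P.ord J := by
    by_contra hv
    rw [not_le] at hv
    have h1 := Fermat.Agent.RRHur.ord_aeval_of_pole hJtr P hv hS0
    rw [hordS] at h1
    have h2 : (S.natDegree : ℤ) * P.ord J ≤ 0 :=
      mul_nonpos_of_nonneg_of_nonpos (Int.natCast_nonneg _) hv.le
    omega
  obtain ⟨c, hc⟩ := exists_const_sub hRR P hj
  have hc' : 0 < P.ord (J - algebraMap k ↥(modularFunctionFieldFullC k M₀) c) := by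
    rcases hc with hc | hc
    · exfalso
      apply hJtr
      rw [hc]
      exact isAlgebraic_algebraMap c
    · exact hc
  have h1 := Fermat.Agent.GoodRedSmall.ord_aeval_eq P hc' hS0
  rw [hordS] at h1
  have hroot : S.IsRoot c := by
    rw [← Polynomial.rootMultiplicity_pos hS0]
    by_contra h0
    have h00 : S.rootMultiplicity c = 0 := by omega
    rw [h00] at h1
    simp at h1
  -- the identity in `k(Z)`
  have e1 : ((algebraMap k ↥(modularFunctionFieldFullC k M₀) (1728 : k) :
      ↥(modularFunctionFieldFullC k M₀)) : LaurentSeries k) = HahnSeries.C (1728 : k) := by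
    have h := algebraMap_mul_laurent k (1728 : k) 1
    rw [mul_one, mul_one] at h
    exact h
  have hI : t ^ 12 * u =
      (J ^ 4 * (J - algebraMap k ↥(modularFunctionFieldFullC k M₀) 1728) ^ 3) ^ (q - 1) := by
    apply Subtype.ext
    rw [MulMemClass.coe_mul, SubmonoidClass.coe_pow, SubmonoidClass.coe_pow,
      MulMemClass.coe_mul, SubmonoidClass.coe_pow, SubmonoidClass.coe_pow,
      AddSubgroupClass.coe_sub, e1, hJc, ht, hu]
    exact hI0
  have ht0 : t ≠ 0 := by
    intro h0
    have h := congrArg (fun x : ↥(modularFunctionFieldFullC k M₀) => (x : LaurentSeries k)) h0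
    simp only [ht, ZeroMemClass.coe_zero] at h
    exact pow_ne_zero _ Fermat.Agent.IgusaDeg.theta_jqModC_ne_zero h
  have hJ0 : J ≠ 0 := fun h0 => hJtr (h0 ▸ isAlgebraic_zero)
  have hJ1 : J - algebraMap k ↥(modularFunctionFieldFullC k M₀) 1728 ≠ 0 := by
    intro h0
    apply hJtr
    rw [sub_eq_zero.mp h0]
    exact isAlgebraic_algebraMap _
  have hord : 12 * P.ord t + 12 = ((q - 1 : ℕ) : ℤ) *
      (4 * P.ord J + 3 * P.ord (J - algebraMap k ↥(modularFunctionFieldFullC k M₀) 1728)) := by
    have h := congrArg P.ord hI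
    rw [P.ord_mul (pow_ne_zero _ ht0) hu0, igram_ord_pow, hno, igram_ord_pow,
      P.ord_mul (pow_ne_zero _ hJ0) (pow_ne_zero _ hJ1), igram_ord_pow, igram_ord_pow] at h
    push_cast at h ⊢
    linarith
  have hqd' : ((q - 1 : ℕ) : ℤ) = 2 * d := by exact_mod_cast hqd
  rw [hqd'] at hord
  by_cases hcz : c = 0
  · subst hcz
    rw [map_zero, sub_zero] at hc' h1
    rw [hm0 hroot] at h1
    have ha : P.ord J = 3 := by
      push_cast at h1
      omega
    have hb : P.ord (J - algebraMap k ↥(modularFunctionFieldFullC k M₀) 1728) = 0 := by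
      apply Fermat.Agent.GoodRedSmall.ord_eq_zero_of_sub_pos P (c := -1728)
        (neg_ne_zero.mpr h1728)
      rw [map_neg, sub_neg_eq_add, sub_add_cancel]
      exact hc'
    rw [ha, hb] at hord
    have hn : P.ord t = 2 * d - 1 := by linarith
    rw [hn]
    exact ⟨2, -1, by ring⟩
  · by_cases hc1 : c = 1728
    · subst hc1
      rw [hm1 hroot] at h1
      have hb : P.ord (J - algebraMap k ↥(modularFunctionFieldFullC k M₀) 1728) = 2 := by
        push_cast at h1
        omega
      have ha : P.ord J = 0 := Fermat.Agent.GoodRedSmall.ord_eq_zero_of_sub_pos P h1728 hc'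
      rw [ha, hb] at hord
      have hn : P.ord t = d - 1 := by linarith
      rw [hn]
      exact ⟨1, -1, by ring⟩
    · have ha : P.ord J = 0 := Fermat.Agent.GoodRedSmall.ord_eq_zero_of_sub_pos P hcz hc'
      have hb : P.ord (J - algebraMap k ↥(modularFunctionFieldFullC k M₀) 1728) = 0 := by
        apply Fermat.Agent.GoodRedSmall.ord_eq_zero_of_sub_pos P (c := c - 1728)
          (sub_ne_zero.mpr hc1)
        have e : J - algebraMap k ↥(modularFunctionFieldFullC k M₀) 1728 -
            algebraMap k ↥(modularFunctionFieldFullC k M₀) (c - 1728) =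
            J - algebraMap k ↥(modularFunctionFieldFullC k M₀) c := by
          rw [map_sub]
          ring
        rw [e]
        exact hc'
      rw [ha, hb] at hord
      have hn : P.ord t = -1 := by linarith
      rw [hn]
      exact ⟨0, -1, by ring⟩

end Place

section Final

variable (M₀ q : ℕ)

/-- the data of the radical extension `k(Z)(θ j̄) / k(Z)`. -/
theorem igram_setup (hq : q.Prime) (k : Type) [Field k] [CharP k q] :
    ∃ (y : ↥(igField k M₀)) (t : ↥(modularFunctionFieldFullC k M₀)),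
      (y : LaurentSeries k) = Fermat.Agent.IgusaDeg.theta k (jqModC k) ∧
      (t : LaurentSeries k) = Fermat.Agent.IgusaDeg.theta k (jqModC k) ^ midDeg q ∧
      y ≠ 0 ∧
      IntermediateField.inclusion (fullC_le_igField k M₀) t = y ^ midDeg q ∧
      (∀ z : ↥(igField k M₀), ∃ a : Fin (midDeg q) → ↥(modularFunctionFieldFullC k M₀),
        z = ∑ i, IntermediateField.inclusion (fullC_le_igField k M₀) (a i) * y ^ (i : ℕ)) ∧
      (IntermediateField.inclusion (fullC_le_igField k M₀)).toRingHom.IsIntegral := by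
  have hK := igKummer M₀ q hq k
  have hd := igram_midDeg_pos hq
  set y : ↥(igField k M₀) := ⟨Fermat.Agent.IgusaDeg.theta k (jqModC k), theta_mem_igField k M₀⟩
    with hy
  set t : ↥(modularFunctionFieldFullC k M₀) :=
    ⟨Fermat.Agent.IgusaDeg.theta k (jqModC k) ^ midDeg q, hK⟩ with ht
  have hy0 : y ≠ 0 := by
    intro h0
    have h := congrArg (fun x : ↥(igField k M₀) => (x : LaurentSeries k)) h0
    exact Fermat.Agent.IgusaDeg.theta_jqModC_ne_zero h
  have hty : IntermediateField.inclusion (fullC_le_igField k M₀) t = y ^ midDeg q := by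
    apply Subtype.ext
    rw [SubmonoidClass.coe_pow]
    rfl
  have hgen : ∀ z : ↥(igField k M₀),
      ∃ a : Fin (midDeg q) → ↥(modularFunctionFieldFullC k M₀),
        z = ∑ i, IntermediateField.inclusion (fullC_le_igField k M₀) (a i) * y ^ (i : ℕ) := by
    intro z
    obtain ⟨a, ha⟩ := igram_gen (modularFunctionFieldFullC k M₀)
      (Fermat.Agent.IgusaDeg.theta k (jqModC k)) (midDeg q) hd hK z.2
    refine ⟨a, Subtype.ext ?_⟩
    rw [ha, AddSubmonoidClass.coe_finsetSum]
    refine Finset.sum_congr rfl fun i _ => ?_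
    rw [MulMemClass.coe_mul, SubmonoidClass.coe_pow]
    rfl
  exact ⟨y, t, rfl, rfl, hy0, hty, hgen, igram_isIntegral _ y (midDeg q) t hd hty hgen⟩

/-- the coprimality, for every prime `q`. -/
theorem igram_coprime_all (hq : q.Prime) (hqM : ¬ q ∣ M₀) (k : Type) [Field k] [IsAlgClosed k]
    [CharP k q] (P : Place k ↥(modularFunctionFieldFullC k M₀)) (hSS : IsSSPlace k M₀ q P)
    (hno : ∀ u : ↥(modularFunctionFieldFullC k M₀), (u : LaurentSeries k) = ssFun k q →
      P.ord u = 12)
    (t : ↥(modularFunctionFieldFullC k M₀))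
    (ht : (t : LaurentSeries k) = Fermat.Agent.IgusaDeg.theta k (jqModC k) ^ midDeg q) :
    IsCoprime ((midDeg q : ℕ) : ℤ) (P.ord t) := by
  haveI : Fact q.Prime := ⟨hq⟩
  haveI : NeZero M₀ := ⟨fun h => hqM (h ▸ dvd_zero q)⟩
  by_cases h5 : 5 ≤ q
  · obtain ⟨u, hu, -⟩ := hSS
    rw [igram_midDeg_large h5] at ht ⊢
    exact igram_coprime k M₀ q h5 P t u ht hu (hno u hu)
  · rw [igram_midDeg_small hq h5]
    exact isCoprime_one_left

/-- **(IG3) total ramification at the supersingular places.** -/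
theorem igTotRam : IgTotRam M₀ q := by
  intro hq hqM k _ _ _ P hSS hno Q Q' hQ hQ'
  obtain ⟨y, t, -, ht, hy0, hty, hgen, hφ⟩ := igram_setup M₀ q hq k
  have hcop := igram_coprime_all M₀ q hq hqM k P hSS hno t ht
  exact igram_place_unique (IntermediateField.inclusion (fullC_le_igField k M₀)) y (midDeg q) t
    hφ (igram_midDeg_pos hq) hy0 hty hgen P hcop Q Q' hQ hQ'

/-- `[k(Z)(θ j̄) : k(Z)] ≤ midDeg q`. -/
theorem igRam_relfinrank_le (hq : q.Prime) (k : Type) [Field k] [CharP k q] :
    IntermediateField.relfinrank (modularFunctionFieldFullC k M₀) (igField k M₀) ≤ midDeg q :=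
  igram_relfinrank_le (modularFunctionFieldFullC k M₀) _ (midDeg q) (igram_midDeg_pos hq)
    (igKummer M₀ q hq k)

/-- `midDeg q ≤ [k(Z)(θ j̄) : k(Z)]`, if `k(Z)(θ j̄)` has a place over a supersingular place `P`
of `k(Z)` with `ord_P ssFun = 12`. -/
theorem igRam_le_relfinrank (hq : q.Prime) (hqM : ¬ q ∣ M₀) (k : Type) [Field k] [IsAlgClosed k]
    [CharP k q] (P : Place k ↥(modularFunctionFieldFullC k M₀)) (hSS : IsSSPlace k M₀ q P)
    (hno : ∀ u : ↥(modularFunctionFieldFullC k M₀), (u : LaurentSeries k) = ssFun k q →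
      P.ord u = 12)
    (Q : Place k ↥(igField k M₀))
    (hQ : ∀ x : ↥(modularFunctionFieldFullC k M₀), 0 < P.ord x →
      0 < Q.ord (IntermediateField.inclusion (fullC_le_igField k M₀) x)) :
    midDeg q ≤ IntermediateField.relfinrank (modularFunctionFieldFullC k M₀) (igField k M₀) := by
  obtain ⟨y, t, hy, ht, hy0, hty, hgen, hφ⟩ := igram_setup M₀ q hq k
  have hcop := igram_coprime_all M₀ q hq hqM k P hSS hno t ht
  have hd := igram_midDeg_pos hq
  have hK := igKummer M₀ q hq k
  refine igram_le_relfinrank (modularFunctionFieldFullC k M₀) _ (midDeg q)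
    (igram_isIntegral_of_pow_mem _ _ _ hd hK) fun a ha h0 => ?_
  have ha' : a ≠ 0 := by
    obtain ⟨i, hi⟩ := ha
    intro h
    exact hi (by rw [h]; rfl)
  apply igram_sum_ne_zero (IntermediateField.inclusion (fullC_le_igField k M₀)) y (midDeg q) t
    hφ hd hy0 hty P hcop Q hQ a ha'
  apply Subtype.ext
  rw [AddSubmonoidClass.coe_finsetSum, ZeroMemClass.coe_zero, ← h0]
  refine Finset.sum_congr rfl fun i _ => ?_
  rw [MulMemClass.coe_mul, SubmonoidClass.coe_pow, hy]
  rfl

/-- **(IG2) the degree**, given a place of `k(Z)(θ j̄)` over a supersingular place `P` of `k(Z)`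
with `ord_P ssFun = 12`. -/
theorem igRam_relfinrank_eq (hq : q.Prime) (hqM : ¬ q ∣ M₀) (k : Type) [Field k] [IsAlgClosed k]
    [CharP k q] (P : Place k ↥(modularFunctionFieldFullC k M₀)) (hSS : IsSSPlace k M₀ q P)
    (hno : ∀ u : ↥(modularFunctionFieldFullC k M₀), (u : LaurentSeries k) = ssFun k q →
      P.ord u = 12)
    (Q : Place k ↥(igField k M₀))
    (hQ : ∀ x : ↥(modularFunctionFieldFullC k M₀), 0 < P.ord x →
      0 < Q.ord (IntermediateField.inclusion (fullC_le_igField k M₀) x)) :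
    IntermediateField.relfinrank (modularFunctionFieldFullC k M₀) (igField k M₀) = midDeg q :=
  le_antisymm (igRam_relfinrank_le M₀ q hq k) (igRam_le_relfinrank M₀ q hq hqM k P hSS hno Q hQ)

/-- **(IG2) the degree for `q = 2, 3`** (`θ j̄ = -j̄`). -/
theorem igDegree_small (h5 : ¬ 5 ≤ q) : IgDegree M₀ q := by
  intro hq hqM k _ _ _
  have h1 := igRam_relfinrank_le M₀ q hq k
  rw [igram_midDeg_small hq h5] at h1 ⊢
  have hK := igKummer M₀ q hq k
  rw [igram_midDeg_small hq h5, pow_one] at hK
  rw [IntermediateField.relfinrank_eq_one_iff]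
  unfold igField
  rw [IntermediateField.adjoin_le_iff]
  rintro x (hx | hx)
  · exact hx
  · rw [Set.mem_singleton_iff] at hx
    rw [hx]
    exact hK

end Final

end Fermat.Agent.S36G
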