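/-
Cluster G (S36), seat IG, ASSEMBLY (helper52): the middle constant reductions exist
(`IgMidSetupExists`) and the middle valuations are distinct up to squares (`IgMidDistinct`).

Inputs carried as hypotheses:
* `IgDegreeRes M₀ q`  -- `[k(Z)(θ j̄) : k(Z)] = midDeg q` at the residue fields `k` of the places
                         of `ℚ̄` over `q` (from IG-RAM + the supersingular input HNO; needs an
                         auxiliary level, or `q < 5`)
* `IgRR M₀ q`         -- `k(Z)(θ j̄)` is a function field in the sense of the Riemann–Roch library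
-/
import Mathlib
import Fermat.Agent.S36.Igusa.AsmUpper
import Fermat.Agent.S36.Igusa.Val
import Fermat.Agent.S36.Igusa.Lies
import Fermat.Agent.S36.Igusa.Pow
import Fermat.Agent.S36.Igusa.AsmDefs3
import Fermat.Agent.S36.Igusa.Ram
import Fermat.Agent.S36.Igusa.ExpExists
import Fermat.Agent.S36.Igusa.Exp
import Fermat.Agent.S36.Igusa.Theta
import Fermat.Agent.S36.Igusa.Kummer
import Fermat.Agent.S36.Igusa.Dist
import Fermat.Agent.Lib.RR.OfModularBar
import Fermat.Agent.Lib.BadRed.Mod.ValInf

set_option autoImplicit false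
set_option synthInstance.maxHeartbeats 400000

noncomputable section

namespace Fermat.Agent.S36G

open ModularCurve AlgebraicCurve Fermat.Agent.GaussInt Fermat.Agent.Deuring
  Fermat.Agent.Kronecker Fermat.Agent.BadRed Fermat.Agent.RR

local notation "Qb" => AlgebraicClosure ℚ

variable (M₀ q : ℕ) [NeZero M₀] [NeZero q]

/-- **(IG-LIES)** in the form used by the count. -/
theorem igLiesMid : IgLiesMid M₀ q := fun hq A hA _ _ hε hV =>
  ig_liesOver_mid M₀ q hq A hA hε hV

/-- the degree at the residue fields, from the degree at all algebraically closed fields. -/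
theorem igDegreeRes_of_degree (hDeg : IgDegree M₀ q) : IgDegreeRes M₀ q := by
  intro hq hqM A hA
  haveI := isAlgClosed_residue A
  haveI : CharP (IsLocalRing.ResidueField A) q := charP_residueField_of_liesOverPrime A q hq hA
  exact hDeg hq hqM (IsLocalRing.ResidueField A)

/-- `IgDegreeRes` for `q < 5` (seat IG-RAM). -/
theorem igDegreeRes_small (h5 : ¬ 5 ≤ q) : IgDegreeRes M₀ q :=
  igDegreeRes_of_degree M₀ q (igDegree_small M₀ q h5)

/-- **(U)** the residues of `expOv ε A` lie in `k(Z)(θ j̄)` (given the degree). -/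
theorem igResUpper_of_degree (hDeg : IgDegreeRes M₀ q) : IgResUpper M₀ q := fun hq hqM =>
  igResUpper_of (igValRing M₀ q) (igMidExpExists M₀ q hq hqM)
    (igPowIndepRes_of_degreeRes M₀ q hDeg) (igLiesMid M₀ q) hq hqM

/-- **COUNT**: among three middle valuations two coincide (given the degree). -/
theorem igMidAtMostTwo_of_degree (hDeg : IgDegreeRes M₀ q) : IgMidAtMostTwo M₀ q :=
  fun hq hqM =>
    igMidAtMostTwo_of (igValRing M₀ q) (igMidExpExists M₀ q hq hqM)
      (igPowIndepRes_of_degreeRes M₀ q hDeg) (igLiesMid M₀ q) hq hqM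

/-- **(L)** every element of `k(Z)(θ j̄)` is a residue of `expOv ε A`. -/
theorem ig_res_lower (hq : q.Prime) (A : ValuationSubring Qb) (hA : A.LiesOverPrime q)
    (z : Qbˣ) (ε : ↥(modularFunctionFieldBar (M₀ * q * q)) →ₐ[Qb] LaurentSeries Qb)
    (hz : IsPrimitiveRoot z q) (hε : IsMidExp M₀ q z ε) :
    ∀ y ∈ igField (IsLocalRing.ResidueField A) M₀,
      ∃ f : ↥(modularFunctionFieldBar (M₀ * q * q)), f ∈ expOv ε A ∧ expRes ε A f = y := by
  have hle : igField (IsLocalRing.ResidueField A) M₀ ≤ expResField ε A := by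
    unfold igField
    rw [IntermediateField.adjoin_le_iff]
    rintro x (hx | hx)
    · obtain ⟨y, hy, hyx⟩ := exists_gaussResFun_eq_bad (N := M₀) (ℓ := q) A (M₀ * q) rfl x hx
      obtain ⟨hm, hr⟩ := igMidOverInf M₀ q A z ε hε ⟨y, mem_of_mem_gaussSub hy⟩ hy
      exact ⟨_, hm, hr.trans hyx⟩
    · rw [Set.mem_singleton_iff] at hx
      obtain ⟨hm, hr⟩ := igThetaRes M₀ q hq A hA z ε hz hε (distGen M₀ q (z : Qb))
        (dist_eps_distGen hε _)
      exact ⟨_, hm, hr.trans hx.symm⟩
  intro y hy
  exact hle hy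

/-- **(IG1) `IgMidSetupExists`** from the degree and the Riemann–Roch package. -/
theorem igMidSetupExists_of (hDeg : IgDegreeRes M₀ q) (hRR : IgRR M₀ q) :
    IgMidSetupExists M₀ q := by
  intro hq hqM A hA z ε hz hε
  haveI := isAlgClosed_residue A
  haveI : CharP (IsLocalRing.ResidueField A) q := charP_residueField_of_liesOverPrime A q hq hA
  have hV := igValRing M₀ q hq hqM A hA z ε hz hε
  have hU := igResUpper_of_degree M₀ q hDeg hq hqM A hA z ε hz hε
  have hL := ig_res_lower M₀ q hq A hA z ε hz hε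
  have hsc := igScale M₀ q hq hqM A hA z ε hz hε
  have hF := RRMod.isRRField_bar (M₀ * q * q)
  have hFk := hRR hq hqM (IsLocalRing.ResidueField A)
  refine ⟨expValSetup hV (igField (IsLocalRing.ResidueField A) M₀) hU hL hsc hF hFk,
    ⟨rfl, fun _ _ _ => rfl, fun _ => Iff.rfl, fun f hf => ?_⟩, ?_⟩
  · exact coe_expValSetup_red hV _ hU hL hsc hF hFk hf
  · exact hasLattice_expValSetup hV _ hU hL hsc hF hFk (igLattice M₀ q hq hqM A hA z ε hz hε)

/-- **(IG6) `IgMidDistinct`** from the degree. -/
theorem igMidDistinct_of_degree (hDeg : IgDegreeRes M₀ q) : IgMidDistinct M₀ q := fun hq hqM =>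
  igMidDistinct_of (igMidExpExists M₀ q hq hqM) (igMidExpUnique M₀ q hq) (igThetaRes M₀ q)
    (igKummer M₀ q) (igMidOverInf M₀ q) (igMidAtMostTwo_of_degree M₀ q hDeg) hq hqM

end Fermat.Agent.S36G
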