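/-
Cluster G (S36), seat IG, leaf IG-RR (helper1).

`igField k M₀ = k(Z)(θ j̄) ⊆ k((q))`, `k` algebraically closed of characteristic `q`:
* `θ j̄` is algebraic over `k(j̄)`:  `(θ j̄)^6 = Δ̄ j̄^4 (j̄ - 1728)^3` (`IgusaDeg.theta_identity`)
  and `Δ̄^(q-1) = 1 / ssFun`, `ssFun ∈ k[j̄]` (`BadRed.ssFun_eq_aeval`), so
  `ssFun · (θ j̄)^(6 (q-1)) = (j̄^4 (j̄ - 1728)^3)^(q-1)`       (`ig_theta_pow`);
* `igField k M₀` is finite and separable over `k(j̄)` (`j̄` has order `-1`, so it is not a `q`-th
  power: `Lib/RR/SepLaurent`);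
* **`IsRRField k (igField k M₀)`** (`isRRField_igField`): the Riemann–Roch library applies.
No hypothesis (`IgKummer` is NOT needed).
-/
import Mathlib
import Fermat.Agent.S36.Igusa.Defs
import Fermat.Agent.S36.Igusa.AsmDefs
import Fermat.Agent.Lib.RR.OfModularCFinal
import Fermat.Agent.Lib.IgusaDeg.ThetaId
import Fermat.Agent.Lib.IgusaDeg.UMem
import Fermat.Agent.Lib.BadRed.Mod.SSDeg

set_option autoImplicit false
set_option linter.style.haveILetI false
set_option linter.unusedSectionVars false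
set_option synthInstance.maxHeartbeats 400000

noncomputable section

namespace Fermat.Agent.S36G

open ModularCurve AlgebraicCurve IntermediateField Polynomial
open Fermat.Agent.BadRed Fermat.Agent.IgusaDeg Fermat.Agent.S28 Fermat.Agent.RR Fermat.Agent.RRMod

/-! ### the relation `ssFun · (θ j)^(6 (q - 1)) = (j^4 (j - 1728)^3)^(q - 1)` -/

/-- `ssFun · Δ^(q-1) = 1`, over every ring. -/
theorem ig_ssFun_mul_delta (R : Type*) [CommRing R] (q : ℕ) (hq1 : 1 ≤ q) :
    ssFun R q * wp10_DeltaF R ^ (q - 1) = 1 := by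
  have hΔ : wp10_DeltaF R * wp10_mk R (-1) dedekindEtaUnitInv = 1 := by
    rw [wp10_DeltaF, wp10_mk_mul, add_neg_cancel, dedekindEtaUnit_mul_inv, wp10_mk_zero_one]
  have hss : ssFun R q = wp10_mk R (-1) dedekindEtaUnitInv ^ (q - 1) := by
    have e : (-((q : ℤ) - 1)) = ((q - 1 : ℕ) : ℤ) * (-1) := by
      rw [Nat.cast_sub hq1]; push_cast; ring
    rw [wp10_mk_pow, ← e]
    rfl
  rw [hss, ← mul_pow, mul_comm, hΔ, one_pow]

/-- `ssFun · (θ j)^(6 (q-1)) = (j^4 (j - 1728)^3)^(q-1)`, over every ring. -/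
theorem ig_theta_pow (R : Type*) [CommRing R] (q : ℕ) (hq1 : 1 ≤ q) :
    ssFun R q * theta R (jqModC R) ^ (6 * (q - 1)) =
      (jqModC R ^ 4 * (jqModC R - HahnSeries.C (1728 : R)) ^ 3) ^ (q - 1) := by
  rw [pow_mul, theta_identity R, mul_assoc (wp10_DeltaF R), mul_pow, ← mul_assoc,
    ig_ssFun_mul_delta R q hq1, one_mul]

section Field

variable (k : Type) [Field k] (q : ℕ) [Fact q.Prime] [CharP k q]

/-- `(θ j̄)^(6 (q-1))` lies in `k(j̄)`. -/
theorem ig_theta_pow_mem :
    theta k (jqModC k) ^ (6 * (q - 1)) ∈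
      IntermediateField.adjoin k ({jqModC k} : Set (LaurentSeries k)) := by
  have hq1 : 1 ≤ q := (Fact.out : q.Prime).pos
  set E : IntermediateField k (LaurentSeries k) :=
    IntermediateField.adjoin k ({jqModC k} : Set (LaurentSeries k)) with hE
  have hj : jqModC k ∈ E := IntermediateField.mem_adjoin_simple_self k _
  obtain ⟨P, -, hP⟩ := ssFun_eq_aeval k q
  have hss : ssFun k q ∈ E := by
    rw [hP]
    exact evJ_mem_of_mem E hj P
  have hrhs : (jqModC k ^ 4 * (jqModC k - HahnSeries.C (1728 : k)) ^ 3) ^ (q - 1) ∈ E :=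
    pow_mem (mul_mem (pow_mem hj 4) (pow_mem (sub_mem hj (hahnC_mem E 1728)) 3)) (q - 1)
  have hss0 : ssFun k q ≠ 0 := by
    intro h0
    have := ig_ssFun_mul_delta k q hq1
    rw [h0, zero_mul] at this
    exact zero_ne_one this
  have key := ig_theta_pow k q hq1
  have e : theta k (jqModC k) ^ (6 * (q - 1)) =
      (ssFun k q)⁻¹ * (jqModC k ^ 4 * (jqModC k - HahnSeries.C (1728 : k)) ^ 3) ^ (q - 1) := by
    rw [← key, ← mul_assoc, inv_mul_cancel₀ hss0, one_mul]
  rw [e]
  exact mul_mem (inv_mem hss) hrhs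

/-- `θ j̄` is algebraic over `k(j̄)`. -/
theorem ig_isAlgebraic_theta (k : Type) [Field k] (q : ℕ) [Fact q.Prime] [CharP k q] :
    IsAlgebraic ↥(IntermediateField.adjoin k ({jqModC k} : Set (LaurentSeries k)))
      (theta k (jqModC k)) := by
  have hq : 0 < 6 * (q - 1) := by
    have := (Fact.out : q.Prime).two_le
    omega
  refine IsAlgebraic.of_pow hq ?_
  have h := ig_theta_pow_mem k q
  exact isAlgebraic_algebraMap
    (⟨_, h⟩ : ↥(IntermediateField.adjoin k ({jqModC k} : Set (LaurentSeries k))))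

end Field

/-! ### `igField` is finitely generated by elements algebraic over `k(j̄)` -/

theorem igField_eq_adjoin (k : Type*) [Field k] (M₀ : ℕ) :
    igField k M₀ =
      IntermediateField.adjoin k (divisorExpansionsC k M₀ ∪ {theta k (jqModC k)}) := by
  unfold igField modularFunctionFieldFullC
  apply le_antisymm
  · rw [IntermediateField.adjoin_le_iff]
    rintro x (hx | hx)
    · exact (IntermediateField.adjoin.mono k _ _ Set.subset_union_left) hx
    · exact IntermediateField.subset_adjoin k _ (Or.inr hx)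
  · apply IntermediateField.adjoin.mono
    rintro x (hx | hx)
    · exact Or.inl (IntermediateField.subset_adjoin k _ hx)
    · exact Or.inr hx

/-- transport of `finiteDimensional_adjoin_of_isAlgebraic` along an equality. -/
theorem ig_finiteDimensional_of_eq {k L : Type*} [Field k] [Field L] [Algebra k L]
    (E : IntermediateField k L) (S : Set L) (hS : S.Finite)
    (hE : E = IntermediateField.adjoin k S) (j : L) (hj : j ∈ E)
    (halg : ∀ s ∈ S, IsAlgebraic k⟮j⟯ s) :
    FiniteDimensional k⟮(⟨j, hj⟩ : E)⟯ E := by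
  subst hE
  exact finiteDimensional_adjoin_of_isAlgebraic S hS j hj halg

attribute [local instance 10000] SubalgebraClass.toAlgebra HahnSeries.powerSeriesAlgebra

section Main

variable (k : Type) [Field k] (M₀ : ℕ) [NeZero M₀]

/-- `j̄` as an element of `igField k M₀`. -/
def jIg : ↥(igField k M₀) :=
  ⟨jqModC k, fullC_le_igField k M₀ (jqModC_mem_full k M₀)⟩

@[simp] theorem coe_jIg : ((jIg k M₀ : ↥(igField k M₀)) : LaurentSeries k) = jqModC k := rfl

/-- `igField k M₀` is finite over `k(j̄)`. -/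
theorem finiteDimensional_igField (q : ℕ) [Fact q.Prime] [CharP k q] :
    FiniteDimensional k⟮jIg k M₀⟯ ↥(igField k M₀) := by
  refine ig_finiteDimensional_of_eq (igField k M₀) _
    ((finite_divisorExpansionsC k M₀).union (Set.finite_singleton _))
    (igField_eq_adjoin k M₀) (jqModC k) _ ?_
  rintro s (⟨d, hd, -, rfl⟩ | hs)
  · exact Fermat.Agent.IgusaDeg.isAlgebraic_jd k d
  · rw [Set.mem_singleton_iff] at hs
    rw [hs]
    exact ig_isAlgebraic_theta k q

theorem pow_ne_jIg {ℓ : ℕ} (hℓ : 2 ≤ ℓ) (y : ↥(igField k M₀)) : y ^ ℓ ≠ jIg k M₀ := by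
  intro h
  apply pow_ne_jqModC k hℓ (y : LaurentSeries k)
  have := congrArg (Subtype.val) h
  simpa using this

theorem transcendental_jIg [IsAlgClosed k] : Transcendental k (jIg k M₀) := by
  intro halg
  obtain ⟨c, hc⟩ := Fermat.Agent.S24Res.mem_range_of_isAlgebraic halg
  have h1 : algebraMap k (LaurentSeries k) c = jqModC k := by
    have := congrArg (Subtype.val) hc
    simpa using this
  have h2 := congrArg (fun x => HahnSeries.coeff x (-1 : ℤ)) h1
  simp only [coeff_jqModC_neg_one] at h2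
  rw [algebraMap_laurentSeries_eq_single, HahnSeries.coeff_single_of_ne (by decide)] at h2
  exact zero_ne_one h2

/-- `igField k M₀` is separable over `k(j̄)`. -/
theorem isSeparable_igField (q : ℕ) [Fact q.Prime] [CharP k q] [IsAlgClosed k] :
    Algebra.IsSeparable k⟮jIg k M₀⟯ ↥(igField k M₀) := by
  haveI := finiteDimensional_igField k M₀ q
  haveI : Algebra.IsAlgebraic k⟮jIg k M₀⟯ ↥(igField k M₀) := Algebra.IsAlgebraic.of_finite _ _
  refine ⟨fun a => ?_⟩
  exact Fermat.Agent.RRSep.isSeparable_of_isAlgebraic_adjoin q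
    (fun y => pow_ne_jIg k M₀ (Fact.out : q.Prime).two_le y)
    (Algebra.IsAlgebraic.isAlgebraic a)

/-- **IG-RR**: the Riemann–Roch library applies to `k(Z)(θ j̄)`. -/
theorem isRRField_igField (q : ℕ) [Fact q.Prime] [CharP k q] [IsAlgClosed k] :
    IsRRField k ↥(igField k M₀) := by
  haveI := finiteDimensional_igField k M₀ q
  haveI := isSeparable_igField k M₀ q
  exact isRRField_of_separable (transcendental_jIg k M₀)

/-- `jIg` is the image of `jC` under the inclusion `k(Z) ⊆ k(Z)(θ j̄)`. -/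
theorem jIg_eq_inclusion :
    jIg k M₀ = IntermediateField.inclusion (fullC_le_igField k M₀) (jC k M₀) := rfl

/-- finiteness, with `x = ` the image of `jC`. -/
theorem finiteDimensional_igField' (q : ℕ) [Fact q.Prime] [CharP k q] :
    FiniteDimensional k⟮IntermediateField.inclusion (fullC_le_igField k M₀) (jC k M₀)⟯
      ↥(igField k M₀) :=
  finiteDimensional_igField k M₀ q

/-- separability, with `x = ` the image of `jC` (the form of `ig_hM`, helper63). -/
theorem isSeparable_igField' (q : ℕ) [Fact q.Prime] [CharP k q] [IsAlgClosed k] :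
    Algebra.IsSeparable k⟮IntermediateField.inclusion (fullC_le_igField k M₀) (jC k M₀)⟯
      ↥(igField k M₀) :=
  isSeparable_igField k M₀ q

end Main

/-- **(IG-RR)**, in the form of `AsmDefs.lean`. -/
theorem igRR (M₀ q : ℕ) : IgRR M₀ q := by
  intro hq hqM k _ _ _
  haveI : Fact q.Prime := ⟨hq⟩
  haveI : NeZero M₀ := ⟨fun h => hqM (h ▸ dvd_zero q)⟩
  exact isRRField_igField k M₀ q

end Fermat.Agent.S36G
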