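/-
Cluster G (S36), seat IG, CLOSED (helper52): the Igusa pair at the auxiliary levels,
UNCONDITIONALLY.

`M₀` without elliptic points (`nuTwo M₀ = 0`, `nuThree M₀ = 0`):

* `igHno`               : `IgHno M₀ q`               (helper98's `gen_hno`)
* `igDegreeRes_aux`     : `IgDegreeRes M₀ q`         (IG2 at the residue fields)
* `igMidSetupExists_aux`: `IgMidSetupExists M₀ q`    (IG1)
* `igMidDistinct_aux`   : `IgMidDistinct M₀ q`       (IG6)
* `igResUpper_aux`, `igMidAtMostTwo_aux`
-/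
import Mathlib
import Fermat.Agent.S36.Igusa.AsmAux
import Fermat.Agent.S36.Genus.Hno

set_option autoImplicit false
set_option synthInstance.maxHeartbeats 400000

noncomputable section

namespace Fermat.Agent.S36G

open ModularCurve AlgebraicCurve

local notation "Qb" => AlgebraicClosure ℚ

variable (M₀ q : ℕ) [NeZero M₀] [NeZero q]

/-- **(HNO)** at the auxiliary levels. -/
theorem igHno (hν2 : nuTwo M₀ = 0) (hν3 : nuThree M₀ = 0) : IgHno M₀ q :=
  fun hq h5 hqM _ hA P hP u hu => gen_hno M₀ hq h5 hqM hν2 hν3 hA P hP u hu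

/-- **(IG2)** at the residue fields, auxiliary level. -/
theorem igDegreeRes_aux (hν2 : nuTwo M₀ = 0) (hν3 : nuThree M₀ = 0) : IgDegreeRes M₀ q :=
  igDegreeRes_of_hno M₀ q hν2 hν3 (igHno M₀ q hν2 hν3)

/-- **(IG1)** the middle constant reductions exist (auxiliary level). -/
theorem igMidSetupExists_aux (hν2 : nuTwo M₀ = 0) (hν3 : nuThree M₀ = 0) :
    IgMidSetupExists M₀ q :=
  igMidSetupExists_of_hno M₀ q hν2 hν3 (igHno M₀ q hν2 hν3)

/-- **(IG6)** the middle valuations are distinct up to squares (auxiliary level). -/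
theorem igMidDistinct_aux (hν2 : nuTwo M₀ = 0) (hν3 : nuThree M₀ = 0) :
    IgMidDistinct M₀ q :=
  igMidDistinct_of_hno M₀ q hν2 hν3 (igHno M₀ q hν2 hν3)

/-- **(U)** the residues of the middle valuation rings lie in `k(Z)(θ j̄)` (auxiliary level). -/
theorem igResUpper_aux (hν2 : nuTwo M₀ = 0) (hν3 : nuThree M₀ = 0) : IgResUpper M₀ q :=
  igResUpper_of_hno M₀ q hν2 hν3 (igHno M₀ q hν2 hν3)

/-- **COUNT**: among three middle valuations two coincide (auxiliary level). -/
theorem igMidAtMostTwo_aux (hν2 : nuTwo M₀ = 0) (hν3 : nuThree M₀ = 0) :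
    IgMidAtMostTwo M₀ q :=
  igMidAtMostTwo_of_hno M₀ q hν2 hν3 (igHno M₀ q hν2 hν3)

end Fermat.Agent.S36G
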