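/-
Cluster G (S36), seat IG-DIST (helper10), complement: the COUNT hypothesis `IgMidAtMostTwo` of
`igMidDistinct_of` from a COVER of the middle valuation rings by two rings (what the saturated
system `SatExt` of COUNT-ABS gives: every extension of the Gauss ring of `F₁` is one of
`O_∞, O_+, O_-`, and a middle ring is not `O_∞`).
-/
import Mathlib
import Fermat.Agent.S36.Igusa.Dist

set_option autoImplicit false
set_option linter.unusedVariables false

noncomputable section

namespace Fermat.Agent.S36G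

open ModularCurve Fermat.Agent.GaussInt Fermat.Agent.Kronecker

local notation "Qb" => AlgebraicClosure ℚ

variable {M₀ q : ℕ} [NeZero M₀] [NeZero q]

/-- **pigeonhole**: if at every place the middle valuation rings are covered by two subrings,
then among three middle valuation rings two coincide. -/
theorem igMidAtMostTwo_of_cover
    (h : q.Prime → ¬ q ∣ M₀ → ∀ (A : ValuationSubring Qb), A.LiesOverPrime q →
      ∃ O₁ O₂ : Subring ↥(modularFunctionFieldBar (M₀ * q * q)),
        ∀ (z : Qbˣ) (ε : ↥(modularFunctionFieldBar (M₀ * q * q)) →ₐ[Qb] LaurentSeries Qb),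
          IsPrimitiveRoot z q → IsMidExp M₀ q z ε → expOv ε A = O₁ ∨ expOv ε A = O₂) :
    IgMidAtMostTwo M₀ q := by
  intro hq hqM A hA z₁ z₂ z₃ ε₁ ε₂ ε₃ hz₁ hz₂ hz₃ hε₁ hε₂ hε₃
  obtain ⟨O₁, O₂, hO⟩ := h hq hqM A hA
  rcases hO z₁ ε₁ hz₁ hε₁ with h1 | h1 <;> rcases hO z₂ ε₂ hz₂ hε₂ with h2 | h2 <;>
    rcases hO z₃ ε₃ hz₃ hε₃ with h3 | h3
  · exact Or.inl (h1.trans h2.symm)
  · exact Or.inl (h1.trans h2.symm)
  · exact Or.inr (Or.inl (h1.trans h3.symm))
  · exact Or.inr (Or.inr (h2.trans h3.symm))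
  · exact Or.inr (Or.inr (h2.trans h3.symm))
  · exact Or.inr (Or.inl (h1.trans h3.symm))
  · exact Or.inl (h1.trans h2.symm)
  · exact Or.inl (h1.trans h2.symm)

/-- the same with a base root of unity: every middle valuation ring is `v_z` or `v_{z ^ n}`. -/
theorem igMidAtMostTwo_of_two
    (h : q.Prime → ¬ q ∣ M₀ → ∀ (A : ValuationSubring Qb), A.LiesOverPrime q →
      ∃ (εp εm : ↥(modularFunctionFieldBar (M₀ * q * q)) →ₐ[Qb] LaurentSeries Qb),
        ∀ (z : Qbˣ) (ε : ↥(modularFunctionFieldBar (M₀ * q * q)) →ₐ[Qb] LaurentSeries Qb),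
          IsPrimitiveRoot z q → IsMidExp M₀ q z ε →
            expOv ε A = expOv εp A ∨ expOv ε A = expOv εm A) :
    IgMidAtMostTwo M₀ q :=
  igMidAtMostTwo_of_cover fun hq hqM A hA => by
    obtain ⟨εp, εm, hO⟩ := h hq hqM A hA
    exact ⟨expOv εp A, expOv εm A, hO⟩

end Fermat.Agent.S36G
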